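import Fermat.Agent.S37.DV.Setup

/-!
# T-S37, part (DV), block W: finiteness of the `m`-torsion classes from the finiteness of `W_m`
-/

set_option autoImplicit false
set_option linter.unusedSectionVars false

open AlgebraicCurve ModularCurve Fermat.Agent.S24RH Fermat.Agent.ESlib

namespace Fermat.Agent.S37lib.DV

variable {K F : Type*} [Field K] [Field F] [Algebra K F] [IsAlgClosed K] [CharZero K]

/-- `(1/m) div f` for an `m`-divisible function -/
theorem exists_div_div (hFF : IsFF K F) {m : ℕ} {f : F} (hf : MDiv K m f) :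
    ∃ D : Divisor K F, ∀ v, (m : ℤ) * D v = v.ord f := by
  obtain ⟨G, hG, -⟩ := exists_div hFF hf.1
  refine ⟨G.mapRange (fun n => n / (m : ℤ)) (by simp), fun v => ?_⟩
  rw [Finsupp.mapRange_apply, hG v]
  exact Int.mul_ediv_cancel' (hf.2 v)

/-- For `w ∈ W_m` choose a representative `f_w` and `D_w` with `m • D_w = div f_w`; `𝒯 := {D_w}`.
If `m • D + div f = 0` then `f⁻¹ = f_w g ^ m` for `w` the class of `f⁻¹`, so `D = D_w + div g`. -/
theorem finTors_of_finite_Wm (hFF : IsFF K F) {m : ℕ} (hm : 0 < m) [Finite (Wm K F m)] :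
    FinTors K F m := by
  classical
  have := Fintype.ofFinite (Wm K F m)
  have hrep : ∀ w : Wm K F m, ∃ D : Divisor K F, ∀ v,
      (m : ℤ) * D v = v.ord (((Quotient.out w : mDivUnits K F m) : Fˣ) : F) := fun w =>
    exists_div_div hFF (mem_mDivUnits.1 (Quotient.out w).2)
  choose Dw hDw using hrep
  refine ⟨Finset.univ.image Dw, fun D _ hD => ?_⟩
  obtain ⟨f, hf, hfD⟩ := hD
  have hord : ∀ v : Place K F, v.ord f⁻¹ = (m : ℤ) * D v := by
    intro v
    have := hfD v
    rw [Finsupp.zero_apply, Finsupp.smul_apply, nsmul_eq_mul] at this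
    rw [v.ord_inv]
    linarith
  have hmd : MDiv K m f⁻¹ := ⟨inv_ne_zero hf, fun v => by rw [hord v]; exact Dvd.intro _ rfl⟩
  let u : mDivUnits K F m := ⟨Units.mk0 f⁻¹ (inv_ne_zero hf), mem_mDivUnits.2 hmd⟩
  let w : Wm K F m := QuotientGroup.mk u
  refine ⟨Dw w, Finset.mem_image_of_mem _ (Finset.mem_univ _), ?_⟩
  have h2 : (QuotientGroup.mk (Quotient.out w) : Wm K F m) = QuotientGroup.mk u :=
    Quotient.out_eq _
  rw [QuotientGroup.eq] at h2
  obtain ⟨a, ha⟩ := h2
  have h3 := congrArg (fun x : Fˣ => (x : F)) ha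
  simp only [powMonoidHom_apply, Units.val_pow_eq_pow_val, Subgroup.subtype_apply,
    Subgroup.coe_mul, Subgroup.coe_inv, Units.val_mul, Units.val_inv_eq_inv_val] at h3
  set fw : F := (((Quotient.out w : mDivUnits K F m) : Fˣ) : F) with hfw
  have hfw0 : fw ≠ 0 := Units.ne_zero _
  have h4 : f⁻¹ = fw * (a : F) ^ m := by
    rw [h3, mul_inv_cancel_left₀ hfw0]
    rfl
  refine ⟨(a : F)⁻¹, inv_ne_zero a.ne_zero, fun v => ?_⟩
  have h5 := hord v
  rw [h4, v.ord_mul hfw0 (pow_ne_zero _ a.ne_zero), ord_pow, ← hDw w v] at h5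
  rw [v.ord_inv]
  have hm' : (m : ℤ) ≠ 0 := by exact_mod_cast hm.ne'
  have h6 : (m : ℤ) * (Dw w v + v.ord (a : F)) = (m : ℤ) * D v := by rw [← h5]; ring
  have h7 := mul_left_cancel₀ hm' h6
  linarith

end Fermat.Agent.S37lib.DV
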