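import Fermat.Agent.S37.DV.DescentG
import Fermat.Agent.S37.DV.Tors
import Fermat.Agent.ES.A.Theta
import Fermat.Agent.ES.M.Base

/-!
# T-S37, part (DV): `J₀(N)(ℚ̄)` is divisible
-/

set_option autoImplicit false
set_option linter.unusedSectionVars false

open AlgebraicCurve ModularCurve Fermat.Agent.S24RH Fermat.Agent.ESlib Fermat.Agent.S24lib

namespace Fermat.Agent.S37lib.DV

variable (N : ℕ) [NeZero N]

/-- **I1.**  (`ES/M/Base`: `transcendental_J1K`, `finrank_J1K_le`) -/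
theorem isFF_all (L : Type) [Field L] [Algebra ℚ L] :
    IsFF L (laurentBaseChange L (modularFunctionFieldFull N)) := by
  have : CharZero L := algebraRat.charZero L
  exact ⟨J1 L N, transcendental_J1K L N, (finrank_J1K_le L N).1⟩

/-- **I2.**  the `q`-adic place: `{f : 0 ≤ order f}` is the valuation ring of a place
(`S24lib.exists_place_of_valuation` with `w f = (f : LaurentSeries Ω).order`), and it is stable under
the coefficientwise action. -/
theorem exists_fixed_place {Ω : Type} [Field Ω] [Algebra ℚ Ω]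
    (F₀ : IntermediateField ℚ (LaurentSeries ℚ))
    (h : ∃ x : laurentBaseChange Ω F₀, x ≠ 0 ∧ (x : LaurentSeries Ω).order ≠ 0) :
    ∃ P : Place Ω (laurentBaseChange Ω F₀), ∀ σ : Ω ≃ₐ[ℚ] Ω, act F₀ σ • P = P := by
  have hne : ∀ f : laurentBaseChange Ω F₀, f ≠ 0 → (f : LaurentSeries Ω) ≠ 0 := fun f hf h0 =>
    hf (Subtype.ext h0)
  obtain ⟨P, n, hn, hP⟩ := exists_place_of_valuation (K := Ω)
    (fun f : laurentBaseChange Ω F₀ => (f : LaurentSeries Ω).order)
    (fun f g hf hg => HahnSeries.order_mul (hne f hf) (hne g hg))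
    (fun f g _ _ hfg => HahnSeries.min_order_le_order_add (hne _ hfg))
    (fun a ha => by
      show (algebraMap Ω (LaurentSeries Ω) a).order = 0
      rw [algebraMap_laurentSeries_eq_single]
      exact HahnSeries.order_single ha)
    h
  refine ⟨P, fun σ => ?_⟩
  apply place_ext_of_le
  intro f hf
  rw [← ord_nonneg_iff] at hf ⊢
  by_cases hf0 : f = 0
  · rw [hf0]; simp
  have h1 := SemilinearAut.ord_smul (act F₀ σ) P ((act F₀ σ)⁻¹ • f)
  rw [smul_inv_smul] at h1
  rw [h1] at hf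
  have hf1 : (act F₀ σ)⁻¹ • f ≠ 0 := (smul_ne_zero_iff_ne _).2 hf0
  have h2 := hP _ hf1
  have h3 := hP _ hf0
  have h4 : (((act F₀ σ)⁻¹ • f : laurentBaseChange Ω F₀) : LaurentSeries Ω).order
      = (f : LaurentSeries Ω).order := by
    rw [act, ← map_inv, coe_arithmeticGalois_smul]
    exact order_coeffMap_of_injective _ (σ⁻¹ : Ω ≃ₐ[ℚ] Ω).injective _
  rw [h4, h3] at h2
  have hn' : (n : ℤ) ≠ 0 := by exact_mod_cast hn.ne'
  rw [mul_left_cancel₀ hn' h2]
  exact hf

/-- **I3.** -/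
theorem act_smul_J1 (σ : ℂ ≃ₐ[ℚ] ℂ) :
    act (modularFunctionFieldFull N) σ • J1 ℂ N = J1 ℂ N :=
  Subtype.ext (coeffMap_coeffEmb σ _)

/-- **I4.**  the setting for `Ω = ℂ`, `F₀ = ℚ(X₀(N))` -/
theorem nonempty_setting : Nonempty (Setting ℂ (modularFunctionFieldFull N)) := by
  obtain ⟨P, hP⟩ := exists_fixed_place (Ω := ℂ) (modularFunctionFieldFull N)
    ⟨J1 ℂ N, fun h0 => transcendental_J1K ℂ N (h0 ▸ isAlgebraic_zero), by
      rw [coe_J1, show jqModC ℂ = Fermat.Agent.S28lib.jA ℂ from rfl, Fermat.Agent.S28lib.order_jA]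
      norm_num⟩
  exact ⟨{
    isFF := fun L _ _ => isFF_all N L
    J := J1 ℂ N
    J_fix := act_smul_J1 N
    J_tr := transcendental_J1K ℂ N
    Pinf := P
    Pinf_fix := hP
    inf := exists_notMem_clo_complex }⟩

/-- **I5.** -/
theorem mem_clo_empty_iff (x : ℂ) :
    x ∈ clo (∅ : Set ℂ) ↔ x ∈ (algebraMap Kb ℂ).range := by
  have h1 : x ∈ clo (∅ : Set ℂ) ↔ IsAlgebraic ℚ x := by
    constructor
    · intro h
      have h' : IsAlgebraic (IntermediateField.adjoin ℚ (∅ : Set ℂ)) x := h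
      rw [IntermediateField.adjoin_empty] at h'
      have : Algebra.IsAlgebraic ℚ (⊥ : IntermediateField ℚ ℂ) :=
        (IntermediateField.botEquiv ℚ ℂ).symm.isAlgebraic
      exact h'.restrictScalars ℚ
    · intro h
      exact h.extendScalars (algebraMap ℚ (IntermediateField.adjoin ℚ (∅ : Set ℂ))).injective
  rw [h1]
  constructor
  · intro h
    exact Fermat.Agent.ESlib.mem_range_of_isAlgebraic Kb ℂ
      (h.extendScalars (algebraMap ℚ Kb).injective)
  · rintro ⟨a, rfl⟩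
    have ha : IsAlgebraic ℚ a := (AlgebraicClosure.isAlgebraic ℚ).isAlgebraic a
    exact ha.algebraMap

/-- **(DV)**: `J₀(N)(ℚ̄)` is divisible. -/
theorem dv {m : ℕ} (hm : 0 < m) (D : Divisor Kb (modularFunctionFieldBar N))
    (hD : Divisor.degree D = 0) :
    ∃ (h : modularFunctionFieldBar N) (E : Divisor Kb (modularFunctionFieldBar N)), h ≠ 0 ∧
      Divisor.degree E = 0 ∧ ∀ v, D v = v.ord h + m * E v := by
  obtain ⟨𝔖⟩ := nonempty_setting N
  obtain ⟨g, c, hR⟩ := riemann (𝔖.isFF ℂ)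
  have : NeZero m := ⟨hm.ne'⟩
  exact 𝔖.descent (L := Kb) (mem_clo_empty_iff) hR hm (finTors_of_finite_Wm (𝔖.isFF ℂ) hm) D hD

end Fermat.Agent.S37lib.DV
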