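import Mathlib

/-!
# S37, (DV), part (X): automorphisms of an algebraically closed field

Every automorphism of a subfield `K` of an algebraically closed field `Ω` extends to `Ω`, and the
extension can be prescribed on finite families algebraically independent over `K`.
-/

set_option autoImplicit false

namespace Fermat.Agent.S37lib

open MvPolynomial Cardinal

variable {K Ω : Type*} [Field K] [Field Ω] [Algebra K Ω] [IsAlgClosed Ω]

/-- Core extension statement: an automorphism of `K` and a bijection between two transcendence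
bases of `Ω / K` extend to an automorphism of `Ω`. -/
theorem exists_ringEquiv_of_isTranscendenceBasis {ι κ : Type*} (φ : K ≃+* K)
    {v : ι → Ω} {w : κ → Ω} (hv : IsTranscendenceBasis K v) (hw : IsTranscendenceBasis K w)
    (e : ι ≃ κ) :
    ∃ τ : Ω ≃+* Ω, (∀ x : K, τ (algebraMap K Ω x) = algebraMap K Ω (φ x)) ∧
      ∀ i, τ (v i) = w (e i) := by
  classical
  let R₁ := Algebra.adjoin K (Set.range v)
  let R₂ := Algebra.adjoin K (Set.range w)
  let e₁ : MvPolynomial ι K ≃ₐ[K] R₁ := hv.1.aevalEquiv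
  let e₂ : MvPolynomial κ K ≃ₐ[K] R₂ := hw.1.aevalEquiv
  let mid : MvPolynomial ι K ≃+* MvPolynomial κ K :=
    (MvPolynomial.mapEquiv ι φ).trans (MvPolynomial.renameEquiv K e).toRingEquiv
  let ψ : R₁ ≃+* R₂ := e₁.symm.toRingEquiv.trans (mid.trans e₂.toRingEquiv)
  have hcl₁ : IsAlgClosure R₁ Ω := ⟨inferInstance, hv.isAlgebraic⟩
  have hcl₂ : IsAlgClosure R₂ Ω := ⟨inferInstance, hw.isAlgebraic⟩
  let S : Ω ≃+* Ω := IsAlgClosure.equivOfEquiv Ω Ω ψ
  have hS : ∀ r : R₁, S (algebraMap R₁ Ω r) = algebraMap R₂ Ω (ψ r) := fun r =>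
    IsAlgClosure.equivOfEquiv_algebraMap Ω Ω ψ r
  have hψ : ∀ p : MvPolynomial ι K, ψ (e₁ p) = e₂ (mid p) := by
    intro p
    show e₂ (mid (e₁.symm (e₁ p))) = _
    rw [AlgEquiv.symm_apply_apply]
  refine ⟨S, ?_, ?_⟩
  · intro x
    have h1 : algebraMap K Ω x = algebraMap R₁ Ω (e₁ (C x)) := by
      rw [AlgebraicIndependent.algebraMap_aevalEquiv, aeval_C]
    have h2 : mid (C x) = C (φ x) := by
      show MvPolynomial.renameEquiv K e (MvPolynomial.mapEquiv ι φ (C x)) = _
      simp
    rw [h1, hS, hψ, h2, AlgebraicIndependent.algebraMap_aevalEquiv, aeval_C]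
  · intro i
    have h1 : v i = algebraMap R₁ Ω (e₁ (X i)) := by
      rw [AlgebraicIndependent.algebraMap_aevalEquiv, aeval_X]
    have h2 : mid (X i) = X (e i) := by
      show MvPolynomial.renameEquiv K e (MvPolynomial.mapEquiv ι φ (X i)) = _
      simp
    rw [h1, hS, hψ, h2, AlgebraicIndependent.algebraMap_aevalEquiv, aeval_X]

/-- **(X5)** An automorphism `φ` of a subfield `K` of an algebraically closed field `Ω` extends to
an automorphism of `Ω` carrying a given finite family, algebraically independent over `K`, to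
another one. -/
theorem exists_ringEquiv_extend {ι : Type*} [Finite ι] (φ : K ≃+* K) {a b : ι → Ω}
    (ha : AlgebraicIndependent K a) (hb : AlgebraicIndependent K b) :
    ∃ τ : Ω ≃+* Ω, (∀ x : K, τ (algebraMap K Ω x) = algebraMap K Ω (φ x)) ∧
      ∀ i, τ (a i) = b i := by
  classical
  obtain ⟨s, has, hs⟩ := exists_isTranscendenceBasis_superset ha.to_subtype_range
  obtain ⟨t, hbt, ht⟩ := exists_isTranscendenceBasis_superset hb.to_subtype_range
  have hcard : #s = #t := hs.cardinalMk_eq ht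
  let e₁ : Set.range a ≃ Set.range b :=
    (Equiv.ofInjective a ha.injective).symm.trans (Equiv.ofInjective b hb.injective)
  have hfin : #(Set.range a) < ℵ₀ := by
    have : Finite (Set.range a) := Set.finite_range a
    exact Cardinal.lt_aleph0_of_finite _
  have h1 : #(s \ Set.range a : Set Ω) + #(Set.range a) = #s := Cardinal.mk_sdiff_add_mk has
  have h2 : #(t \ Set.range b : Set Ω) + #(Set.range b) = #t := Cardinal.mk_sdiff_add_mk hbt
  have h3 : #(Set.range a) = #(Set.range b) := Cardinal.mk_congr e₁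
  have h4 : #(s \ Set.range a : Set Ω) = #(t \ Set.range b : Set Ω) := by
    rw [← h1, ← h2, ← h3] at hcard
    exact (Cardinal.add_right_inj_of_lt_aleph0 hfin).mp hcard
  obtain ⟨e₂⟩ := Cardinal.eq.mp h4
  let e : s ≃ t := (Equiv.Set.sumDiffSubset has).symm.trans
    ((Equiv.sumCongr e₁ e₂).trans (Equiv.Set.sumDiffSubset hbt))
  obtain ⟨τ, hτ1, hτ2⟩ := exists_ringEquiv_of_isTranscendenceBasis φ hs ht e
  refine ⟨τ, hτ1, fun i => ?_⟩
  have h5 := hτ2 ⟨a i, has ⟨i, rfl⟩⟩
  have h6 : e ⟨a i, has ⟨i, rfl⟩⟩ = ⟨b i, hbt ⟨i, rfl⟩⟩ := by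
    have h7 : (Equiv.Set.sumDiffSubset has).symm ⟨a i, has ⟨i, rfl⟩⟩
        = Sum.inl ⟨a i, ⟨i, rfl⟩⟩ :=
      Equiv.Set.sumDiffSubset_symm_apply_of_mem has (x := ⟨a i, has ⟨i, rfl⟩⟩) ⟨i, rfl⟩
    have h8 : e₁ ⟨a i, ⟨i, rfl⟩⟩ = ⟨b i, ⟨i, rfl⟩⟩ := by
      show Equiv.ofInjective b hb.injective ((Equiv.ofInjective a ha.injective).symm _) = _
      have : (⟨a i, ⟨i, rfl⟩⟩ : Set.range a) = Equiv.ofInjective a ha.injective i := rfl
      rw [this, Equiv.symm_apply_apply]
      rfl
    show Equiv.Set.sumDiffSubset hbt (Equiv.sumCongr e₁ e₂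
      ((Equiv.Set.sumDiffSubset has).symm ⟨a i, has ⟨i, rfl⟩⟩)) = _
    rw [h7, Equiv.sumCongr_apply, Sum.map_inl, h8]
    rfl
  rw [h6] at h5
  exact h5

/-- **(X4)** Every automorphism of a subfield of an algebraically closed field extends. -/
theorem exists_ringEquiv_extend' (φ : K ≃+* K) :
    ∃ τ : Ω ≃+* Ω, ∀ x : K, τ (algebraMap K Ω x) = algebraMap K Ω (φ x) := by
  have h0 : AlgebraicIndependent K (fun i : Empty => (i.elim : Ω)) :=
    algebraicIndependent_empty_type_iff.mpr (algebraMap K Ω).injective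
  obtain ⟨τ, h, -⟩ := exists_ringEquiv_extend φ h0 h0
  exact ⟨τ, h⟩

/-- **(X2)** Two finite families algebraically independent over `K` are conjugate under
`Aut (Ω / K)`. -/
theorem exists_algEquiv_of_algebraicIndependent {ι : Type*} [Finite ι] {a b : ι → Ω}
    (ha : AlgebraicIndependent K a) (hb : AlgebraicIndependent K b) :
    ∃ τ : Ω ≃ₐ[K] Ω, ∀ i, τ (a i) = b i := by
  obtain ⟨τ, h1, h2⟩ := exists_ringEquiv_extend (RingEquiv.refl K) ha hb
  exact ⟨AlgEquiv.ofRingEquiv (f := τ) h1, h2⟩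

/-- **(X1)** Two elements transcendental over `K` are conjugate under `Aut (Ω / K)`. -/
theorem exists_algEquiv_of_transcendental {t t' : Ω} (ht : Transcendental K t)
    (ht' : Transcendental K t') : ∃ τ : Ω ≃ₐ[K] Ω, τ t = t' := by
  obtain ⟨τ, h⟩ := exists_algEquiv_of_algebraicIndependent
    (a := fun _ : Unit => t) (b := fun _ : Unit => t')
    ((algebraicIndependent_unique_type_iff).mpr ht) ((algebraicIndependent_unique_type_iff).mpr ht')
  exact ⟨τ, h ()⟩

/-- **(X3)** Two roots in `Ω` of the same irreducible polynomial over `K` are conjugate under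
`Aut (Ω / K)`. -/
theorem exists_algEquiv_of_minpoly_eq {x y : Ω} (hx : IsAlgebraic K x)
    (h : minpoly K x = minpoly K y) : ∃ τ : Ω ≃ₐ[K] Ω, τ x = y := by
  have hy : IsAlgebraic K y := by
    by_contra hy
    have h0 : minpoly K y = 0 := minpoly.eq_zero (fun hi => hy hi.isAlgebraic)
    exact minpoly.ne_zero hx.isIntegral (h.trans h0)
  let Kb := algebraicClosure K Ω
  have hcl : IsAlgClosure K Kb := algebraicClosure.isAlgClosure K Ω
  have hn : Normal K Kb := IsAlgClosure.normal K Kb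
  let x' : Kb := ⟨x, (mem_algebraicClosure_iff).mpr hx⟩
  let y' : Kb := ⟨y, (mem_algebraicClosure_iff).mpr hy⟩
  have hconj : IsConjRoot K y' x' := by
    show minpoly K y' = minpoly K x'
    rw [← minpoly.algebraMap_eq (algebraMap Kb Ω).injective y',
      ← minpoly.algebraMap_eq (algebraMap Kb Ω).injective x']
    exact h.symm
  obtain ⟨σ, hσ⟩ := (isConjRoot_iff_exists_algEquiv).mp hconj
  obtain ⟨τ, hτ⟩ := exists_ringEquiv_extend' (Ω := Ω) σ.toRingEquiv
  refine ⟨AlgEquiv.ofRingEquiv (f := τ) ?_, ?_⟩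
  · intro k
    have := hτ (algebraMap K Kb k)
    rw [← IsScalarTower.algebraMap_apply K Kb Ω] at this
    rw [this]
    show algebraMap Kb Ω (σ (algebraMap K Kb k)) = _
    rw [σ.commutes, ← IsScalarTower.algebraMap_apply K Kb Ω]
  · show τ x = y
    have := hτ x'
    have h2 : σ.toRingEquiv x' = y' := hσ
    rw [h2] at this
    exact this

end Fermat.Agent.S37lib
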