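import Mathlib
import Fermat.Agent.ES.B.FiniteOrbit
import Fermat.Agent.S37.DV.AutExt

/-!
# T-S37, part (DV), block X: automorphisms of an algebraically closed field `Ω` over `ℚ`

`clo S` = algebraic closure of `ℚ(S)` in `Ω`; `Gfix S = Aut(Ω / clo S)`;
`Hfix S t = Aut(Ω / (clo S)(t))`.  Pure field theory (Mathlib + `ES/B/FiniteOrbit`).
-/

set_option autoImplicit false

namespace Fermat.Agent.S37lib.DV

variable {Ω : Type*} [Field Ω] [Algebra ℚ Ω]

/-- the algebraic closure of `ℚ(S)` in `Ω` (as a set) -/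
def clo (S : Set Ω) : Set Ω := {x | IsAlgebraic (IntermediateField.adjoin ℚ S) x}

/-- the algebraic closure of `ℚ(S)` in `Ω` (as an intermediate field) -/
noncomputable def cloField (S : Set Ω) : IntermediateField ℚ Ω :=
  (algebraicClosure (IntermediateField.adjoin ℚ S) Ω).restrictScalars ℚ

theorem mem_cloField {S : Set Ω} {x : Ω} : x ∈ cloField S ↔ x ∈ clo S := by
  show x ∈ algebraicClosure (IntermediateField.adjoin ℚ S) Ω ↔ _
  rw [mem_algebraicClosure_iff]
  rfl

/-- `Aut(Ω / clo S)` -/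
def Gfix (S : Set Ω) : Subgroup (Ω ≃ₐ[ℚ] Ω) where
  carrier := {τ | ∀ x ∈ clo S, τ x = x}
  one_mem' := fun _ _ => rfl
  mul_mem' := fun {a b} ha hb x hx => by rw [AlgEquiv.mul_apply, hb x hx, ha x hx]
  inv_mem' := fun {a} ha x hx => by
    apply a.injective
    rw [ha x hx]
    exact AlgEquiv.apply_symm_apply a x

/-- `Aut(Ω / (clo S)(t))` -/
def Hfix (S : Set Ω) (t : Ω) : Subgroup (Ω ≃ₐ[ℚ] Ω) where
  carrier := {τ | τ ∈ Gfix S ∧ τ t = t}
  one_mem' := ⟨(Gfix S).one_mem, rfl⟩
  mul_mem' := fun {a b} ha hb =>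
    ⟨(Gfix S).mul_mem ha.1 hb.1, by rw [AlgEquiv.mul_apply, hb.2, ha.2]⟩
  inv_mem' := fun {a} ha => ⟨(Gfix S).inv_mem ha.1, by
    apply a.injective
    rw [ha.2]
    exact AlgEquiv.apply_symm_apply a t⟩

theorem mem_Gfix {S : Set Ω} {τ : Ω ≃ₐ[ℚ] Ω} : τ ∈ Gfix S ↔ ∀ x ∈ clo S, τ x = x := Iff.rfl

theorem mem_Hfix {S : Set Ω} {t : Ω} {τ : Ω ≃ₐ[ℚ] Ω} : τ ∈ Hfix S t ↔ τ ∈ Gfix S ∧ τ t = t :=
  Iff.rfl

/-! ### X0: formal properties -/

theorem subset_clo (S : Set Ω) : S ⊆ clo S := by
  intro x hx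
  exact isAlgebraic_algebraMap
    (⟨x, IntermediateField.subset_adjoin ℚ S hx⟩ : IntermediateField.adjoin ℚ S)

theorem adjoin_le_cloField (S : Set Ω) : IntermediateField.adjoin ℚ S ≤ cloField S := by
  rw [IntermediateField.adjoin_le_iff]
  intro x hx
  exact mem_cloField.mpr (subset_clo S hx)

theorem clo_mono {S T : Set Ω} (h : S ⊆ T) : clo S ⊆ clo T := by
  intro x hx
  have hle : IntermediateField.adjoin ℚ S ≤ IntermediateField.adjoin ℚ T :=
    IntermediateField.adjoin.mono ℚ S T h
  let _ : Algebra (IntermediateField.adjoin ℚ S) (IntermediateField.adjoin ℚ T) :=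
    (IntermediateField.inclusion hle).toAlgebra
  have : IsScalarTower (IntermediateField.adjoin ℚ S) (IntermediateField.adjoin ℚ T) Ω :=
    IsScalarTower.of_algebraMap_eq (fun _ => rfl)
  exact IsAlgebraic.tower_top (IntermediateField.adjoin ℚ T) hx

theorem isAlgebraic_of_le {E₁ E₂ : IntermediateField ℚ Ω} (h : E₁ ≤ E₂) {x : Ω}
    (hx : IsAlgebraic E₁ x) : IsAlgebraic E₂ x := by
  let _ : Algebra E₁ E₂ := (IntermediateField.inclusion h).toAlgebra
  have : IsScalarTower E₁ E₂ Ω := IsScalarTower.of_algebraMap_eq (fun _ => rfl)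
  exact IsAlgebraic.tower_top E₂ hx

theorem mem_clo_of_isAlgebraic_cloField {S : Set Ω} {x : Ω} (hx : IsAlgebraic (cloField S) x) :
    x ∈ clo S := by
  have hx' : IsAlgebraic (algebraicClosure (IntermediateField.adjoin ℚ S) Ω) x := hx
  exact IsAlgebraic.restrictScalars (IntermediateField.adjoin ℚ S) hx'

theorem clo_clo (S : Set Ω) : clo (clo S) = clo S := by
  apply Set.Subset.antisymm _ (subset_clo _)
  intro x hx
  apply mem_clo_of_isAlgebraic_cloField
  refine isAlgebraic_of_le ?_ hx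
  rw [IntermediateField.adjoin_le_iff]
  intro y hy
  exact mem_cloField.mpr hy

theorem clo_subset_of_subset_clo {S T : Set Ω} (h : S ⊆ clo T) : clo S ⊆ clo T := by
  rw [← clo_clo T]; exact clo_mono h

theorem Gfix_anti {S T : Set Ω} (h : S ⊆ clo T) : Gfix T ≤ Gfix S :=
  fun _ hτ x hx => hτ x (clo_subset_of_subset_clo h hx)

theorem algebraMap_mem_clo (S : Set Ω) (a : ℚ) : algebraMap ℚ Ω a ∈ clo S :=
  mem_cloField.mp ((cloField S).algebraMap_mem a)

theorem map_mem_clo (τ : Ω ≃ₐ[ℚ] Ω) (S : Set Ω) {x : Ω} (hx : x ∈ clo S) :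
    τ x ∈ clo (τ '' S) := by
  have hmap : (IntermediateField.adjoin ℚ S).map (τ : Ω →ₐ[ℚ] Ω)
      = IntermediateField.adjoin ℚ (τ '' S) := IntermediateField.adjoin_map ℚ S (τ : Ω →ₐ[ℚ] Ω)
  have hmem : ∀ y : IntermediateField.adjoin ℚ S,
      ((τ : Ω →+* Ω).comp (algebraMap (IntermediateField.adjoin ℚ S) Ω)) y
        ∈ IntermediateField.adjoin ℚ (τ '' S) := by
    intro y
    rw [← hmap]
    exact (IntermediateField.mem_map _).mpr ⟨y, y.2, rfl⟩
  let f : IntermediateField.adjoin ℚ S →+* IntermediateField.adjoin ℚ (τ '' S) :=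
    RingHom.codRestrict _ _ hmem
  exact IsAlgebraic.ringHom_of_comp_eq f (τ : Ω →+* Ω) hx f.injective (by ext y; rfl)

/-- `τ (clo S) = clo (τ S)` -/
theorem map_mem_clo_iff (τ : Ω ≃ₐ[ℚ] Ω) (S : Set Ω) (x : Ω) : τ x ∈ clo (τ '' S) ↔ x ∈ clo S := by
  refine ⟨fun h => ?_, map_mem_clo τ S⟩
  have h1 := map_mem_clo τ.symm (τ '' S) h
  rw [AlgEquiv.symm_apply_apply, ← Set.image_comp] at h1
  have h2 : (τ.symm ∘ τ) '' S = S := by
    ext y; simp
  rwa [h2] at h1

instance instIsAlgClosedCloField [IsAlgClosed Ω] (S : Set Ω) : IsAlgClosed (cloField S) :=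
  (algebraicClosure.isAlgClosure (IntermediateField.adjoin ℚ S) Ω).isAlgClosed

/-- an automorphism over `cloField S` gives an element of `Gfix S` -/
theorem restrictScalars_mem_Gfix (S : Set Ω) (σ : Ω ≃ₐ[cloField S] Ω) :
    σ.restrictScalars ℚ ∈ Gfix S := by
  intro x hx
  exact σ.commutes (⟨x, mem_cloField.mpr hx⟩ : cloField S)

/-! ### X1: finite orbit implies algebraic -/

/-- (`ES/B/FiniteOrbit.isAlgebraic_of_finite_orbit` with `K = cloField S`.) -/
theorem mem_clo_of_finite_orbit [IsAlgClosed Ω] (S : Set Ω) (x : Ω)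
    (h : (Set.range fun τ : Gfix S => (τ : Ω ≃ₐ[ℚ] Ω) x).Finite) : x ∈ clo S := by
  apply mem_clo_of_isAlgebraic_cloField
  apply ESlib.isAlgebraic_of_finite_orbit
  refine h.subset ?_
  rintro _ ⟨σ, rfl⟩
  exact ⟨⟨σ.restrictScalars ℚ, restrictScalars_mem_Gfix S σ⟩, rfl⟩

theorem mem_clo_of_fixed [IsAlgClosed Ω] (S : Set Ω) (x : Ω)
    (h : ∀ τ ∈ Gfix S, τ x = x) : x ∈ clo S := by
  apply mem_clo_of_finite_orbit S x
  refine (Set.finite_singleton x).subset ?_
  rintro _ ⟨τ, rfl⟩
  exact h τ τ.2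

/-! ### X2: two transcendental elements are conjugate -/

/-- General form.  Template: `ESlib.exists_algEquiv_add`.  Let `M` be the algebraic closure of
`K(t, t')` in `L`.  If `t'` is algebraic over `K(t)`: take a transcendence basis `C` of `L / M`
(equivalently: extend `{t}` to a transcendence basis `B = C ∪ {t}` of `L/K` ; then `C ∪ {t'}` is
also one), `K[C ∪ {t}] ≃ K[C ∪ {t'}]`, `IsAlgClosure.equivOfEquiv`.
Otherwise `{t, t'}` is algebraically independent: extend it to a transcendence basis and swap. -/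
theorem exists_algEquiv_map_eq {K L : Type*} [Field K] [Field L] [Algebra K L] [IsAlgClosed L]
    (t t' : L) (ht : Transcendental K t) (ht' : Transcendental K t') :
    ∃ σ : L ≃ₐ[K] L, σ t = t' :=
  exists_algEquiv_of_transcendental ht ht'

theorem exists_mem_Gfix_map_eq [IsAlgClosed Ω] (S : Set Ω) {t t' : Ω} (ht : t ∉ clo S)
    (ht' : t' ∉ clo S) : ∃ τ ∈ Gfix S, τ t = t' := by
  obtain ⟨σ, hσ⟩ := exists_algEquiv_map_eq (K := cloField S) t t'
    (fun h => ht (mem_clo_of_isAlgebraic_cloField h))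
    (fun h => ht' (mem_clo_of_isAlgebraic_cloField h))
  exact ⟨σ.restrictScalars ℚ, restrictScalars_mem_Gfix S σ, hσ⟩

/-! ### X3: the fixed field of `Hfix S t` is `(clo S)(t)` -/

/-- General form: the fixed field of `Aut(L/K)` is `K` (`L` algebraically closed, char. 0).
`x` is algebraic over `K` by `ESlib.isAlgebraic_of_finite_orbit`; if `x ∉ K` its minimal polynomial
has another root `x'`; `K(x) ≃ K(x')` extends to the algebraic closure `M` of `K` in `L`, and an
automorphism of `M` extends to `L` (transcendence basis of `L / M`, `MvPolynomial.map`,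
`IsAlgClosure.equivOfEquiv`). -/
theorem mem_range_of_fixed {K L : Type*} [Field K] [Field L] [Algebra K L] [IsAlgClosed L]
    [CharZero K] (x : L) (h : ∀ σ : L ≃ₐ[K] L, σ x = x) : x ∈ (algebraMap K L).range := by
  classical
  have halg : IsAlgebraic K x := by
    apply ESlib.isAlgebraic_of_finite_orbit
    refine (Set.finite_singleton x).subset ?_
    rintro _ ⟨σ, rfl⟩
    exact h σ
  have hint : IsIntegral K x := halg.isIntegral
  have hirr : Irreducible (minpoly K x) := minpoly.irreducible hint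
  have hsep : (minpoly K x).Separable := hirr.separable
  have hcard := Polynomial.card_rootSet_eq_natDegree (K := L) hsep (IsAlgClosed.splits _)
  have hsub : (minpoly K x).rootSet L ⊆ {x} := by
    intro y hy
    have hy0 : Polynomial.aeval y (minpoly K x) = 0 := (Polynomial.mem_rootSet.mp hy).2
    have hmin : minpoly K x = minpoly K y :=
      minpoly.eq_of_irreducible_of_monic hirr hy0 (minpoly.monic hint)
    obtain ⟨τ, hτ⟩ := exists_algEquiv_of_minpoly_eq halg hmin
    rw [h τ] at hτ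
    exact hτ.symm
  have hle : (minpoly K x).natDegree ≤ 1 := by
    rw [← hcard, ← Set.toFinset_card]
    calc ((minpoly K x).rootSet L).toFinset.card ≤ ({x} : Finset L).card := by
          apply Finset.card_le_card
          intro y hy
          rw [Set.mem_toFinset] at hy
          simpa using hsub hy
      _ = 1 := Finset.card_singleton x
  have hdeg : (minpoly K x).natDegree = 1 := le_antisymm hle (minpoly.natDegree_pos hint)
  exact minpoly.mem_range_of_degree_eq_one K x
    (by rw [Polynomial.degree_eq_natDegree (minpoly.ne_zero hint), hdeg]; rfl)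

theorem exists_eval_div_of_fixed [IsAlgClosed Ω] (S : Set Ω) (t x : Ω)
    (h : ∀ τ ∈ Hfix S t, τ x = x) :
    ∃ p c : Polynomial Ω, (∀ i, p.coeff i ∈ clo S) ∧ (∀ i, c.coeff i ∈ clo S) ∧ c.eval t ≠ 0 ∧
      x = p.eval t / c.eval t := by
  let E : IntermediateField (cloField S) Ω := IntermediateField.adjoin (cloField S) {t}
  have hx : x ∈ (algebraMap E Ω).range := by
    apply mem_range_of_fixed
    intro σ
    apply h (σ.restrictScalars ℚ)
    refine ⟨?_, ?_⟩
    · exact restrictScalars_mem_Gfix S (σ.restrictScalars (cloField S))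
    · exact σ.commutes (⟨t, IntermediateField.mem_adjoin_simple_self _ t⟩ : E)
  obtain ⟨⟨y, hy⟩, rfl⟩ := hx
  obtain ⟨r, s, hrs⟩ := (IntermediateField.mem_adjoin_simple_iff (cloField S) y).mp hy
  have hcoeff : ∀ (q : Polynomial (cloField S)) (i : ℕ),
      (q.map (algebraMap (cloField S) Ω)).coeff i ∈ clo S := by
    intro q i
    rw [Polynomial.coeff_map]
    exact mem_cloField.mp (q.coeff i).2
  by_cases hs : Polynomial.aeval t s = 0
  · refine ⟨0, 1, fun i => ?_, fun i => ?_, by simp, ?_⟩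
    · simpa using algebraMap_mem_clo S 0
    · rw [Polynomial.coeff_one]
      split_ifs
      · simpa using algebraMap_mem_clo S 1
      · simpa using algebraMap_mem_clo S 0
    · show y = _
      rw [hrs, hs]
      simp
  · refine ⟨r.map (algebraMap _ Ω), s.map (algebraMap _ Ω), hcoeff r, hcoeff s, ?_, ?_⟩
    · rwa [Polynomial.eval_map_algebraMap]
    · show y = _
      rw [Polynomial.eval_map_algebraMap, Polynomial.eval_map_algebraMap]
      exact hrs

/-! ### X4: the matroid lemma -/

open IntermediateField.algebraAdjoinAdjoin in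
theorem mem_clo_iff_isAlgebraic_adjoin {S : Set Ω} {x : Ω} :
    x ∈ clo S ↔ IsAlgebraic (Algebra.adjoin ℚ S) x :=
  (IsFractionRing.isAlgebraic_iff (Algebra.adjoin ℚ S) (IntermediateField.adjoin ℚ S) Ω).symm

/-- `clo` is the closure operator of Mathlib's algebraic independence matroid -/
theorem clo_eq_matroid_closure (S : Set Ω) :
    clo S = (AlgebraicIndependent.matroid ℚ Ω).closure S := by
  rw [AlgebraicIndependent.matroid_closure_eq]
  ext x
  rw [mem_clo_iff_isAlgebraic_adjoin]
  rfl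

/-- `n` algebraically independent elements in the closure of a set with at most `n` elements:
the set has exactly `n` elements and is algebraically independent.
(`Algebra.trdeg`, `IsTranscendenceBasis`, `exists_isTranscendenceBasis_subset`, ...) -/
theorem card_eq_and_algebraicIndependent (T : Finset Ω) {n : ℕ} (v : Fin n → Ω)
    (hv : AlgebraicIndependent ℚ v) (hmem : ∀ i, v i ∈ clo (T : Set Ω)) (hcard : T.card ≤ n) :
    T.card = n ∧ AlgebraicIndependent ℚ (fun x : T => (x : Ω)) := by
  set M := AlgebraicIndependent.matroid ℚ Ω with hM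
  have hind : M.Indep (Set.range v) :=
    AlgebraicIndependent.matroid_indep_iff.mpr hv.to_subtype_range
  have hsub : Set.range v ⊆ M.closure (T : Set Ω) := by
    rintro _ ⟨i, rfl⟩
    rw [← clo_eq_matroid_closure]
    exact hmem i
  have h1 : (Set.range v).encard = n := by
    rw [← Set.image_univ, hv.injective.encard_image, Set.encard_univ]
    simp
  have h2 : (n : ℕ∞) ≤ M.eRk (T : Set Ω) := by
    rw [← h1, ← M.eRk_closure_eq]
    exact hind.encard_le_eRk_of_subset hsub
  have h3 : M.eRk (T : Set Ω) ≤ (T.card : ℕ∞) := by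
    rw [← Set.encard_coe_eq_coe_finsetCard]
    exact M.eRk_le_encard _
  have h4 : T.card = n := by
    have : (n : ℕ∞) ≤ (T.card : ℕ∞) := h2.trans h3
    exact le_antisymm hcard (by exact_mod_cast this)
  refine ⟨h4, ?_⟩
  have h5 : M.Indep (T : Set Ω) := by
    rw [Matroid.indep_iff_eRk_eq_encard_of_finite T.finite_toSet, Set.encard_coe_eq_coe_finsetCard]
    refine le_antisymm h3 ?_
    rw [h4]
    exact h2
  exact AlgebraicIndependent.matroid_indep_iff.mp h5

/-! ### X6: algebraic independence versus `clo` -/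

theorem notMem_clo_of_algebraicIndependent {ι : Type*} (v : ι → Ω)
    (hv : AlgebraicIndependent ℚ v) (i : ι) : v i ∉ clo (v '' {i}ᶜ) := fun h =>
  hv.transcendental_adjoin (s := {i}ᶜ) (by simp) (mem_clo_iff_isAlgebraic_adjoin.mp h)

theorem algebraicIndependent_snoc {n : ℕ} (v : Fin n → Ω) (t : Ω)
    (hv : AlgebraicIndependent ℚ v) (ht : t ∉ clo (Set.range v)) :
    AlgebraicIndependent ℚ (Fin.snoc v t : Fin (n + 1) → Ω) := by
  have h := (hv.option_iff_transcendental t).mpr
    (fun h => ht (mem_clo_iff_isAlgebraic_adjoin.mpr h))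
  refine (algebraicIndependent_equiv' (finSuccEquivLast (n := n)) ?_).mpr h
  ext i
  refine Fin.lastCases ?_ (fun j => ?_) i <;> simp

/-- extension of an independent family by `e` more elements -/
theorem exists_algebraicIndependent_append (hinf : ∀ S : Finset Ω, ∃ t, t ∉ clo (S : Set Ω))
    {n : ℕ} (v : Fin n → Ω) (hv : AlgebraicIndependent ℚ v) (e : ℕ) :
    ∃ r : Fin e → Ω, AlgebraicIndependent ℚ (Fin.append v r) := by
  classical
  induction e with
  | zero =>
    refine ⟨Fin.elim0, ?_⟩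
    rw [Fin.append_elim0]
    exact hv
  | succ e ih =>
    obtain ⟨r, hr⟩ := ih
    obtain ⟨t, ht⟩ := hinf (Finset.univ.image (Fin.append v r))
    refine ⟨Fin.snoc r t, ?_⟩
    rw [Fin.append_snoc]
    refine algebraicIndependent_snoc _ t hr ?_
    simpa using ht

/-! ### X5: `ℂ` has infinite transcendence degree -/

/-- (`clo S` is countable for finite `S`, `ℂ` is not.) -/
theorem exists_notMem_clo_complex (S : Finset ℂ) : ∃ t : ℂ, t ∉ clo (S : Set ℂ) := by
  by_contra hcon
  push Not at hcon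
  have halg : Algebra.IsAlgebraic (IntermediateField.adjoin ℚ (S : Set ℂ)) ℂ := ⟨hcon⟩
  have h1 : Cardinal.mk ℂ ≤
      max (Cardinal.mk (IntermediateField.adjoin ℚ (S : Set ℂ))) Cardinal.aleph0 :=
    Algebra.IsAlgebraic.cardinalMk_le_max _ _
  have h2 : Cardinal.mk (IntermediateField.adjoin ℚ (S : Set ℂ)) ≤ Cardinal.aleph0 := by
    refine (IntermediateField.cardinalMk_adjoin_le ℚ (S : Set ℂ)).trans ?_
    simp
  have h3 : Cardinal.mk ℂ ≤ Cardinal.aleph0 := h1.trans (max_le h2 le_rfl)
  rw [Cardinal.mk_complex] at h3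
  exact absurd h3 (not_le.mpr Cardinal.aleph0_lt_continuum)

end Fermat.Agent.S37lib.DV
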