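import Mathlib

/-!
# S37, (DV), automorphisms of an algebraically closed field

* `exists_algEquiv_of_transcendenceBasis` : two algebraically closed `R`-fields with transcendence
  bases indexed by equivalent types are `R`-isomorphic, compatibly with the bases.
* `exists_algEquiv_map_transcendental` (X) : `t, t'` transcendental over `K` are conjugate.
* `exists_algEquiv_comp_eq` (EXT) : two `K`-embeddings of an algebraic extension `E / K` into `Ω` are
  conjugate under `Aut(Ω / K)`.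
* `exists_algEquiv_comp_eq_of_transcendental` (XE) : the same for `E` algebraic over `K(j)`.
-/

set_option autoImplicit false

open MvPolynomial

namespace Fermat.Agent.S37lib.DV

theorem exists_algEquiv_of_transcendenceBasis {R Ω₁ Ω₂ ι κ : Type*} [CommRing R] [Field Ω₁]
    [Field Ω₂] [Algebra R Ω₁] [Algebra R Ω₂] [IsAlgClosed Ω₁] [IsAlgClosed Ω₂]
    (v : ι → Ω₁) (w : κ → Ω₂) (e : ι ≃ κ)
    (hv : IsTranscendenceBasis R v) (hw : IsTranscendenceBasis R w) :
    ∃ S : Ω₁ ≃ₐ[R] Ω₂, ∀ i, S (v i) = w (e i) := by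
  classical
  have h1 := IsAlgClosed.isAlgClosure_of_transcendence_basis v hv
  have h2 := IsAlgClosed.isAlgClosure_of_transcendence_basis w hw
  let R₁ := Algebra.adjoin R (Set.range v)
  let R₂ := Algebra.adjoin R (Set.range w)
  let φ : R₁ ≃ₐ[R] R₂ :=
    hv.1.aevalEquiv.symm.trans ((MvPolynomial.renameEquiv R e).trans hw.1.aevalEquiv)
  let S : Ω₁ ≃+* Ω₂ := IsAlgClosure.equivOfEquiv Ω₁ Ω₂ φ.toRingEquiv
  have hS : ∀ r : R₁, S (algebraMap R₁ Ω₁ r) = algebraMap R₂ Ω₂ (φ r) := fun r =>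
    IsAlgClosure.equivOfEquiv_algebraMap Ω₁ Ω₂ φ.toRingEquiv r
  refine ⟨AlgEquiv.ofRingEquiv (f := S) ?_, ?_⟩
  · intro k
    rw [IsScalarTower.algebraMap_apply R R₁ Ω₁, hS, φ.commutes,
      ← IsScalarTower.algebraMap_apply R R₂ Ω₂]
  · intro i
    show S (v i) = _
    have h3 : v i = algebraMap R₁ Ω₁ (hv.1.aevalEquiv (X i)) := by
      rw [AlgebraicIndependent.algebraMap_aevalEquiv, aeval_X]
    have h4 : φ (hv.1.aevalEquiv (X i)) = hw.1.aevalEquiv (X (e i)) := by
      show hw.1.aevalEquiv (MvPolynomial.renameEquiv R e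
        (hv.1.aevalEquiv.symm (hv.1.aevalEquiv (X i)))) = _
      rw [AlgEquiv.symm_apply_apply, MvPolynomial.renameEquiv_apply, rename_X]
    conv_lhs => rw [h3]
    rw [hS, h4, AlgebraicIndependent.algebraMap_aevalEquiv, aeval_X]

variable {K Ω : Type*} [Field K] [Field Ω] [Algebra K Ω] [IsAlgClosed Ω]

/-- **(X)** two elements of `Ω` which are transcendental over `K` are conjugate under
`Aut(Ω / K)`. -/
theorem exists_algEquiv_map_transcendental {t t' : Ω} (ht : Transcendental K t)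
    (ht' : Transcendental K t') : ∃ σ : Ω ≃ₐ[K] Ω, σ t = t' := by
  classical
  have hs : ∀ x : Ω, Transcendental K x → AlgebraicIndepOn K id ({x} : Set Ω) := by
    intro x hx
    have : AlgebraicIndependent K (fun i : ({x} : Set Ω) => id (i : Ω)) :=
      (algebraicIndependent_singleton_iff (⟨x, rfl⟩ : ({x} : Set Ω))).mpr hx
    exact this
  obtain ⟨B, hB, hBb⟩ := exists_isTranscendenceBasis_superset (hs t ht)
  obtain ⟨B', hB', hBb'⟩ := exists_isTranscendenceBasis_superset (hs t' ht')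
  have hcard : Cardinal.mk B = Cardinal.mk B' := hBb.cardinalMk_eq hBb'
  obtain ⟨e₀⟩ := Cardinal.eq.1 hcard
  let i₀ : B := ⟨t, hB rfl⟩
  let i₁ : B' := ⟨t', hB' rfl⟩
  let e : B ≃ B' := e₀.trans (Equiv.swap (e₀ i₀) i₁)
  obtain ⟨S, hS⟩ := exists_algEquiv_of_transcendenceBasis _ _ e hBb hBb'
  refine ⟨S, ?_⟩
  have := hS i₀
  simpa [e, i₀, i₁] using this

/-- **(EXT)** two `K`-embeddings of an algebraic extension `E / K` into the algebraically closed
field `Ω` (not necessarily algebraic over `K`) are conjugate under `Aut(Ω / K)`. -/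
theorem exists_algEquiv_comp_eq {E : Type*} [Field E] [Algebra K E] [Algebra.IsAlgebraic K E]
    (φ ψ : E →ₐ[K] Ω) : ∃ σ : Ω ≃ₐ[K] Ω, ∀ x, σ (φ x) = ψ x := by
  classical
  obtain ⟨B, hB⟩ := exists_isTranscendenceBasis K Ω
  -- `B` is a transcendence basis of `Ω` over `E`, for both structures
  have key : ∀ χ : E →ₐ[K] Ω,
      @IsTranscendenceBasis B E Ω _ _ χ.toRingHom.toAlgebra (Subtype.val : B → Ω) := by
    intro χ
    let _ : Algebra E Ω := χ.toRingHom.toAlgebra
    have : IsScalarTower K E Ω := IsScalarTower.of_algebraMap_eq fun a => (χ.commutes a).symm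
    exact (Algebra.IsAlgebraic.isTranscendenceBasis_iff K E).1 hB
  obtain ⟨S, -⟩ := @exists_algEquiv_of_transcendenceBasis E Ω Ω B B _ _ _ φ.toRingHom.toAlgebra
    ψ.toRingHom.toAlgebra _ _ Subtype.val Subtype.val (Equiv.refl B) (key φ) (key ψ)
  have hS : ∀ x : E, S (φ x) = ψ x := fun x =>
    @AlgEquiv.commutes E Ω Ω _ _ _ φ.toRingHom.toAlgebra ψ.toRingHom.toAlgebra S x
  refine ⟨AlgEquiv.ofRingEquiv (f := @AlgEquiv.toRingEquiv E Ω Ω _ _ _ φ.toRingHom.toAlgebra
    ψ.toRingHom.toAlgebra S) ?_, hS⟩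
  intro a
  have h := hS (algebraMap K E a)
  rw [φ.commutes, ψ.commutes] at h
  exact h

/-- **(XE)** `E / K` a field extension, `j ∈ E` with `E` algebraic over `K(j)`; two `K`-embeddings
`φ, ψ` of `E` into `Ω` such that `φ j`, `ψ j` are transcendental over `K` are conjugate under
`Aut(Ω / K)`. -/
theorem exists_algEquiv_comp_eq_of_transcendental {E : Type*} [Field E] [Algebra K E] (j : E)
    [Algebra.IsAlgebraic (IntermediateField.adjoin K {j}) E] (φ ψ : E →ₐ[K] Ω)
    (hφ : Transcendental K (φ j)) (hψ : Transcendental K (ψ j)) :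
    ∃ σ : Ω ≃ₐ[K] Ω, ∀ x, σ (φ x) = ψ x := by
  classical
  obtain ⟨τ, hτ⟩ := exists_algEquiv_map_transcendental hφ hψ
  let φ' : E →ₐ[K] Ω := (τ : Ω →ₐ[K] Ω).comp φ
  have hφ'j : φ' j = ψ j := hτ
  let K₁ := IntermediateField.adjoin K {j}
  let _ : Algebra K₁ Ω := (ψ.toRingHom.comp (algebraMap K₁ E)).toAlgebra
  have hagree : ∀ a : K₁, φ' (algebraMap K₁ E a) = ψ (algebraMap K₁ E a) := by
    have h : (φ'.comp (IsScalarTower.toAlgHom K K₁ E)) = ψ.comp (IsScalarTower.toAlgHom K K₁ E) := by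
      apply IntermediateField.adjoin_algHom_ext K
      intro x hx
      rw [Set.mem_singleton_iff] at hx
      subst hx
      exact hφ'j
    intro a
    exact congrArg (fun f : K₁ →ₐ[K] Ω => f a) h
  let Φ : E →ₐ[K₁] Ω := { φ'.toRingHom with commutes' := fun a => hagree a }
  let Ψ : E →ₐ[K₁] Ω := { ψ.toRingHom with commutes' := fun a => rfl }
  obtain ⟨σ, hσ⟩ := exists_algEquiv_comp_eq Φ Ψ
  have hσK : ∀ a : K, σ (algebraMap K Ω a) = algebraMap K Ω a := by
    intro a
    have h := hσ (algebraMap K E a)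
    have h1 : Φ (algebraMap K E a) = algebraMap K Ω a := φ'.commutes a
    have h2 : Ψ (algebraMap K E a) = algebraMap K Ω a := ψ.commutes a
    rwa [h1, h2] at h
  refine ⟨τ.trans (AlgEquiv.ofRingEquiv (f := σ.toRingEquiv) hσK), fun x => ?_⟩
  exact hσ x

end Fermat.Agent.S37lib.DV
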