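import Fermat.Agent.S37.DV.Fixed

/-!
# T-S37, part (DV), block C (= DV2): a divisor class with a finite orbit under `Gfix S` is
represented by a divisor supported at places fixed by `Gfix S`
-/

set_option autoImplicit false
set_option linter.unusedSectionVars false

open AlgebraicCurve ModularCurve Fermat.Agent.S24RH Fermat.Agent.ESlib

namespace Fermat.Agent.S37lib.DV

section general

variable {K F : Type*} [Field K] [Field F] [Algebra K F] [IsAlgClosed K] [CharZero K]

/-- **C1.**  There is `r : ℤ` with `ℓ(D + r P₀) = 1`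
(`ℓ(D + r P₀) = 0` for `r < - deg D`, `> 0` for `r` large (Riemann), and it increases by at most one
at each step: `ell_add_single_le`). -/
theorem exists_ell_eq_one (hFF : IsFF K F) {g c : ℤ} (hR : IsRiemann K F g c) (D : Divisor K F)
    (P₀ : Place K F) : ∃ r : ℤ, ell (D + Finsupp.single P₀ r) = 1 ∧
      ∀ r' < r, ell (D + Finsupp.single P₀ r') = 0 := by
  have hlow : ∀ r : ℤ, 0 < ell (D + Finsupp.single P₀ r) → -Divisor.degree D ≤ r := by
    intro r hr
    by_contra hlt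
    have h0 : LSp (D + Finsupp.single P₀ r) = ⊥ := by
      apply LSp_eq_bot_of_degree_neg hFF
      rw [degree_add_single hFF]
      omega
    unfold ell at hr
    rw [h0, finrank_bot] at hr
    exact lt_irrefl _ hr
  have hhigh : ∃ r : ℤ, 0 < ell (D + Finsupp.single P₀ r) := by
    refine ⟨max c g - Divisor.degree D, ?_⟩
    have h1 := hR (D + Finsupp.single P₀ (max c g - Divisor.degree D))
      (by rw [degree_add_single hFF]; have := le_max_left c g; omega)
    rw [degree_add_single hFF] at h1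
    have := le_max_right c g
    omega
  obtain ⟨r, hr, hmin⟩ := Int.exists_least_of_bdd
    (P := fun r : ℤ => 0 < ell (D + Finsupp.single P₀ r)) ⟨_, hlow⟩ hhigh
  have hlt : ∀ r' < r, ell (D + Finsupp.single P₀ r') = 0 := by
    intro r' hr'
    by_contra h0
    have := hmin r' (Nat.pos_of_ne_zero h0)
    omega
  refine ⟨r, ?_, hlt⟩
  have h1 := ell_add_single_le hFF (D + Finsupp.single P₀ (r - 1)) P₀
  rw [add_assoc, ← Finsupp.single_add, sub_add_cancel, hlt (r - 1) (by omega)] at h1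
  have hr' : 0 < ell (D + Finsupp.single P₀ r) := hr
  omega

/-- **C2.**  if `ℓ(D) = 1` there is exactly one effective divisor linearly equivalent to `D` -/
theorem existsUnique_effective (hFF : IsFF K F) {D : Divisor K F} (h : ell D = 1) :
    ∃! E : Divisor K F, LinEq D E ∧ ∀ v, 0 ≤ E v := by
  obtain ⟨f, hf0, hf⟩ := (ell_pos_iff hFF D).1 (by omega)
  obtain ⟨G, hG, -⟩ := exists_div hFF hf0
  have hfv := hf.resolve_left hf0
  refine ⟨D + G, ⟨⟨f, hf0, fun v => by rw [Finsupp.add_apply, hG v]⟩, fun v => ?_⟩, ?_⟩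
  · rw [Finsupp.add_apply, hG v]
    have := hfv v
    omega
  · rintro E ⟨⟨f', hf'0, hE⟩, hE0⟩
    have hf' : f' ∈ LSp D := Or.inr fun v => by
      have := hE0 v
      rw [hE v] at this
      omega
    have hne : (⟨f, hf⟩ : LSp D) ≠ 0 := fun h0 => hf0 (congrArg Subtype.val h0)
    obtain ⟨a, ha⟩ := (finrank_eq_one_iff_of_nonzero' (⟨f, hf⟩ : LSp D) hne).1 h ⟨f', hf'⟩
    have ha' : a • f = f' := congrArg Subtype.val ha
    have ha0 : a ≠ 0 := by
      rintro rfl
      rw [zero_smul] at ha'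
      exact hf'0 ha'.symm
    ext v
    rw [hE v, Finsupp.add_apply, hG v, ← ha', Algebra.smul_def,
      v.ord_mul ((map_ne_zero _).2 ha0) hf0, ord_algebraMap, zero_add]

end general

variable {Ω : Type} [Field Ω] [Algebra ℚ Ω] [IsAlgClosed Ω] [CharZero Ω]
  {F₀ : IntermediateField ℚ (LaurentSeries ℚ)} (𝔖 : Setting Ω F₀)

/-- **C (= DV2).**  `r` as in C1 for `D` and `Pinf` (the same `r` works for `τ • D` and for every
divisor linearly equivalent to it, since `ell` is invariant under `τ` and `LinEq`), `E(D)` the unique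
effective divisor `∼ D + r Pinf`.  `τ • E(D) = E(τ • D)` and `E` depends only on the class, so the orbit
of `E(D)` under `Gfix S` is finite, so every point of its support has a finite orbit, so it is fixed
(`Setting.smul_eq_of_finite_orbit`).  `D₀ := E(D) - r Pinf`. -/
theorem Setting.exists_fixed_linEq (𝔖 : Setting Ω F₀) {g c : ℤ} (hR : IsRiemann Ω (laurentBaseChange Ω F₀) g c)
    (S : Set Ω) (D : Divisor Ω (laurentBaseChange Ω F₀))
    (𝒟 : Finset (Divisor Ω (laurentBaseChange Ω F₀)))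
    (h : ∀ τ ∈ Gfix S, ∃ E ∈ 𝒟, LinEq (act F₀ τ • D) E) :
    ∃ D₀ : Divisor Ω (laurentBaseChange Ω F₀), LinEq D D₀ ∧
      ∀ P, D₀ P ≠ 0 → ∀ τ ∈ Gfix S, act F₀ τ • P = P := by
  classical
  have hFF := 𝔖.isFF Ω
  obtain ⟨r, hr, -⟩ := exists_ell_eq_one hFF hR D 𝔖.Pinf
  obtain ⟨E, ⟨hDE, hE0⟩, huniq⟩ := existsUnique_effective hFF hr
  -- `τ • E ∼ τ' • E` implies `τ • E = τ' • E`
  have hinj : ∀ τ τ' : Ω ≃ₐ[ℚ] Ω, LinEq (act F₀ τ • E) (act F₀ τ' • E) →
      act F₀ τ • E = act F₀ τ' • E := by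
    intro τ τ' hl
    have h1 : LinEq ((act F₀ τ')⁻¹ • act F₀ τ • E) E := by
      have := hl.smul (act F₀ τ')⁻¹
      rwa [inv_smul_smul] at this
    have h2 : (act F₀ τ')⁻¹ • act F₀ τ • E = E := by
      refine huniq _ ⟨hDE.trans h1.symm, fun v => ?_⟩
      rw [SemilinearAut.divisor_smul_apply, SemilinearAut.divisor_smul_apply]
      exact hE0 _
    rw [← h2, smul_inv_smul, h2]
  -- the class of `τ • E`
  have hcls : ∀ τ ∈ Gfix S, ∃ X ∈ 𝒟, LinEq (act F₀ τ • E) (X + Finsupp.single 𝔖.Pinf r) := by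
    intro τ hτ
    obtain ⟨X, hX, hl⟩ := h τ hτ
    refine ⟨X, hX, ?_⟩
    have h1 := (hDE.smul (act F₀ τ)).symm
    rw [smul_add, SemilinearAut.smul_single, 𝔖.Pinf_fix τ] at h1
    exact h1.trans (hl.add (LinEq.refl _))
  -- the orbit of `E` is finite
  have hfinE : (Set.range fun τ : Gfix S => act F₀ (τ : Ω ≃ₐ[ℚ] Ω) • E).Finite := by
    let φ : Divisor Ω (laurentBaseChange Ω F₀) → Divisor Ω (laurentBaseChange Ω F₀) := fun Y =>
      if hY : ∃ X ∈ 𝒟, LinEq Y (X + Finsupp.single 𝔖.Pinf r) then hY.choose else 0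
    have hφ : ∀ Y, (∃ X ∈ 𝒟, LinEq Y (X + Finsupp.single 𝔖.Pinf r)) →
        φ Y ∈ 𝒟 ∧ LinEq Y (φ Y + Finsupp.single 𝔖.Pinf r) := by
      intro Y hY
      simp only [φ, dif_pos hY]
      exact hY.choose_spec
    refine Set.Finite.of_finite_image (f := φ) (𝒟.finite_toSet.subset ?_) ?_
    · rintro _ ⟨_, ⟨τ, rfl⟩, rfl⟩
      exact (hφ _ (hcls τ τ.2)).1
    · rintro _ ⟨τ, rfl⟩ _ ⟨τ', rfl⟩ heq
      have h1 := (hφ _ (hcls τ τ.2)).2
      have h2 := (hφ _ (hcls τ' τ'.2)).2
      simp only at heq h1 h2 ⊢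
      rw [heq] at h1
      exact hinj _ _ (h1.trans h2.symm)
  -- every point of `E` is fixed
  have hfix : ∀ P, E P ≠ 0 → ∀ τ ∈ Gfix S, act F₀ τ • P = P := by
    intro P hP
    apply 𝔖.smul_eq_of_finite_orbit
    have hfin2 : (⋃ Y ∈ Set.range fun τ : Gfix S => act F₀ (τ : Ω ≃ₐ[ℚ] Ω) • E,
        ((Y.support : Finset _) : Set (Place Ω (laurentBaseChange Ω F₀)))).Finite :=
      hfinE.biUnion fun Y _ => Y.support.finite_toSet
    refine hfin2.subset ?_
    rintro _ ⟨τ, rfl⟩
    rw [Set.mem_iUnion₂]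
    refine ⟨_, ⟨τ, rfl⟩, ?_⟩
    rw [Finset.mem_coe, Finsupp.mem_support_iff]
    simp only
    rw [SemilinearAut.divisor_smul_apply_smul]
    exact hP
  refine ⟨E - Finsupp.single 𝔖.Pinf r, ?_, ?_⟩
  · have := hDE.sub (LinEq.refl (Finsupp.single 𝔖.Pinf r))
    rwa [add_sub_cancel_right] at this
  · intro P hP τ hτ
    by_cases hPE : E P = 0
    · have hPP : P = 𝔖.Pinf := by
        by_contra hne
        apply hP
        rw [Finsupp.sub_apply, hPE, Finsupp.single_apply, if_neg (Ne.symm hne), sub_zero]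
      rw [hPP]
      exact 𝔖.Pinf_fix τ
    · exact hfix P hPE τ hτ

end Fermat.Agent.S37lib.DV
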