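import Fermat.Agent.S37.DV.Trans

/-!
# T-S37, part (DV), block A (= DV3): two generic `n`-tuples of places are conjugate
-/

set_option autoImplicit false
set_option linter.unusedSectionVars false

open AlgebraicCurve ModularCurve Fermat.Agent.S24RH Fermat.Agent.ESlib

namespace Fermat.Agent.S37lib.DV

/-- **A1.**  two algebraically independent families are conjugate.  Induction on `n`
(`exists_mem_Gfix_map_eq` with `S = {t' l : l < i}`, `notMem_clo_of_algebraicIndependent`,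
`map_mem_clo_iff`). -/
theorem exists_map_eq_of_algebraicIndependent {Ω : Type*} [Field Ω] [Algebra ℚ Ω] [IsAlgClosed Ω]
    {n : ℕ} (t t' : Fin n → Ω) (ht : AlgebraicIndependent ℚ t) (ht' : AlgebraicIndependent ℚ t') :
    ∃ τ : Ω ≃ₐ[ℚ] Ω, ∀ i, τ (t i) = t' i :=
  S37lib.exists_algEquiv_of_algebraicIndependent ht ht'

variable {Ω : Type} [Field Ω] [Algebra ℚ Ω] [IsAlgClosed Ω] [CharZero Ω]
  {F₀ : IntermediateField ℚ (LaurentSeries ℚ)} (𝔖 : Setting Ω F₀)

/-- **A2.**  same values: correct the places one at a time.  For each `i`,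
`σ_i ∈ Hfix (t '' {i}ᶜ) (t i)` with `σ_i • P i = P' i` (`exists_mem_Hfix_smul_eq`); `σ_i` fixes all the
places above `t l`, `l ≠ i` (`HasVal.smul_eq`).  Induction on the number of `i` with `P i ≠ P' i`, or
on a `Finset` of corrected indices. -/
theorem Setting.exists_smul_eq_of_hasVal {g c : ℤ}
    (hR : IsRiemann Ω (laurentBaseChange Ω F₀) g c) {n : ℕ} (t : Fin n → Ω)
    (ht : AlgebraicIndependent ℚ t) (P P' : Fin n → Place Ω (laurentBaseChange Ω F₀))
    (hP : ∀ i, 𝔖.HasVal (P i) (t i)) (hP' : ∀ i, 𝔖.HasVal (P' i) (t i)) :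
    ∃ τ : Ω ≃ₐ[ℚ] Ω, ∀ i, act F₀ τ • P i = P' i := by
  classical
  -- the correcting automorphisms
  have hσ : ∀ i, ∃ σ : Ω ≃ₐ[ℚ] Ω, act F₀ σ • P i = P' i ∧
      ∀ (j : Fin n) (Q : Place Ω (laurentBaseChange Ω F₀)), j ≠ i → 𝔖.HasVal Q (t j) →
        act F₀ σ • Q = Q := by
    intro i
    obtain ⟨σ, hσ, h⟩ := 𝔖.exists_mem_Hfix_smul_eq hR (t '' {i}ᶜ)
      (notMem_clo_of_algebraicIndependent t ht i) (hP i) (hP' i)
    refine ⟨σ, h, fun j Q hj hQ => ?_⟩
    exact hQ.smul_eq (S := t '' {i}ᶜ) (subset_clo _ ⟨j, by simpa using hj, rfl⟩) σ hσ.1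
  have key : ∀ s : Finset (Fin n), ∃ τ : Ω ≃ₐ[ℚ] Ω, (∀ i ∈ s, act F₀ τ • P i = P' i) ∧
      ∀ i ∉ s, act F₀ τ • P i = P i := by
    intro s
    induction s using Finset.induction_on with
    | empty => exact ⟨1, by simp, fun i _ => by rw [act, map_one, one_smul]⟩
    | insert i s his ih =>
      obtain ⟨τ, h1, h2⟩ := ih
      obtain ⟨σ, h3, h4⟩ := hσ i
      refine ⟨σ * τ, fun j hj => ?_, fun j hj => ?_⟩
      · rw [act, map_mul, mul_smul]
        rcases Finset.mem_insert.1 hj with rfl | hj'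
        · exact (congrArg _ (h2 j his)).trans h3
        · refine (congrArg _ (h1 j hj')).trans (h4 j _ ?_ (hP' j))
          rintro rfl
          exact his hj'
      · rw [act, map_mul, mul_smul]
        rw [Finset.mem_insert, not_or] at hj
        exact (congrArg _ (h2 j hj.2)).trans (h4 j _ hj.1 (hP j))
  obtain ⟨τ, h, -⟩ := key Finset.univ
  exact ⟨τ, fun i => h i (Finset.mem_univ i)⟩

/-- **A (= DV3).** -/
theorem Setting.exists_smul_eq_of_isGen {g c : ℤ}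
    (hR : IsRiemann Ω (laurentBaseChange Ω F₀) g c) {n : ℕ}
    (P P' : Fin n → Place Ω (laurentBaseChange Ω F₀)) (hP : 𝔖.IsGen P) (hP' : 𝔖.IsGen P') :
    ∃ τ : Ω ≃ₐ[ℚ] Ω, ∀ i, act F₀ τ • P i = P' i := by
  obtain ⟨t, ht, hPt⟩ := hP
  obtain ⟨t', ht', hPt'⟩ := hP'
  obtain ⟨τ₀, hτ₀⟩ := exists_map_eq_of_algebraicIndependent t t' ht ht'
  obtain ⟨τ₁, hτ₁⟩ := 𝔖.exists_smul_eq_of_hasVal hR t' ht' (fun i => act F₀ τ₀ • P i) P'
    (fun i => by rw [← hτ₀ i]; exact (hPt i).smul τ₀) hPt'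
  refine ⟨τ₁ * τ₀, fun i => ?_⟩
  rw [act, map_mul, mul_smul]
  exact hτ₁ i

end Fermat.Agent.S37lib.DV
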