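import Fermat.Agent.S37.DV.Canon

/-!
# T-S37, part (DV), block B (= DV4): the counting lemma
-/

set_option autoImplicit false
set_option linter.unusedSectionVars false

open AlgebraicCurve ModularCurve Fermat.Agent.S24RH Fermat.Agent.ESlib

namespace Fermat.Agent.S37lib.DV

section general

variable {K F : Type*} [Field K] [Field F] [Algebra K F] [IsAlgClosed K] [CharZero K]

theorem dsum_succ {n : ℕ} (P : Fin (n + 1) → Place K F) :
    dsum P = Finsupp.single (P 0) 1 + dsum (fun i : Fin n => P i.succ) := by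
  unfold dsum
  rw [Fin.sum_univ_succ]

theorem dsum_zero (P : Fin 0 → Place K F) : dsum P = 0 := by
  unfold dsum
  simp

theorem degree_dsum (hFF : IsFF K F) {n : ℕ} (P : Fin n → Place K F) :
    Divisor.degree (dsum P) = n := by
  unfold dsum
  rw [map_sum]
  simp [deg_eq_one hFF]

theorem dsum_nonneg {n : ℕ} (P : Fin n → Place K F) (v : Place K F) : 0 ≤ dsum P v := by
  classical
  unfold dsum
  rw [Finsupp.finsetSum_apply]
  apply Finset.sum_nonneg
  intro i _
  rw [Finsupp.single_apply]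
  split_ifs <;> simp

theorem dsum_apply_pos_iff {n : ℕ} (P : Fin n → Place K F) (v : Place K F) :
    0 < dsum P v ↔ ∃ i, P i = v := by
  classical
  unfold dsum
  rw [Finsupp.finsetSum_apply]
  constructor
  · intro h
    by_contra hne
    push Not at hne
    have : ∑ i, (Finsupp.single (P i) (1 : ℤ)) v = 0 := by
      apply Finset.sum_eq_zero
      intro i _
      rw [Finsupp.single_apply, if_neg (hne i)]
    omega
  · rintro ⟨i, rfl⟩
    have h1 : (Finsupp.single (P i) (1 : ℤ)) (P i) ≤ ∑ j, (Finsupp.single (P j) (1 : ℤ)) (P i) := by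
      apply Finset.single_le_sum (f := fun j => (Finsupp.single (P j) (1 : ℤ)) (P i))
      · intro j _
        show 0 ≤ (Finsupp.single (P j) (1 : ℤ)) (P i)
        rw [Finsupp.single_apply]
        split_ifs <;> simp
      · exact Finset.mem_univ i
    rw [Finsupp.single_eq_same] at h1
    omega

/-- **B1.**  an effective divisor of degree `n` is `P₁ + ... + Pₙ` -/
theorem exists_dsum_eq (hFF : IsFF K F) {n : ℕ} (E : Divisor K F) (hE : ∀ v, 0 ≤ E v)
    (hdeg : Divisor.degree E = n) : ∃ Q : Fin n → Place K F, dsum Q = E := by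
  classical
  induction n generalizing E with
  | zero =>
    refine ⟨Fin.elim0, ?_⟩
    rw [dsum_zero]
    rw [degree_eq_sum hFF, Finsupp.sum] at hdeg
    have h0 := (Finset.sum_eq_zero_iff_of_nonneg (fun v _ => hE v)).mp (by simpa using hdeg)
    ext v
    by_cases hv : v ∈ E.support
    · exact (h0 v hv).symm
    · exact (Finsupp.notMem_support_iff.mp hv).symm
  | succ n ih =>
    have hex : ∃ v, 0 < E v := by
      by_contra hne
      push Not at hne
      have hE0 : E = 0 := by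
        ext v
        exact le_antisymm (hne v) (hE v)
      rw [hE0, map_zero] at hdeg
      have : (0 : ℤ) < ((n + 1 : ℕ) : ℤ) := by positivity
      omega
    obtain ⟨v, hv⟩ := hex
    obtain ⟨Q, hQ⟩ := ih (E - Finsupp.single v 1) (by
      intro w
      rw [Finsupp.sub_apply, Finsupp.single_apply]
      split_ifs with h
      · subst h; omega
      · simpa using hE w) (by
      rw [map_sub, hdeg, Divisor.degree_single, deg_eq_one hFF]
      push_cast; ring)
    refine ⟨Fin.cons v Q, ?_⟩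
    rw [dsum_succ]
    simp only [Fin.cons_zero, Fin.cons_succ]
    rw [hQ]
    abel

/-- **B2.**  `ℓ(Z - R₁ - ... - R_e) ≥ ℓ(Z) - e` -/
theorem ell_sub_dsum_ge (hFF : IsFF K F) (Z : Divisor K F) {e : ℕ} (R : Fin e → Place K F) :
    ell Z ≤ ell (Z - dsum R) + e := by
  induction e generalizing Z with
  | zero => rw [dsum_zero]; simp
  | succ e ih =>
    rw [dsum_succ]
    have h1 := ih (Z - Finsupp.single (R 0) 1) (fun i => R i.succ)
    have h2 := ell_add_single_le hFF (Z - Finsupp.single (R 0) 1) (R 0)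
    rw [sub_add_cancel] at h2
    rw [sub_sub] at h1
    omega

theorem exists_normalized_comb {K V : Type*} [Field K] [AddCommGroup V] [Module K V] {k : ℕ}
    (b : Fin k → V) (w : V) (hw0 : w ≠ 0) (hw : w ∈ Submodule.span K (Set.range b)) :
    ∃ (i₀ : Fin k) (c' : Fin k → K) (x : K), x ≠ 0 ∧ c' i₀ = 1 ∧ ∑ i, c' i • b i = x • w := by
  obtain ⟨cc, hcc⟩ := (Submodule.mem_span_range_iff_exists_fun K).mp hw
  obtain ⟨i₀, hi₀⟩ : ∃ i, cc i ≠ 0 := by
    by_contra hne
    push Not at hne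
    apply hw0
    rw [← hcc]
    exact Finset.sum_eq_zero fun i _ => by rw [hne i, zero_smul]
  refine ⟨i₀, fun i => (cc i₀)⁻¹ * cc i, (cc i₀)⁻¹, inv_ne_zero hi₀, inv_mul_cancel₀ hi₀, ?_⟩
  rw [← hcc, Finset.smul_sum]
  exact Finset.sum_congr rfl fun i _ => by rw [smul_smul]

theorem ord_smul_eq (v : Place K F) {x : K} (hx : x ≠ 0) (f : F) : v.ord (x • f) = v.ord f := by
  by_cases hf : f = 0
  · rw [hf, smul_zero]
  · rw [Algebra.smul_def, v.ord_mul ((map_ne_zero _).2 hx) hf, ord_algebraMap, zero_add]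

end general

variable {Ω : Type} [Field Ω] [Algebra ℚ Ω] [IsAlgClosed Ω] [CharZero Ω]
  {F₀ : IntermediateField ℚ (LaurentSeries ℚ)} (𝔖 : Setting Ω F₀)

theorem act_smul_smul (τ : Ω ≃ₐ[ℚ] Ω) (x : Ω) (y : laurentBaseChange Ω F₀) :
    act F₀ τ • (x • y) = τ x • (act F₀ τ • y) := by
  rw [Algebra.smul_def, smul_mul', act_smul_algebraMap, ← Algebra.smul_def]

/-- a combination of fixed vectors with fixed coefficients is fixed -/
theorem act_smul_sum_eq {T : Set Ω} {k : ℕ} (c : Fin k → Ω) (hc : ∀ i, c i ∈ clo T)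
    (b : Fin k → laurentBaseChange Ω F₀) (hb : ∀ τ ∈ Gfix T, ∀ i, act F₀ τ • b i = b i) :
    ∀ τ ∈ Gfix T, act F₀ τ • (∑ i, c i • b i) = ∑ i, c i • b i := by
  intro τ hτ
  rw [Finset.smul_sum]
  refine Finset.sum_congr rfl fun i _ => ?_
  rw [act_smul_smul, hb τ hτ i, hτ _ (hc i)]

/-- **B (the counting lemma).**
`e := n - g`, `ℓ(Z) = e + 1`.  `R : Fin e → Place` with `(P, R)` generic (`exists_isGen_append`);
`u ≠ 0` in `L(Z - ∑ R)` (B2); `Z + div u = dsum Q` (B1), every `R l` is some `Q i`.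
`T_Q` := the finite set of the values `J(Q i)` (for the `Q i` which are not poles), `card ≤ n`.
All the `Q i` are fixed by `Gfix T_Q` (`HasVal.smul_eq`, `smul_eq_of_pole`), so `τ • Z ∼ Z`; by `H` and
`exists_fixed_linEq`: `dsum P ∼ D₀`, `D₀` with support fixed by `Gfix T_Q`; `ℓ(D₀) = e + 1`; `L(D₀)` has
a basis `b` of vectors fixed by `Gfix T_Q` (`exists_fixed_basis`); `dsum P = D₀ + div w`,
`w = ∑ c_i b_i`, w.l.o.g. `c_{i₀} = 1`; `T_c := {c_i : i ≠ i₀}`, `card ≤ e`; `T := T_Q ∪ T_c`.  `w` is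
fixed by `Gfix T`, so every `P i` is fixed by `Gfix T` (it is in the support of `D₀` or a zero/pole of
`w`: `smul_eq_of_ord_ne_zero`), so `J(P i) ∈ clo T` (`HasVal.mem_clo_of_fixed`); `J(R l) ∈ T_Q`.
`card_eq_and_algebraicIndependent`: `card T = n + e` and `T` is algebraically independent; hence
`card T_Q = n`: no `Q i` is a pole, the values are distinct and algebraically independent. -/
theorem Setting.exists_isGen_linEq {g c : ℤ} (hR : IsRiemann Ω (laurentBaseChange Ω F₀) g c)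
    {n : ℕ} (hn : c ≤ n) (hg : g ≤ n) (P : Fin n → Place Ω (laurentBaseChange Ω F₀))
    (hP : 𝔖.IsGen P) (Z : Divisor Ω (laurentBaseChange Ω F₀)) (hZ : Divisor.degree Z = n)
    (H : ∀ S : Finset Ω, (∀ τ ∈ Gfix (S : Set Ω), LinEq (act F₀ τ • Z) Z) →
      ∃ 𝒟 : Finset (Divisor Ω (laurentBaseChange Ω F₀)),
        ∀ τ ∈ Gfix (S : Set Ω), ∃ E ∈ 𝒟, LinEq (act F₀ τ • dsum P) E) :
    ∃ Q : Fin n → Place Ω (laurentBaseChange Ω F₀), 𝔖.IsGen Q ∧ LinEq Z (dsum Q) := by
  classical
  have hFF : IsFF Ω (laurentBaseChange Ω F₀) := 𝔖.isFF Ω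
  obtain ⟨e, he⟩ : ∃ e : ℕ, (e : ℤ) = n - g := ⟨(n - g).toNat, Int.toNat_of_nonneg (by omega)⟩
  have hellZ : (ell Z : ℤ) = e + 1 := by
    rw [hR Z (by rw [hZ]; exact hn), hZ, he]; ring
  obtain ⟨R, t, ht, htv⟩ := 𝔖.exists_isGen_append P hP e
  -- the function `u`
  have h1 := ell_sub_dsum_ge hFF Z R
  have h2 : 0 < ell (Z - dsum R) := by omega
  obtain ⟨u, hu0, hu⟩ := (ell_pos_iff hFF _).mp h2
  obtain ⟨Du, hDu, hDu0⟩ := exists_div hFF hu0
  have huv : ∀ v, -(Z - dsum R) v ≤ v.ord u := (mem_LSp.mp hu).resolve_left hu0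
  obtain ⟨Q, hQ⟩ := exists_dsum_eq hFF (n := n) (Z + Du) (fun v => by
      have h3 := huv v
      have h4 := dsum_nonneg R v
      rw [Finsupp.sub_apply] at h3
      rw [Finsupp.add_apply, hDu]
      omega) (by rw [map_add, hZ, hDu0, add_zero])
  have hZQ : LinEq Z (dsum Q) := ⟨u, hu0, fun v => by rw [hQ, Finsupp.add_apply, hDu]⟩
  have hRQ : ∀ l, ∃ i, Q i = R l := by
    intro l
    rw [← dsum_apply_pos_iff, hQ, Finsupp.add_apply, hDu]
    have h3 := huv (R l)
    have h4 : 0 < dsum R (R l) := (dsum_apply_pos_iff R _).mpr ⟨l, rfl⟩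
    rw [Finsupp.sub_apply] at h3
    omega
  -- the values of the `Q i`
  let a : Fin n → Ω := fun i => if h : ∃ x, 𝔖.HasVal (Q i) x then h.choose else 0
  have ha : ∀ i, 𝔖.HasVal (Q i) (a i) ∨ ((Q i).ord 𝔖.J < 0 ∧ a i = 0) := by
    intro i
    by_cases h : ∃ x, 𝔖.HasVal (Q i) x
    · left
      have : a i = h.choose := dif_pos h
      rw [this]
      exact h.choose_spec
    · right
      exact ⟨(𝔖.exists_hasVal_or_pole (Q i)).resolve_left h, dif_neg h⟩
  let TQ : Finset Ω := Finset.univ.image a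
  have hTQcard : TQ.card ≤ n := by
    simpa using Finset.card_image_le (s := (Finset.univ : Finset (Fin n))) (f := a)
  have haTQ : ∀ i, a i ∈ (TQ : Set Ω) := fun i =>
    Finset.mem_coe.mpr (Finset.mem_image_of_mem a (Finset.mem_univ i))
  have hQfix : ∀ i, ∀ τ ∈ Gfix (TQ : Set Ω), act F₀ τ • Q i = Q i := by
    intro i
    rcases ha i with h | h
    · exact h.smul_eq (subset_clo _ (haTQ i))
    · exact 𝔖.smul_eq_of_pole h.1 _
  have hZfix : ∀ τ ∈ Gfix (TQ : Set Ω), LinEq (act F₀ τ • Z) Z := by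
    intro τ hτ
    have h3 := hZQ.smul (act F₀ τ)
    rw [smul_dsum] at h3
    have h4 : (fun i => act F₀ τ • Q i) = Q := funext fun i => hQfix i τ hτ
    rw [h4] at h3
    exact h3.trans hZQ.symm
  obtain ⟨𝒟, h𝒟⟩ := H TQ hZfix
  obtain ⟨D₀, hD₀, hD₀fix⟩ := 𝔖.exists_fixed_linEq hR (TQ : Set Ω) (dsum P) 𝒟 h𝒟
  have hellD₀ : (ell D₀ : ℤ) = e + 1 := by
    rw [hD₀.ell_eq, hR (dsum P) (by rw [degree_dsum hFF]; exact hn), degree_dsum hFF, he]; ring
  have hfd : FiniteDimensional Ω (LSp D₀) := finiteDimensional_LSp hFF D₀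
  have hstab : ∀ τ ∈ Gfix (TQ : Set Ω), ∀ w ∈ LSp D₀, act F₀ τ • w ∈ LSp D₀ := by
    intro τ hτ w hw
    have h3 := smul_mem_LSp hw (act F₀ τ)
    rwa [smul_eq_of_forall_smul_eq (fun P hP => hD₀fix P hP τ hτ)] at h3
  obtain ⟨b, -, hbspan, hbfix⟩ := exists_fixed_basis (Gfix (TQ : Set Ω)) (LSp D₀) hstab
  obtain ⟨f, hf0, hf⟩ := hD₀
  have hw : f⁻¹ ∈ LSp D₀ := Or.inr fun v => by
    have := dsum_nonneg P v
    rw [v.ord_inv, hf v]; omega
  rw [← hbspan] at hw
  obtain ⟨i₀, c', x, hx0, hci₀, hw'⟩ := exists_normalized_comb b f⁻¹ (inv_ne_zero hf0) hw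
  have hw'ord : ∀ v : Place Ω (laurentBaseChange Ω F₀), v.ord (∑ i, c' i • b i) = - v.ord f := by
    intro v
    rw [hw', ord_smul_eq v hx0, v.ord_inv]
  let Tc : Finset Ω := (Finset.univ.erase i₀).image c'
  have hTc : Tc.card ≤ e := by
    refine Finset.card_image_le.trans ?_
    rw [Finset.card_erase_of_mem (Finset.mem_univ i₀), Finset.card_univ, Fintype.card_fin]
    have : Module.finrank Ω (LSp D₀) = ell D₀ := rfl
    omega
  let T : Finset Ω := TQ ∪ Tc
  have hTcard : T.card ≤ n + e := (Finset.card_union_le _ _).trans (by omega)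
  have hTQT : (TQ : Set Ω) ⊆ clo (T : Set Ω) := fun x hx =>
    subset_clo _ (Finset.mem_coe.mpr (Finset.mem_union_left _ (Finset.mem_coe.mp hx)))
  have hGle : Gfix (T : Set Ω) ≤ Gfix (TQ : Set Ω) := Gfix_anti hTQT
  have hc'T : ∀ i, c' i ∈ clo (T : Set Ω) := by
    intro i
    by_cases hi : i = i₀
    · have : c' i = algebraMap ℚ Ω 1 := by
        rw [hi, map_one, hci₀]
      rw [this]
      exact algebraMap_mem_clo _ _
    · apply subset_clo
      apply Finset.mem_coe.mpr
      apply Finset.mem_union_right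
      exact Finset.mem_image_of_mem c' (Finset.mem_erase.mpr ⟨hi, Finset.mem_univ i⟩)
  have hw'fix := act_smul_sum_eq c' hc'T b (fun τ hτ i => hbfix τ (hGle hτ) i)
  have hPfix : ∀ i, ∀ τ ∈ Gfix (T : Set Ω), act F₀ τ • P i = P i := by
    intro i
    by_cases h0 : D₀ (P i) = 0
    · apply 𝔖.smul_eq_of_ord_ne_zero (T : Set Ω) _ hw'fix
      rw [hw'ord]
      have h3 := hf (P i)
      have h4 : 0 < dsum P (P i) := (dsum_apply_pos_iff P _).mpr ⟨i, rfl⟩
      omega
    · exact fun τ hτ => hD₀fix (P i) h0 τ (hGle hτ)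
  have hmem : ∀ i, t i ∈ clo (T : Set Ω) := by
    intro i
    refine Fin.addCases (fun i => ?_) (fun l => ?_) i
    · have h3 := htv (Fin.castAdd e i)
      rw [Fin.append_left] at h3
      exact h3.mem_clo_of_fixed (hPfix i)
    · have h3 := htv (Fin.natAdd n l)
      rw [Fin.append_right] at h3
      obtain ⟨i, hi⟩ := hRQ l
      rw [← hi] at h3
      apply hTQT
      rcases ha i with h | h
      · rw [h3.unique h]
        exact haTQ i
      · have := h3.ord_J_nonneg
        omega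
  obtain ⟨hcard, hind⟩ := card_eq_and_algebraicIndependent T t ht hmem hTcard
  have hTQn : TQ.card = n := by
    have := Finset.card_union_le TQ Tc
    have h5 : (TQ ∪ Tc).card = n + e := hcard
    omega
  have hainj : Function.Injective a := by
    have h5 : (Finset.univ.image a).card = (Finset.univ : Finset (Fin n)).card := by
      rw [Finset.card_univ, Fintype.card_fin]; exact hTQn
    have := Finset.card_image_iff.mp h5
    intro x y hxy
    exact this (Finset.mem_coe.mpr (Finset.mem_univ x)) (Finset.mem_coe.mpr (Finset.mem_univ y)) hxy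
  have haind : AlgebraicIndependent ℚ a := by
    have h5 := hind.comp (fun i : Fin n => (⟨a i, Finset.mem_union_left _ (Finset.mem_coe.mp (haTQ i))⟩ : T))
      (fun x y hxy => hainj (congrArg Subtype.val hxy))
    exact h5
  refine ⟨Q, ⟨a, haind, fun i => ?_⟩, hZQ⟩
  rcases ha i with h | h
  · exact h
  · exact absurd h.2 (haind.ne_zero i)

end Fermat.Agent.S37lib.DV
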