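import Fermat.Agent.ES.E.ThetaQ
import Fermat.Agent.ES.A.Theta

/-!
# T-S37, (DV): descent of the divisibility of `Pic⁰` from `ℂ` to `ℚ̄`

`DVC N` : every divisor of degree zero of `F_ℂ(N)` is, modulo `m`, the divisor of a function.
`dv_of_dvC` : the same statement over `ℚ̄` follows.
-/

set_option autoImplicit false
set_option linter.unusedSectionVars false

open AlgebraicCurve ModularCurve
open Fermat.Agent.S24lib Fermat.Agent.ESlib

namespace Fermat.Agent.S37lib

noncomputable section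

/-- divisibility of `Pic⁰ (F_ℂ(N))`, in terms of functions -/
def DVC (N : ℕ) : Prop :=
  ∀ D : Divisor ℂ (FK ℂ N), Divisor.degree D = 0 → ∀ m : ℕ, 0 < m →
    ∃ h : FK ℂ N, h ≠ 0 ∧ ∀ v : Place ℂ (FK ℂ N), (m : ℤ) ∣ D v - v.ord h

/-- the same for the divisors supported at the extensions of the places of `F_ℚ̄(N)` -/
def DVExt (N : ℕ) : Prop :=
  ∀ D : Divisor ℂ (FK ℂ N), Divisor.degree D = 0 →
    (∀ P, D P ≠ 0 → ∃ v : Place Kb (FK Kb N),
      ∀ f, P.ord (bc Kb ℂ (modularFunctionFieldFull N) f) = v.ord f) →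
    ∀ m : ℕ, 0 < m → ∃ h : FK ℂ N, h ≠ 0 ∧ ∀ v : Place ℂ (FK ℂ N), (m : ℤ) ∣ D v - v.ord h

/-- divisibility of `Pic⁰ (F_ℚ̄(N))`, in terms of functions -/
def DVQ (N : ℕ) : Prop :=
  ∀ D : Divisor Kb (modularFunctionFieldBar N), Divisor.degree D = 0 → ∀ m : ℕ, 0 < m →
    ∃ h : modularFunctionFieldBar N, h ≠ 0 ∧
      ∀ v : Place Kb (modularFunctionFieldBar N), (m : ℤ) ∣ D v - v.ord h

section general

variable {K F : Type*} [Field K] [Field F] [Algebra K F]

theorem place_ext_of_ord {v w : Place K F} (h : ∀ f : F, v.ord f = w.ord f) : v = w := by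
  have h1 : v.toValuationSubring = w.toValuationSubring := by
    ext f
    rw [Place.mem_iff, Place.mem_iff, h]
  cases v
  cases w
  simp only at h1
  subst h1
  rfl

theorem aeval_mem_place (v : Place K F) {z : F} (hz : z ∈ v.toValuationSubring)
    (p : Polynomial K) : Polynomial.aeval z p ∈ v.toValuationSubring := by
  induction p using Polynomial.induction_on with
  | C a =>
    rw [Polynomial.aeval_C]
    exact v.algebraMap_mem' a
  | add p q hp hq =>
    rw [map_add]
    exact add_mem hp hq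
  | monomial n a _ =>
    rw [map_mul, Polynomial.aeval_C, map_pow, Polynomial.aeval_X]
    exact mul_mem (v.algebraMap_mem' a) (pow_mem hz _)

end general

section rational

variable (L : Type*) [Field L] [Algebra ℚ L]
variable {F₀ : IntermediateField ℚ (LaurentSeries ℚ)}

/-- the map `F₀ → F_L` -/
def ratHom : F₀ →+* laurentBaseChange L F₀ where
  toFun u := ⟨coeffEmb L (u : LaurentSeries ℚ), coeffEmb_mem_laurentBaseChange L u.2⟩
  map_one' := Subtype.ext (map_one (coeffEmb L))
  map_mul' _ _ := Subtype.ext (map_mul (coeffEmb L) _ _)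
  map_zero' := Subtype.ext (map_zero (coeffEmb L))
  map_add' _ _ := Subtype.ext (map_add (coeffEmb L) _ _)

@[simp]
theorem coe_ratHom (u : F₀) :
    (ratHom L u : LaurentSeries L) = coeffEmb L (u : LaurentSeries ℚ) := rfl

theorem ratHom_aeval (u : F₀) (p : Polynomial ℚ) :
    ratHom L (Polynomial.aeval u p) =
      Polynomial.aeval (ratHom L u) (p.map (algebraMap ℚ L)) := by
  rw [Polynomial.aeval_def, Polynomial.hom_eval₂, Polynomial.aeval_def, Polynomial.eval₂_map]
  congr 1
  exact Subsingleton.elim _ _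

theorem smul_ratHom (σ : L ≃ₐ[ℚ] L) (u : F₀) :
    arithmeticGalois F₀ σ • ratHom L u = ratHom L u := by
  apply Subtype.ext
  rw [coe_arithmeticGalois_smul]
  exact coeffMap_coeffEmb σ _

theorem bc_ratHom (L' : Type*) [Field L'] [Algebra ℚ L'] [Algebra L L'] [IsScalarTower ℚ L L']
    (u : F₀) : bc L L' F₀ (ratHom L u) = ratHom L' u :=
  Subtype.ext (coeffMap_coeffEmb_algebraMap L L' _)

variable {L}

/-- every place of `F_L` (`L` algebraic over `ℚ`) is a zero or a pole of a function with rational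
coefficients -/
theorem exists_ratHom_ord_ne_zero [IsAlgClosed L] [Algebra.IsAlgebraic ℚ L]
    (hFF : Fermat.Agent.S24RH.IsFF L (laurentBaseChange L F₀))
    (x₀ : F₀) (hx₀ : (x₀ : LaurentSeries ℚ).order ≠ 0)
    (v : Place L (laurentBaseChange L F₀)) : ∃ u : F₀, v.ord (ratHom L u) ≠ 0 := by
  have : CharZero L := algebraRat.charZero L
  set z := ratHom L x₀ with hz
  have hzc : z ∉ Set.range (algebraMap L (laurentBaseChange L F₀)) := by
    rintro ⟨c, hc⟩
    apply hx₀
    have h1 : (coeffEmb L (x₀ : LaurentSeries ℚ)) = algebraMap L (LaurentSeries L) c := by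
      have := congrArg (fun y : laurentBaseChange L F₀ => (y : LaurentSeries L)) hc
      exact this.symm
    have h2 : (coeffEmb L (x₀ : LaurentSeries ℚ)).order = (x₀ : LaurentSeries ℚ).order :=
      order_coeffMap_of_injective _ (algebraMap ℚ L).injective _
    rw [← h2, h1, algebraMap_laurentSeries_eq_single]
    by_cases hc0 : c = 0
    · simp [hc0]
    · exact HahnSeries.order_single hc0
  have hzt : Transcendental L z := Fermat.Agent.S24RH.transcendental_of_not_mem_range hzc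
  by_cases hzv : z ∈ v.toValuationSubring
  · obtain ⟨c, hc | hc⟩ := Fermat.Agent.S24RH.exists_const hFF v hzv
    · exact absurd ⟨c, hc.symm⟩ hzc
    · have hcint : IsIntegral ℚ c := (Algebra.IsAlgebraic.isAlgebraic c).isIntegral
      set μ := minpoly ℚ c with hμ
      have hroot : ((μ.map (algebraMap ℚ L))).IsRoot c := by
        rw [Polynomial.IsRoot, Polynomial.eval_map_algebraMap]
        exact minpoly.aeval ℚ c
      obtain ⟨ν, hν⟩ := Polynomial.dvd_iff_isRoot.2 hroot
      have hμ0 : μ.map (algebraMap ℚ L) ≠ 0 :=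
        (Polynomial.map_ne_zero_iff (algebraMap ℚ L).injective).2 (minpoly.ne_zero hcint)
      have hν0 : ν ≠ 0 := by
        rintro rfl
        rw [mul_zero] at hν
        exact hμ0 hν
      refine ⟨Polynomial.aeval x₀ μ, ?_⟩
      rw [ratHom_aeval, hν, map_mul, map_sub, Polynomial.aeval_X, Polynomial.aeval_C]
      have h1 : Polynomial.aeval z ν ≠ 0 := fun h => hzt ⟨ν, hν0, h⟩
      have h2 : z - algebraMap L _ c ≠ 0 := fun h => hzc ⟨c, (sub_eq_zero.1 h).symm⟩
      rw [v.ord_mul h2 h1]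
      have h3 := (Place.mem_iff v).1 (aeval_mem_place v hzv ν)
      rcases h3 with h3 | h3
      · exact absurd h3 h1
      · omega
  · refine ⟨x₀, fun h => hzv ?_⟩
    rw [Place.mem_iff]
    right
    rw [← hz] at h
    omega

end rational

section reps

variable {K F : Type*} [Field K] [Field F] [Algebra K F] {m : ℕ}

/-- a system of representatives of `W_m` -/
def wmRep (w : Wm K F m) : F := (((Quotient.out w : mDivUnits K F m) : Fˣ) : F)

theorem wmRep_ne_zero (w : Wm K F m) : wmRep w ≠ 0 := Units.ne_zero _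

theorem sameClass_wmRep {q : F} (hq : MDiv K m q) :
    ∃ w : Wm K F m, SameClass m (wmRep w) q := by
  let u : mDivUnits K F m := ⟨Units.mk0 q hq.1, mem_mDivUnits.2 hq⟩
  refine ⟨QuotientGroup.mk u, ?_⟩
  have h2 : (QuotientGroup.mk (Quotient.out (QuotientGroup.mk u : Wm K F m)) : Wm K F m)
      = QuotientGroup.mk u := Quotient.out_eq _
  rw [QuotientGroup.eq] at h2
  obtain ⟨a, ha⟩ := h2
  refine ⟨a, a.ne_zero, ?_⟩
  have h3 := congrArg (fun x : Fˣ => (x : F)) ha
  simp only [powMonoidHom_apply, Units.val_pow_eq_pow_val, Subgroup.subtype_apply,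
    Subgroup.coe_mul, Subgroup.coe_inv, Units.val_mul, Units.val_inv_eq_inv_val] at h3
  rw [h3]
  have h4 : wmRep (QuotientGroup.mk u : Wm K F m) ≠ 0 := wmRep_ne_zero _
  show q = wmRep (QuotientGroup.mk u : Wm K F m) *
    ((wmRep (QuotientGroup.mk u : Wm K F m))⁻¹ * q)
  rw [mul_inv_cancel_left₀ h4]

end reps

section main

variable (N : ℕ) [NeZero N]

theorem degree_mapDomain_eq {K K' F F' : Type*} [Field K] [Field F] [Algebra K F] [Field K']
    [Field F'] [Algebra K' F'] (e : Place K F → Place K' F') (h : ∀ v, (e v).deg = v.deg)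
    (D : Divisor K F) : Divisor.degree (Finsupp.mapDomain e D) = Divisor.degree D := by
  induction D using Finsupp.induction with
  | zero => simp
  | single_add P n D _ _ ih =>
    rw [Finsupp.mapDomain_add, map_add, map_add, ih, Finsupp.mapDomain_single,
      Divisor.degree_single, Divisor.degree_single, h]

/-- **Descent of (DV) from `ℂ` to `ℚ̄`.** -/
theorem dvQ_of_dvExt (H : DVExt N) : DVQ N := by
  classical
  intro D hD m hm
  have : NeZero m := ⟨hm.ne'⟩
  have : Algebra.IsAlgebraic ℚ Kb := AlgebraicClosure.isAlgebraic ℚ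
  have hFFb : Fermat.Agent.S24RH.IsFF Kb (FK Kb N) := isFF_FK N
  have hFFc : Fermat.Agent.S24RH.IsFF ℂ (FK ℂ N) := isFF_FK N
  let x₀ : modularFunctionFieldFull N := ⟨jq, modularFunctionField_le_full N (jq_mem N)⟩
  choose ext hext using fun v => exists_place_extend Kb ℂ (modularFunctionFieldFull N) hFFb v
  have hinj : Function.Injective ext := fun v w h =>
    place_ext_of_ord (fun f => by rw [← hext v, ← hext w, h])
  set D' : Divisor ℂ (FK ℂ N) := Finsupp.mapDomain ext D with hD'def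
  have hD' : Divisor.degree D' = 0 := by
    rw [hD'def, degree_mapDomain_eq ext (fun v => by
      rw [Fermat.Agent.S24RH.deg_eq_one hFFc, Fermat.Agent.S24RH.deg_eq_one hFFb]), hD]
  have hsupp : ∀ P, D' P ≠ 0 → ∃ v : Place Kb (FK Kb N),
      ∀ f, P.ord (bc Kb ℂ (modularFunctionFieldFull N) f) = v.ord f := by
    intro P hP
    have h1 : P ∈ (Finsupp.mapDomain ext D).support := Finsupp.mem_support_iff.2 hP
    have h2 := Finsupp.mapDomain_support h1
    rw [Finset.mem_image] at h2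
    obtain ⟨v, -, rfl⟩ := h2
    exact ⟨v, hext v⟩
  obtain ⟨h', hh0, hh⟩ := H D' hD' hsupp m hm
  let g : (ℂ ≃ₐ[ℚ] ℂ) → _ := fun σ => arithmeticGalois (modularFunctionFieldFull N) σ
  -- finite orbits
  have horb : ∀ v, {w | ∃ σ, w = g σ • ext v}.Finite := by
    intro v
    obtain ⟨u, hu⟩ := exists_ratHom_ord_ne_zero hFFb x₀ order_jq_ne_zero v
    have hu' : (ext v).ord (ratHom ℂ u) ≠ 0 := by
      rw [← bc_ratHom Kb ℂ u, hext]
      exact hu
    have hu0 : ratHom ℂ u ≠ 0 := by
      intro h0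
      rw [h0] at hu'
      simp at hu'
    refine (Fermat.Agent.S24RH.finite_ord_ne_zero hFFc hu0).subset ?_
    rintro w ⟨σ, rfl⟩
    show (g σ • ext v).ord (ratHom ℂ u) ≠ 0
    have h1 := SemilinearAut.ord_smul (g σ) (ext v) (ratHom ℂ u)
    rw [smul_ratHom] at h1
    rw [h1]
    exact hu'
  let O : Set (Place ℂ (FK ℂ N)) := ⋃ v ∈ D.support, {w | ∃ σ, w = g σ • ext v}
  have hOfin : O.Finite := Set.Finite.biUnion D.support.finite_toSet (fun v _ => horb v)
  have hOstab : ∀ σ w, w ∉ O → (g σ)⁻¹ • w ∉ O := by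
    intro σ w hw hmem
    apply hw
    simp only [O, Set.mem_iUnion, Set.mem_ofPred_eq] at hmem ⊢
    obtain ⟨v, hv, τ, hτ⟩ := hmem
    refine ⟨v, hv, σ * τ, ?_⟩
    show w = arithmeticGalois (modularFunctionFieldFull N) (σ * τ) • ext v
    rw [map_mul, mul_smul]
    show w = g σ • g τ • ext v
    rw [← hτ, smul_inv_smul]
  have hD'O : ∀ w, w ∉ O → D' w = 0 := by
    intro w hw
    by_contra h0
    have h1 : w ∈ (Finsupp.mapDomain ext D).support := Finsupp.mem_support_iff.2 h0
    have h2 := Finsupp.mapDomain_support h1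
    rw [Finset.mem_image] at h2
    obtain ⟨v, hv, rfl⟩ := h2
    apply hw
    simp only [O, Set.mem_iUnion, Set.mem_ofPred_eq]
    refine ⟨v, hv, 1, ?_⟩
    show ext v = arithmeticGalois (modularFunctionFieldFull N) 1 • ext v
    rw [map_one, one_smul]
  have hord : ∀ (σ : ℂ ≃ₐ[ℚ] ℂ) (w : Place ℂ (FK ℂ N)),
      w.ord (g σ • h') = ((g σ)⁻¹ • w).ord h' := by
    intro σ w
    have h1 := SemilinearAut.ord_smul (g σ) ((g σ)⁻¹ • w) h'
    rw [smul_inv_smul] at h1
    exact h1
  have hout : ∀ (σ : ℂ ≃ₐ[ℚ] ℂ) (w : Place ℂ (FK ℂ N)), w ∉ O → (m : ℤ) ∣ w.ord (g σ • h') := by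
    intro σ w hw
    rw [hord]
    have h1 := hh ((g σ)⁻¹ • w)
    rw [hD'O _ (hOstab σ w hw), zero_sub, dvd_neg] at h1
    exact h1
  have : Finite O := hOfin.to_subtype
  let Φ : FK ℂ N → (O → ZMod m) := fun x w => (((w : Place ℂ (FK ℂ N)).ord x : ℤ) : ZMod m)
  let X : (O → ZMod m) → FK ℂ N := fun δ =>
    if h : ∃ σ, Φ (g σ • h') = δ then g h.choose • h' else 1
  let T : Set (FK ℂ N) :=
    Set.range (fun p : (O → ZMod m) × Wm ℂ (FK ℂ N) m => X p.1 * wmRep p.2)
  have hT : T.Finite := Set.finite_range _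
  have key : ∀ σ : ℂ ≃ₐ[ℚ] ℂ, ∃ t ∈ T,
      SameClass m t (arithmeticGalois (modularFunctionFieldFull N) σ • h') := by
    intro σ
    have hex : ∃ τ, Φ (g τ • h') = Φ (g σ • h') := ⟨σ, rfl⟩
    set τ := hex.choose with hτ
    have hτs : Φ (g τ • h') = Φ (g σ • h') := hex.choose_spec
    have hX : X (Φ (g σ • h')) = g τ • h' := dif_pos hex
    have hy0 : g σ • h' ≠ 0 := (smul_ne_zero_iff_ne _).2 hh0
    have hx0 : g τ • h' ≠ 0 := (smul_ne_zero_iff_ne _).2 hh0
    have hq : MDiv ℂ m ((g τ • h')⁻¹ * (g σ • h')) := by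
      refine ⟨mul_ne_zero (inv_ne_zero hx0) hy0, fun w => ?_⟩
      rw [w.ord_mul (inv_ne_zero hx0) hy0, w.ord_inv]
      by_cases hw : w ∈ O
      · have h1 := congrFun hτs ⟨w, hw⟩
        simp only [Φ] at h1
        rw [ZMod.intCast_eq_intCast_iff_dvd_sub] at h1
        have e : -w.ord (g τ • h') + w.ord (g σ • h') = w.ord (g σ • h') - w.ord (g τ • h') := by
          ring
        rw [e]
        exact h1
      · exact dvd_add ((dvd_neg).2 (hout τ w hw)) (hout σ w hw)
    obtain ⟨w, a, ha0, ha⟩ := sameClass_wmRep hq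
    refine ⟨X (Φ (g σ • h')) * wmRep w, ⟨(Φ (g σ • h'), w), rfl⟩, a, ha0, ?_⟩
    show g σ • h' = _
    rw [hX, mul_assoc, ← ha, mul_inv_cancel_left₀ hx0]
  obtain ⟨f, a, ha0, hf⟩ := exists_bc_sameClass Kb ℂ (modularFunctionFieldFull N) hFFc jq
    (modularFunctionField_le_full N (jq_mem N)) order_jq_ne_zero hm h' hh0 T hT key
  have hf0 : f ≠ 0 := by
    rintro rfl
    rw [map_zero] at hf
    exact mul_ne_zero hh0 (pow_ne_zero _ ha0) hf.symm
  refine ⟨f, hf0, fun v => ?_⟩
  have h1 := hh (ext v)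
  rw [hD'def, Finsupp.mapDomain_apply hinj] at h1
  rw [← hext v f, hf, (ext v).ord_mul hh0 (pow_ne_zero _ ha0), ← zpow_natCast, (ext v).ord_zpow]
  have e : D v - ((ext v).ord h' + (m : ℤ) * (ext v).ord a)
      = (D v - (ext v).ord h') - (m : ℤ) * (ext v).ord a := by ring
  rw [e]
  exact dvd_sub h1 (Dvd.intro _ rfl)

theorem dvQ_of_dvC (H : DVC N) : DVQ N :=
  dvQ_of_dvExt N (fun D hD _ => H D hD)

variable {N}

/-- the divisor of a nonzero function, of degree zero (function field over an algebraically closed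
field of characteristic zero) -/
theorem exists_divisor_of_isFF {K F : Type*} [Field K] [Field F] [Algebra K F] [IsAlgClosed K]
    [CharZero K] (hFF : Fermat.Agent.S24RH.IsFF K F) {h : F} (hh : h ≠ 0) :
    ∃ Dh : Divisor K F, (∀ v, Dh v = v.ord h) ∧ Divisor.degree Dh = 0 := by
  classical
  let Dh : Divisor K F := Finsupp.ofSupportFinite (fun v => v.ord h)
    (Fermat.Agent.S24RH.finite_ord_ne_zero hFF hh)
  have hDh : ∀ v, Dh v = v.ord h := fun v => rfl
  refine ⟨Dh, hDh, ?_⟩
  rw [Divisor.degree, Finsupp.liftAddHom_apply, Finsupp.sum]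
  have h1 := Fermat.Agent.S24RH.sum_ord_eq_zero hFF hh Dh.support (fun v hv =>
    Finsupp.mem_support_iff.2 (by rw [hDh]; exact hv))
  rw [← h1]
  refine Finset.sum_congr rfl fun v _ => ?_
  rw [AddMonoidHom.coe_mulRight, Fermat.Agent.S24RH.deg_eq_one hFF, hDh]
  simp

/-- (DV) in the form `D = div h + m E`. -/
theorem DVQ.exists_eq_add (H : DVQ N) (D : Divisor Kb (modularFunctionFieldBar N))
    (hD : Divisor.degree D = 0) {m : ℕ} (hm : 0 < m) :
    ∃ (h : modularFunctionFieldBar N) (Dh E : Divisor Kb (modularFunctionFieldBar N)),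
      h ≠ 0 ∧ (∀ v, Dh v = v.ord h) ∧ Divisor.degree Dh = 0 ∧ Divisor.degree E = 0 ∧
        D = Dh + m • E := by
  classical
  have hFFb : Fermat.Agent.S24RH.IsFF Kb (FK Kb N) := isFF_FK N
  obtain ⟨h, hh0, hh⟩ := H D hD m hm
  obtain ⟨Dh, hDh, hdeg⟩ := exists_divisor_of_isFF hFFb hh0
  let E : Divisor Kb (modularFunctionFieldBar N) :=
    (D - Dh).mapRange (fun n => n / (m : ℤ)) (Int.zero_ediv _)
  have hE : D = Dh + m • E := by
    ext v
    rw [Finsupp.add_apply, Finsupp.smul_apply, Finsupp.mapRange_apply, Finsupp.sub_apply, hDh,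
      nsmul_eq_mul, Int.mul_ediv_cancel' (hh v)]
    ring
  refine ⟨h, Dh, E, hh0, hDh, hdeg, ?_, hE⟩
  have h1 := congrArg Divisor.degree hE
  rw [map_add, map_nsmul, hD, hdeg, zero_add, nsmul_eq_mul] at h1
  have hm' : (m : ℤ) ≠ 0 := by exact_mod_cast hm.ne'
  rcases mul_eq_zero.1 h1.symm with h2 | h2
  · exact absurd h2 hm'
  · exact h2

/-- (DV): `J₀(N)(ℚ̄)` is divisible. -/
theorem DVQ.exists_nsmul_eq (H : DVQ N) (x : JZero N) {m : ℕ} (hm : 0 < m) :
    ∃ y : JZero N, m • y = x := by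
  obtain ⟨⟨D, hD⟩, rfl⟩ := Pic0.mk_surjective x
  obtain ⟨h, Dh, E, hh0, hDh, -, hE0, hE⟩ := H.exists_eq_add D hD hm
  refine ⟨Pic0.mk ⟨E, hE0⟩, ?_⟩
  show m • (QuotientAddGroup.mk _ : JZero N) = QuotientAddGroup.mk _
  rw [← QuotientAddGroup.mk_nsmul, QuotientAddGroup.eq, AddSubgroup.mem_addSubgroupOf]
  refine ⟨h, hh0, fun v => ?_⟩
  rw [← hDh]
  simp only [AddSubgroup.coe_add, AddSubgroup.coe_neg, AddSubgroup.coe_nsmul, hE]
  simp

end main

end

end Fermat.Agent.S37lib
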