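import Fermat.Agent.S37.DV.DivC

/-!
# T-S37, part (DV), block D (= DV6): descent of the divisibility from `Ω` to `L = ℚ̄`
-/

set_option autoImplicit false
set_option linter.unusedSectionVars false

open AlgebraicCurve ModularCurve Fermat.Agent.S24RH Fermat.Agent.ESlib

namespace Fermat.Agent.S37lib.DV

variable {L Ω : Type} [Field L] [Algebra ℚ L] [IsAlgClosed L] [CharZero L]
  [Field Ω] [Algebra ℚ Ω] [IsAlgClosed Ω] [CharZero Ω] [Algebra L Ω] [IsScalarTower ℚ L Ω]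
  {F₀ : IntermediateField ℚ (LaurentSeries ℚ)} (𝔖 : Setting Ω F₀)

variable (L Ω F₀) in
/-- the extension of a place of `F_L` to `F_Ω` (`ESlib.exists_place_extend`) -/
noncomputable def ext (hFF : IsFF L (laurentBaseChange L F₀))
    (v : Place L (laurentBaseChange L F₀)) : Place Ω (laurentBaseChange Ω F₀) :=
  (exists_place_extend L Ω F₀ hFF v).choose

theorem ord_ext (hFF : IsFF L (laurentBaseChange L F₀)) (v : Place L (laurentBaseChange L F₀))
    (f : laurentBaseChange L F₀) : (ext L Ω F₀ hFF v).ord (bc L Ω F₀ f) = v.ord f :=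
  (exists_place_extend L Ω F₀ hFF v).choose_spec f

/-- **D1a.** -/
theorem ext_injective (hFF : IsFF L (laurentBaseChange L F₀)) :
    Function.Injective (ext L Ω F₀ hFF) := by
  intro v w hvw
  apply place_ext_of_le
  intro f hf
  rw [← ord_nonneg_iff] at hf ⊢
  rw [← ord_ext (Ω := Ω) hFF w f, ← hvw, ord_ext hFF v f]
  exact hf

/-- an element of `bc (F_L)` is fixed by `Gfix ∅` -/
theorem act_smul_bcL (hL : ∀ a : L, algebraMap L Ω a ∈ clo (∅ : Set Ω))
    (τ : Ω ≃ₐ[ℚ] Ω) (hτ : τ ∈ Gfix (∅ : Set Ω)) (f : laurentBaseChange L F₀) :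
    act F₀ τ • bc L Ω F₀ f = bc L Ω F₀ f := by
  apply Subtype.ext
  ext k
  rw [coeff_act_smul, coe_bc, coeffMap_coeff]
  exact hτ _ (hL _)

/-- an element fixed by `Gfix ∅` is in `bc (F_L)` -/
theorem exists_bcL_eq_of_fixed (hL : ∀ x : Ω, x ∈ clo (∅ : Set Ω) → x ∈ (algebraMap L Ω).range)
    (u : laurentBaseChange Ω F₀) (hu : ∀ τ ∈ Gfix (∅ : Set Ω), act F₀ τ • u = u) :
    ∃ f : laurentBaseChange L F₀, bc L Ω F₀ f = u := by
  obtain ⟨f', hf'⟩ := exists_bc_eq_of_fixed (∅ : Set Ω) u hu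
  apply exists_bc_eq_of_coeff_mem
  intro k
  apply hL
  rw [← hf', coe_bc, coeffMap_coeff, ← mem_cloField]
  exact ((f' : LaurentSeries (cloField (∅ : Set Ω))).coeff k).2

/-- **D1b.**  (`place_eq_of_restrict`) -/
theorem act_smul_ext (hL : ∀ a : L, algebraMap L Ω a ∈ clo (∅ : Set Ω))
    (hFF : IsFF L (laurentBaseChange L F₀)) (v : Place L (laurentBaseChange L F₀))
    (τ : Ω ≃ₐ[ℚ] Ω) (hτ : τ ∈ Gfix (∅ : Set Ω)) :
    act F₀ τ • ext L Ω F₀ hFF v = ext L Ω F₀ hFF v := by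
  refine place_eq_of_restrict L Ω F₀ hFF v _ _ (n := 1) (n' := 1) one_pos one_pos
    (fun f => ?_) (fun f => ?_)
  · rw [← act_smul_bcL hL τ hτ f, SemilinearAut.ord_smul, ord_ext]
    simp
  · rw [ord_ext]
    simp

/-- **D1c.**  a place fixed by `Gfix ∅` is the extension of a place of `F_L`
(its value `a` is in `clo ∅`, or it is a pole of `J`; `J - a` is `bc` of something
(`ESlib.exists_bc_eq_of_coeff_mem`), so the restriction is not trivial: `exists_place_restrict`,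
`place_eq_of_restrict`). -/
theorem Setting.exists_ext_eq (𝔖 : Setting Ω F₀) (hL : ∀ x : Ω, x ∈ clo (∅ : Set Ω) → x ∈ (algebraMap L Ω).range)
    (hFF : IsFF L (laurentBaseChange L F₀)) (P : Place Ω (laurentBaseChange Ω F₀))
    (hP : ∀ τ ∈ Gfix (∅ : Set Ω), act F₀ τ • P = P) : ∃ v, ext L Ω F₀ hFF v = P := by
  -- a function fixed by `Gfix ∅` with a zero or a pole at `P`
  obtain ⟨u, hu, huP⟩ : ∃ u : laurentBaseChange Ω F₀,
      (∀ τ ∈ Gfix (∅ : Set Ω), act F₀ τ • u = u) ∧ P.ord u ≠ 0 := by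
    rcases 𝔖.exists_hasVal_or_pole P with ⟨a, ha⟩ | hpole
    · refine ⟨𝔖.J - algebraMap Ω (laurentBaseChange Ω F₀) a, fun τ hτ => ?_, ?_⟩
      · rw [smul_sub, 𝔖.J_fix τ, act_smul_algebraMap, hτ a (ha.mem_clo_of_fixed hP)]
      · have : 0 < P.ord (𝔖.J - algebraMap Ω (laurentBaseChange Ω F₀) a) := ha
        omega
    · exact ⟨𝔖.J, fun τ _ => 𝔖.J_fix τ, by omega⟩
  obtain ⟨f, rfl⟩ := exists_bcL_eq_of_fixed hL u hu
  rcases exists_place_restrict (bc L Ω F₀) (bc_algebraMap L Ω F₀) P with h0 | ⟨v, n, hn, hv⟩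
  · exact absurd (h0 f) huP
  · refine ⟨v, place_eq_of_restrict L Ω F₀ hFF v _ _ (n := 1) (n' := n) one_pos hn
      (fun f => ?_) hv⟩
    rw [ord_ext]
    simp

/-- **D2.**  a function whose divisor is fixed by `Gfix ∅` is a constant times `bc h`
(`τ • h' / h'` has no zero and no pole, so it is a constant
(`ESlib.exists_const_of_forall_ord_le_zero`); normalise the leading coefficient to `1`; then `h'` is
fixed, its coefficients are in `clo ∅`; `ESlib.exists_bc_eq_of_coeff_mem`). -/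
theorem Setting.exists_bc_of_div_fixed (𝔖 : Setting Ω F₀)
    (hL : ∀ x : Ω, x ∈ clo (∅ : Set Ω) → x ∈ (algebraMap L Ω).range)
    (h' : laurentBaseChange Ω F₀) (h0 : h' ≠ 0)
    (hfix : ∀ τ ∈ Gfix (∅ : Set Ω), ∀ P : Place Ω (laurentBaseChange Ω F₀),
      (act F₀ τ • P).ord h' = P.ord h') :
    ∃ h : laurentBaseChange L F₀, h ≠ 0 ∧
      ∀ P : Place Ω (laurentBaseChange Ω F₀), P.ord (bc L Ω F₀ h) = P.ord h' := by
  have hFF := 𝔖.isFF Ω
  -- the leading coefficient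
  have h0' : (h' : LaurentSeries Ω) ≠ 0 := fun h => h0 (Subtype.ext h)
  set k₀ : ℤ := (h' : LaurentSeries Ω).order with hk₀
  set a : Ω := (h' : LaurentSeries Ω).coeff k₀ with ha
  have ha0 : a ≠ 0 := fun h => h0' (HahnSeries.coeff_order_eq_zero.1 h)
  have hcoeff : ∀ (b : Ω) (x : laurentBaseChange Ω F₀) (k : ℤ),
      ((algebraMap Ω (laurentBaseChange Ω F₀) b * x : laurentBaseChange Ω F₀) :
        LaurentSeries Ω).coeff k = b * (x : LaurentSeries Ω).coeff k := by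
    intro b x k
    have : ((algebraMap Ω (laurentBaseChange Ω F₀) b * x : laurentBaseChange Ω F₀) :
        LaurentSeries Ω) = algebraMap Ω (LaurentSeries Ω) b * (x : LaurentSeries Ω) := rfl
    rw [this, algebraMap_laurentSeries_eq_single, HahnSeries.coeff_single_zero_mul]
  set h'' : laurentBaseChange Ω F₀ := algebraMap Ω (laurentBaseChange Ω F₀) a⁻¹ * h' with hh''
  have hh''0 : h'' ≠ 0 := mul_ne_zero ((map_ne_zero _).2 (inv_ne_zero ha0)) h0
  have hlead : (h'' : LaurentSeries Ω).coeff k₀ = 1 := by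
    rw [hh'', hcoeff, ← ha, inv_mul_cancel₀ ha0]
  have hord : ∀ P : Place Ω (laurentBaseChange Ω F₀), P.ord h'' = P.ord h' := by
    intro P
    rw [hh'', P.ord_mul ((map_ne_zero _).2 (inv_ne_zero ha0)) h0, ord_algebraMap, zero_add]
  have hfixed : ∀ τ ∈ Gfix (∅ : Set Ω), act F₀ τ • h'' = h'' := by
    intro τ hτ
    have hτ0 : act F₀ τ • h'' ≠ 0 := by simpa using hh''0
    obtain ⟨c, hc⟩ := exists_const_of_forall_ord_le_zero hFF ((act F₀ τ • h'') / h'') (fun Q => by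
      rw [ord_div Q hτ0 hh''0]
      have h1 := SemilinearAut.ord_smul (act F₀ τ) ((act F₀ τ)⁻¹ • Q) h''
      rw [smul_inv_smul] at h1
      have h2 := hfix τ hτ ((act F₀ τ)⁻¹ • Q)
      rw [smul_inv_smul] at h2
      rw [h1, hord, hord, h2, sub_self])
    have hc' : act F₀ τ • h'' = algebraMap Ω (laurentBaseChange Ω F₀) c * h'' := by
      rw [← hc, div_mul_cancel₀ _ hh''0]
    have hc1 : c = 1 := by
      have h3 := congrArg (fun x : laurentBaseChange Ω F₀ => (x : LaurentSeries Ω).coeff k₀) hc'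
      rw [coeff_act_smul, hlead, map_one, hcoeff c h'', hlead, mul_one] at h3
      exact h3.symm
    rw [hc', hc1, map_one, one_mul]
  obtain ⟨h, hh⟩ := exists_bcL_eq_of_fixed hL h'' hfixed
  refine ⟨h, ?_, fun P => by rw [hh, hord]⟩
  rintro rfl
  rw [map_zero] at hh
  exact hh''0 hh.symm

/-- **D (= DV6).**  `D' := D.mapDomain ext` is fixed by `Gfix ∅`; `D' ∼ m • E'`
(`divisible_of_fixed`); the class of `E'` has a finite orbit (`hT`), so `E' ∼ E₀` with support fixed by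
`Gfix ∅` (`exists_fixed_linEq`, `S = ∅`); `m • E₀ = D' + div h'`; D2 gives `h`;
`E := E₀.comapDomain ext`. -/
theorem Setting.descent (𝔖 : Setting Ω F₀) (hL : ∀ x : Ω, x ∈ clo (∅ : Set Ω) ↔ x ∈ (algebraMap L Ω).range)
    {g c : ℤ} (hR : IsRiemann Ω (laurentBaseChange Ω F₀) g c)
    {m : ℕ} (hm : 0 < m) (hT : FinTors Ω (laurentBaseChange Ω F₀) m)
    (D : Divisor L (laurentBaseChange L F₀)) (hD : Divisor.degree D = 0) :
    ∃ (h : laurentBaseChange L F₀) (E : Divisor L (laurentBaseChange L F₀)), h ≠ 0 ∧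
      Divisor.degree E = 0 ∧ ∀ v, D v = v.ord h + m * E v := by
  classical
  have hFF := 𝔖.isFF Ω
  have hFFL := 𝔖.isFF L
  have hL1 : ∀ a : L, algebraMap L Ω a ∈ clo (∅ : Set Ω) := fun a => (hL _).2 ⟨a, rfl⟩
  have hL2 : ∀ x : Ω, x ∈ clo (∅ : Set Ω) → x ∈ (algebraMap L Ω).range := fun x => (hL x).1
  have hinj := ext_injective (L := L) (Ω := Ω) (F₀ := F₀) hFFL
  set D' : Divisor Ω (laurentBaseChange Ω F₀) := D.mapDomain (ext L Ω F₀ hFFL) with hD'
  have hD'v : ∀ v, D' (ext L Ω F₀ hFFL v) = D v := fun v => Finsupp.mapDomain_apply hinj D v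
  have hD'deg : Divisor.degree D' = 0 := by
    rw [degree_eq_sum hFF, hD', Finsupp.sum_mapDomain_index (fun _ => rfl) (fun _ _ _ => rfl),
      ← degree_eq_sum hFFL, hD]
  have hD'fix : ∀ τ ∈ Gfix (∅ : Set Ω), act F₀ τ • D' = D' := by
    intro τ hτ
    apply smul_eq_of_forall_smul_eq
    intro P hP
    have hP' : P ∈ D'.support := Finsupp.mem_support_iff.2 hP
    have := Finsupp.mapDomain_support hP'
    rw [Finset.mem_image] at this
    obtain ⟨v, -, rfl⟩ := this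
    exact act_smul_ext hL1 hFFL v τ hτ
  obtain ⟨E', hE'deg, hE'⟩ := 𝔖.divisible_of_fixed hR hm hT D' hD'deg
    (fun τ hτ => by rw [hD'fix τ hτ]; exact LinEq.refl _)
  obtain ⟨𝒯, h𝒯⟩ := hT
  obtain ⟨E₀, hE₀, hE₀fix⟩ := 𝔖.exists_fixed_linEq hR (∅ : Set Ω) E' (𝒯.image (· + E'))
    (fun τ hτ => by
      obtain ⟨T, hT, hl⟩ := h𝒯 (act F₀ τ • E' - E')
        (by rw [map_sub, SemilinearAut.degree_smul, sub_self])
        (by
          have h1 := (hE'.smul (act F₀ τ)).symm.trans (by rw [hD'fix τ hτ]; exact hE')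
          have h2 := h1.sub (LinEq.refl (m • E'))
          rwa [sub_self, smul_comm, ← smul_sub] at h2)
      refine ⟨T + E', Finset.mem_image_of_mem _ hT, ?_⟩
      have := hl.add (LinEq.refl E')
      rwa [sub_add_cancel] at this)
  have hE₀fix' : ∀ τ ∈ Gfix (∅ : Set Ω), act F₀ τ • E₀ = E₀ := fun τ hτ =>
    smul_eq_of_forall_smul_eq fun P hP => hE₀fix P hP τ hτ
  obtain ⟨h', h'0, hh'⟩ := hE'.trans (hE₀.nsmul m)
  obtain ⟨h₁, h₁0, hh₁⟩ := 𝔖.exists_bc_of_div_fixed hL2 h' h'0 (fun τ hτ P => by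
    have h1 := hh' (act F₀ τ • P)
    have h2 := hh' P
    have h3 : (m • E₀) (act F₀ τ • P) = (m • E₀) P := by
      rw [Finsupp.smul_apply, Finsupp.smul_apply]
      conv_lhs => rw [← hE₀fix' τ hτ, SemilinearAut.divisor_smul_apply_smul]
    have h4 : D' (act F₀ τ • P) = D' P := by
      conv_lhs => rw [← hD'fix τ hτ, SemilinearAut.divisor_smul_apply_smul]
    omega)
  set E : Divisor L (laurentBaseChange L F₀) :=
    E₀.comapDomain (ext L Ω F₀ hFFL) hinj.injOn with hE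
  have hEv : ∀ v, (m • E) v = D v + v.ord h₁ := by
    intro v
    have h1 := hh' (ext L Ω F₀ hFFL v)
    rw [hD'v, ← hh₁, ord_ext, Finsupp.smul_apply] at h1
    rw [Finsupp.smul_apply, hE, Finsupp.comapDomain_apply]
    exact h1
  refine ⟨h₁⁻¹, E, inv_ne_zero h₁0, ?_, fun v => ?_⟩
  · have h1 : Divisor.degree (m • E) = Divisor.degree D :=
      LinEq.degree_eq hFFL ⟨h₁, h₁0, hEv⟩
    rw [hD, map_nsmul, smul_eq_zero] at h1
    exact h1.resolve_left (by omega)
  · have := hEv v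
    rw [Finsupp.smul_apply, nsmul_eq_mul] at this
    rw [v.ord_inv]
    omega

end Fermat.Agent.S37lib.DV
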