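import Fermat.Agent.S37.DV.Count
import Fermat.Agent.S37.DV.Conj

/-!
# T-S37, part (DV), block F (= DV5): divisibility over `Ω` of the classes fixed by `Gfix ∅`
-/

set_option autoImplicit false
set_option linter.unusedSectionVars false

open AlgebraicCurve ModularCurve Fermat.Agent.S24RH Fermat.Agent.ESlib

namespace Fermat.Agent.S37lib.DV

section general

variable {K F : Type*} [Field K] [Field F] [Algebra K F]

theorem LinEq.of_eq {D E : Divisor K F} (h : D = E) : LinEq D E := h ▸ LinEq.refl D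

/-- cancel a common summand -/
theorem LinEq.of_add_right {D E A B : Divisor K F} (h : LinEq (D + A) (E + B)) (h' : LinEq A B) :
    LinEq D E := by
  have := h.sub h'
  rwa [add_sub_cancel_right, add_sub_cancel_right] at this

theorem smul_nsmul_divisor (g : SemilinearAut K F) (m : ℕ) (D : Divisor K F) :
    g • (m • D) = m • (g • D) :=
  map_nsmul (DistribSMul.toAddMonoidHom (Divisor K F) g) m D

theorem smul_sub_smul_eq (g₁ g₂ : SemilinearAut K F) (m : ℕ) (X A : Divisor K F)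
    (h₁ : g₁ • A = A) (h₂ : g₂ • A = A) :
    g₁ • (m • X - A) - g₂ • (m • X - A) = m • (g₁ • X - g₂ • X) := by
  rw [smul_sub, smul_sub, h₁, h₂, smul_nsmul_divisor, smul_nsmul_divisor, smul_sub]
  abel

/-- if `g (mX - A) ∼ mX - A` and `g A = A` then `m (g X - X) ∼ 0` -/
theorem LinEq.nsmul_sub_of_smul {g : SemilinearAut K F} {m : ℕ} {X A : Divisor K F}
    (hA : g • A = A) (h : LinEq (g • (m • X - A)) (m • X - A)) :
    LinEq (m • (g • X - X)) 0 := by
  rw [smul_sub, hA, sub_eq_add_neg, sub_eq_add_neg] at h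
  have h2 : LinEq (g • (m • X)) (m • X) := h.of_add_right (LinEq.refl _)
  have h4 := h2.sub (LinEq.refl (m • X))
  rw [sub_self, smul_nsmul_divisor, ← smul_sub] at h4
  exact h4

end general

variable {Ω : Type} [Field Ω] [Algebra ℚ Ω] [IsAlgClosed Ω] [CharZero Ω]
  {F₀ : IntermediateField ℚ (LaurentSeries ℚ)} (𝔖 : Setting Ω F₀)

/-- **F.**  `n ≥ c, g`; `P` a generic `n`-tuple.
`Z₁ := D + dsum P ∼ dsum Q₁`, `Q₁` generic (counting lemma; `𝒟 = {dsum P}`).
`Z₂ := m • dsum P - ((m - 1) n) • Pinf ∼ dsum Q₂`, `Q₂` generic (counting lemma;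
`𝒟 = {dsum P + T : T ∈ 𝒯}`).  `τ₁ Q₂ = Q₁`, `τ₂ Q₂ = P` (conjugacy).  Then
`D ∼ dsum Q₁ - dsum P ∼ τ₁ Z₂ - τ₂ Z₂ = m • (τ₁ dsum P - τ₂ dsum P)`. -/
theorem Setting.divisible_of_fixed (𝔖 : Setting Ω F₀) {g c : ℤ} (hR : IsRiemann Ω (laurentBaseChange Ω F₀) g c)
    {m : ℕ} (hm : 0 < m) (hT : FinTors Ω (laurentBaseChange Ω F₀) m)
    (D : Divisor Ω (laurentBaseChange Ω F₀)) (hD : Divisor.degree D = 0)
    (hfix : ∀ τ ∈ Gfix (∅ : Set Ω), LinEq (act F₀ τ • D) D) :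
    ∃ E : Divisor Ω (laurentBaseChange Ω F₀), Divisor.degree E = 0 ∧ LinEq D (m • E) := by
  classical
  have hFF : IsFF Ω (laurentBaseChange Ω F₀) := 𝔖.isFF Ω
  obtain ⟨n, hnc, hng⟩ : ∃ n : ℕ, c ≤ n ∧ g ≤ n :=
    ⟨(max c g).toNat, (le_max_left c g).trans (Int.self_le_toNat _),
      (le_max_right c g).trans (Int.self_le_toNat _)⟩
  obtain ⟨P, hP⟩ := 𝔖.exists_isGen n
  have hdegP : Divisor.degree (dsum P) = n := degree_dsum hFF P
  -- first application of the counting lemma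
  obtain ⟨Q₁, hQ₁, hZ₁⟩ := 𝔖.exists_isGen_linEq hR hnc hng P hP (D + dsum P)
    (by rw [map_add, hD, hdegP, zero_add]) (by
      intro S hS
      refine ⟨{dsum P}, fun τ hτ => ⟨dsum P, Finset.mem_singleton_self _, ?_⟩⟩
      have h1 := hS τ hτ
      rw [smul_add, add_comm _ (act F₀ τ • dsum P), add_comm D] at h1
      exact h1.of_add_right (hfix τ (Gfix_anti (Set.empty_subset _) hτ)))
  -- second application
  obtain ⟨𝒯, h𝒯⟩ := hT
  let A : Divisor Ω (laurentBaseChange Ω F₀) := Finsupp.single 𝔖.Pinf (((m : ℤ) - 1) * n)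
  have hA : ∀ τ : Ω ≃ₐ[ℚ] Ω, act F₀ τ • A = A := by
    intro τ
    show act F₀ τ • Finsupp.single 𝔖.Pinf (((m : ℤ) - 1) * n) = _
    rw [SemilinearAut.smul_single, 𝔖.Pinf_fix]
  have hdegA : Divisor.degree A = ((m : ℤ) - 1) * n := by
    show Divisor.degree (Finsupp.single 𝔖.Pinf (((m : ℤ) - 1) * n)) = _
    rw [Divisor.degree_single, deg_eq_one hFF]
    simp
  obtain ⟨Q₂, hQ₂, hZ₂⟩ := 𝔖.exists_isGen_linEq hR hnc hng P hP (m • dsum P - A)
    (by rw [map_sub, map_nsmul, hdegP, hdegA]; simp; ring) (by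
      intro S hS
      refine ⟨𝒯.image (fun T => dsum P + T), fun τ hτ => ?_⟩
      have h3 : LinEq (m • (act F₀ τ • dsum P - dsum P)) 0 :=
        LinEq.nsmul_sub_of_smul (hA τ) (hS τ hτ)
      obtain ⟨T, hT, hTe⟩ := h𝒯 _ (by
        rw [map_sub, SemilinearAut.degree_smul, sub_self]) h3
      refine ⟨dsum P + T, Finset.mem_image_of_mem _ hT, ?_⟩
      have h5 := (LinEq.refl (dsum P)).add hTe
      rwa [add_sub_cancel] at h5)
  -- conjugacy
  obtain ⟨τ₁, hτ₁⟩ := 𝔖.exists_smul_eq_of_isGen hR Q₂ Q₁ hQ₂ hQ₁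
  obtain ⟨τ₂, hτ₂⟩ := 𝔖.exists_smul_eq_of_isGen hR Q₂ P hQ₂ hP
  have h1 : LinEq (act F₀ τ₁ • (m • dsum P - A)) (dsum Q₁) := by
    have := hZ₂.smul (act F₀ τ₁)
    rwa [smul_dsum, funext hτ₁] at this
  have h2 : LinEq (act F₀ τ₂ • (m • dsum P - A)) (dsum P) := by
    have := hZ₂.smul (act F₀ τ₂)
    rwa [smul_dsum, funext hτ₂] at this
  refine ⟨act F₀ τ₁ • dsum P - act F₀ τ₂ • dsum P, ?_, ?_⟩
  · rw [map_sub, SemilinearAut.degree_smul, SemilinearAut.degree_smul, sub_self]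
  · have h3 : LinEq D (dsum Q₁ - dsum P) := by
      have := hZ₁.sub (LinEq.refl (dsum P))
      rwa [add_sub_cancel_right] at this
    have h4 := (h1.sub h2).symm
    have h5 : act F₀ τ₁ • (m • dsum P - A) - act F₀ τ₂ • (m • dsum P - A)
        = m • (act F₀ τ₁ • dsum P - act F₀ τ₂ • dsum P) :=
      smul_sub_smul_eq _ _ m _ A (hA τ₁) (hA τ₂)
    rw [h5] at h4
    exact h3.trans h4

end Fermat.Agent.S37lib.DV
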