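import Fermat.Agent.S37.DV.DivC
import Fermat.Agent.S37.DV.Tors
import Fermat.Agent.S37.DV.Descent

/-!
# T-S37, part (DV): short descent

`DVQ N` from `Setting.divisible_of_fixed` (block F), the uniqueness of the extension of places
(block U) and the function-level descent `dvQ_of_dvExt` (`Descent.lean`).
No canonical representatives, no descent of divisors.
-/

set_option autoImplicit false
set_option linter.unusedSectionVars false

open AlgebraicCurve ModularCurve Fermat.Agent.S24RH Fermat.Agent.ESlib Fermat.Agent.S24lib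

namespace Fermat.Agent.S37lib.DV

variable (N : ℕ) [NeZero N]

theorem algebraMap_Kb_mem_clo (a : Kb) : algebraMap Kb ℂ a ∈ clo (∅ : Set ℂ) := by
  have h1 : IsAlgebraic ℚ a := (AlgebraicClosure.isAlgebraic ℚ).isAlgebraic a
  have h2 : IsAlgebraic ℚ (algebraMap Kb ℂ a) := h1.algebraMap
  exact h2.tower_top _

theorem act_smul_bc_Kb (F₀ : IntermediateField ℚ (LaurentSeries ℚ)) (τ : ℂ ≃ₐ[ℚ] ℂ)
    (hτ : τ ∈ Gfix (∅ : Set ℂ)) (f : laurentBaseChange Kb F₀) :
    act F₀ τ • bc Kb ℂ F₀ f = bc Kb ℂ F₀ f := by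
  apply Subtype.ext
  rw [coe_arithmeticGalois_smul]
  ext k
  rw [coeffMap_coeff, coe_bc, coeffMap_coeff]
  exact hτ _ (algebraMap_Kb_mem_clo _)

/-- (DV) for the divisors of `F_ℂ(N)` coming from `F_ℚ̄(N)` -/
theorem dvExt (𝔖 : Setting ℂ (modularFunctionFieldFull N)) : DVExt N := by
  intro D hD hsupp m hm
  have : NeZero m := ⟨hm.ne'⟩
  obtain ⟨g, c, hR⟩ := riemann (𝔖.isFF ℂ)
  have hFFb : IsFF Kb (FK Kb N) := isFF_FK N
  have hfix : ∀ τ ∈ Gfix (∅ : Set ℂ), act (modularFunctionFieldFull N) τ • D = D := by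
    intro τ hτ
    apply smul_eq_of_forall_smul_eq
    intro P hP
    obtain ⟨v, hv⟩ := hsupp P hP
    refine place_eq_of_restrict Kb ℂ (modularFunctionFieldFull N) hFFb v _ _ one_pos one_pos
      (fun f => ?_) (fun f => ?_)
    · have h1 := SemilinearAut.ord_smul (act (modularFunctionFieldFull N) τ) P
        (bc Kb ℂ (modularFunctionFieldFull N) f)
      rw [act_smul_bc_Kb _ τ hτ] at h1
      rw [h1, hv]
      simp
    · rw [hv]
      simp
  obtain ⟨E, -, f, hf0, hf⟩ := 𝔖.divisible_of_fixed hR hm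
    (finTors_of_finite_Wm (𝔖.isFF ℂ) hm) D hD (fun τ hτ => by
      rw [hfix τ hτ]
      exact ⟨1, one_ne_zero, fun v => by simp⟩)
  refine ⟨f⁻¹, inv_ne_zero hf0, fun v => ?_⟩
  rw [v.ord_inv, sub_neg_eq_add, ← hf v, Finsupp.smul_apply, nsmul_eq_mul]
  exact Dvd.intro _ rfl

/-- **(DV)** from a setting -/
theorem dvQ (𝔖 : Setting ℂ (modularFunctionFieldFull N)) : DVQ N :=
  dvQ_of_dvExt N (dvExt N 𝔖)

/-- **(DV)** in the form of `Main.lean` -/
theorem dv_of_setting (𝔖 : Setting ℂ (modularFunctionFieldFull N)) {m : ℕ} (hm : 0 < m)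
    (D : Divisor Kb (modularFunctionFieldBar N)) (hD : Divisor.degree D = 0) :
    ∃ (h : modularFunctionFieldBar N) (E : Divisor Kb (modularFunctionFieldBar N)), h ≠ 0 ∧
      Divisor.degree E = 0 ∧ ∀ v, D v = v.ord h + m * E v := by
  obtain ⟨h, Dh, E, hh0, hDh, -, hE0, hE⟩ := (dvQ N 𝔖).exists_eq_add D hD hm
  refine ⟨h, E, hh0, hE0, fun v => ?_⟩
  rw [hE, Finsupp.add_apply, hDh, Finsupp.smul_apply, nsmul_eq_mul]

end Fermat.Agent.S37lib.DV
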