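import Fermat.Agent.S37.DV.Unique
import Fermat.Agent.ES.K.PlaceExist

/-!
# T-S37, part (DV), block P: places, values of `J`, and the groups `Gfix S`
-/

set_option autoImplicit false
set_option linter.unusedSectionVars false

open AlgebraicCurve ModularCurve Fermat.Agent.S24RH Fermat.Agent.ESlib

namespace Fermat.Agent.S37lib.DV

/-! ### PS: semilinear automorphisms, `L(D)`, linear equivalence (general) -/

section semilinear

variable {K F : Type*} [Field K] [Field F] [Algebra K F]

theorem ord_smul_eq_ord_inv_smul (g : SemilinearAut K F) (v : Place K F) (f : F) :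
    v.ord (g • f) = (g⁻¹ • v).ord f := by
  have h := SemilinearAut.ord_smul g (g⁻¹ • v) f
  rwa [smul_inv_smul] at h

theorem LinEq.smul {D E : Divisor K F} (h : LinEq D E) (g : SemilinearAut K F) :
    LinEq (g • D) (g • E) := by
  obtain ⟨f, hf, h⟩ := h
  refine ⟨g • f, by simpa using hf, fun v => ?_⟩
  rw [SemilinearAut.divisor_smul_apply, SemilinearAut.divisor_smul_apply, h,
    ord_smul_eq_ord_inv_smul]

theorem smul_mem_LSp {D : Divisor K F} {f : F} (h : f ∈ LSp D) (g : SemilinearAut K F) :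
    g • f ∈ LSp (g • D) := by
  rcases h with rfl | h
  · left; simp
  · right
    intro v
    rw [SemilinearAut.divisor_smul_apply, ord_smul_eq_ord_inv_smul]
    exact h _

theorem smul_dsum {n : ℕ} (P : Fin n → Place K F) (g : SemilinearAut K F) :
    g • dsum P = dsum (fun i => g • P i) := by
  unfold dsum
  rw [Finset.smul_sum]
  exact Finset.sum_congr rfl fun i _ => SemilinearAut.smul_single g _ _

/-- a divisor all of whose points are fixed is fixed -/
theorem smul_eq_of_forall_smul_eq {D : Divisor K F} {g : SemilinearAut K F}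
    (h : ∀ P, D P ≠ 0 → g • P = P) : g • D = D := by
  ext w
  rw [SemilinearAut.divisor_smul_apply]
  by_cases h1 : D (g⁻¹ • w) = 0
  · by_cases h2 : D w = 0
    · rw [h1, h2]
    · have h3 := h w h2
      have h4 : g⁻¹ • w = w := by rw [inv_smul_eq_iff, h3]
      rw [h4]
  · have h3 := h _ h1
    rw [smul_inv_smul] at h3
    rw [← h3]

end semilinear

variable {Ω : Type} [Field Ω] [Algebra ℚ Ω] [IsAlgClosed Ω] [CharZero Ω]
  {F₀ : IntermediateField ℚ (LaurentSeries ℚ)} (𝔖 : Setting Ω F₀)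

/-! ### P1: values -/

theorem act_smul_algebraMap (τ : Ω ≃ₐ[ℚ] Ω) (a : Ω) :
    act F₀ τ • algebraMap Ω (laurentBaseChange Ω F₀) a
      = algebraMap Ω (laurentBaseChange Ω F₀) (τ a) :=
  SemilinearAut.smul_algebraMap (act F₀ τ) a

theorem coeff_act_smul (τ : Ω ≃ₐ[ℚ] Ω) (u : laurentBaseChange Ω F₀) (k : ℤ) :
    ((act F₀ τ • u : laurentBaseChange Ω F₀) : LaurentSeries Ω).coeff k
      = τ ((u : LaurentSeries Ω).coeff k) := by
  rw [coe_arithmeticGalois_smul, coeffMap_coeff]
  rfl

variable {𝔖}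

theorem Setting.HasVal.smul {P : Place Ω (laurentBaseChange Ω F₀)} {a : Ω} (h : 𝔖.HasVal P a)
    (τ : Ω ≃ₐ[ℚ] Ω) : 𝔖.HasVal (act F₀ τ • P) (τ a) := by
  unfold Setting.HasVal at h ⊢
  rw [← SemilinearAut.ord_smul (act F₀ τ), smul_sub, 𝔖.J_fix, act_smul_algebraMap] at h
  exact h

theorem Setting.HasVal.unique {P : Place Ω (laurentBaseChange Ω F₀)} {a b : Ω}
    (h : 𝔖.HasVal P a) (h' : 𝔖.HasVal P b) : a = b := by
  unfold Setting.HasVal at h h'
  by_contra hab
  have h1 := le_ord_add P (n := 1)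
    (f := 𝔖.J - algebraMap Ω (laurentBaseChange Ω F₀) b)
    (g := -(𝔖.J - algebraMap Ω (laurentBaseChange Ω F₀) a)) (Or.inr (by omega))
    (Or.inr (by rw [ord_neg]; omega))
  have h2 : 𝔖.J - algebraMap Ω (laurentBaseChange Ω F₀) b
      + -(𝔖.J - algebraMap Ω (laurentBaseChange Ω F₀) a)
      = algebraMap Ω (laurentBaseChange Ω F₀) (a - b) := by
    rw [map_sub]; ring
  rw [h2, ord_algebraMap] at h1
  rcases h1 with h1 | h1
  · exact hab (sub_eq_zero.1 ((map_eq_zero _).1 h1))
  · omega

theorem Setting.HasVal.ord_J_nonneg {P : Place Ω (laurentBaseChange Ω F₀)} {a : Ω}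
    (h : 𝔖.HasVal P a) : 0 ≤ P.ord 𝔖.J := by
  unfold Setting.HasVal at h
  have h1 := le_ord_add P (n := 0)
    (f := 𝔖.J - algebraMap Ω (laurentBaseChange Ω F₀) a)
    (g := algebraMap Ω (laurentBaseChange Ω F₀) a) (Or.inr (by omega))
    (Or.inr (by rw [ord_algebraMap]))
  rw [sub_add_cancel] at h1
  rcases h1 with h1 | h1
  · rw [h1]; simp
  · exact h1

variable (𝔖)

/-- (`S24RH.exists_const`) -/
theorem Setting.exists_hasVal_or_pole (P : Place Ω (laurentBaseChange Ω F₀)) :
    (∃ a, 𝔖.HasVal P a) ∨ P.ord 𝔖.J < 0 := by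
  by_cases h : P.ord 𝔖.J < 0
  · exact Or.inr h
  · left
    obtain ⟨c, hc | hc⟩ := exists_const (𝔖.isFF Ω) P (mem_of_ord_nonneg P (not_lt.1 h))
    · exact absurd (hc ▸ isAlgebraic_algebraMap c) 𝔖.J_tr
    · exact ⟨c, hc⟩

/-- (`ESlib.exists_place_ord_pos`) -/
theorem Setting.exists_place_hasVal (a : Ω) : ∃ P, 𝔖.HasVal P a := by
  have htr := transcendental_sub_const 𝔖.J_tr a
  have := (𝔖.isFF Ω).finiteDimensional htr
  exact exists_place_ord_pos _ htr

/-- (`S24RH.finite_ord_ne_zero`) -/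
theorem Setting.finite_hasVal (a : Ω) : {P | 𝔖.HasVal P a}.Finite := by
  have htr := transcendental_sub_const 𝔖.J_tr a
  have h0 : 𝔖.J - algebraMap Ω (laurentBaseChange Ω F₀) a ≠ 0 :=
    fun h => htr (h ▸ isAlgebraic_zero)
  refine (finite_ord_ne_zero (𝔖.isFF Ω) h0).subset fun P hP => ?_
  have : 0 < P.ord (𝔖.J - algebraMap Ω (laurentBaseChange Ω F₀) a) := hP
  show P.ord (𝔖.J - algebraMap Ω (laurentBaseChange Ω F₀) a) ≠ 0
  omega

/-- existence of generic tuples, extending a given one -/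
theorem Setting.exists_isGen_append {n : ℕ} (P : Fin n → Place Ω (laurentBaseChange Ω F₀))
    (hP : 𝔖.IsGen P) (e : ℕ) :
    ∃ R : Fin e → Place Ω (laurentBaseChange Ω F₀), 𝔖.IsGen (Fin.append P R) := by
  obtain ⟨t, ht, htP⟩ := hP
  obtain ⟨r, hr⟩ := exists_algebraicIndependent_append 𝔖.inf t ht e
  choose R hR using fun i => 𝔖.exists_place_hasVal (r i)
  refine ⟨R, Fin.append t r, hr, fun i => ?_⟩
  refine Fin.addCases (fun i => ?_) (fun i => ?_) i
  · rw [Fin.append_left, Fin.append_left]; exact htP i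
  · rw [Fin.append_right, Fin.append_right]; exact hR i

theorem Setting.exists_isGen (n : ℕ) : ∃ P : Fin n → Place Ω (laurentBaseChange Ω F₀), 𝔖.IsGen P := by
  obtain ⟨r, hr⟩ := exists_algebraicIndependent_append 𝔖.inf (Fin.elim0 : Fin 0 → Ω)
    (algebraicIndependent_empty_type) n
  have hr' : AlgebraicIndependent ℚ r := by
    have := hr.comp (Fin.natAdd 0) (Fin.natAdd_injective _ _)
    convert this using 1
    ext i
    simp
  choose R hR using fun i => 𝔖.exists_place_hasVal (r i)
  exact ⟨R, r, hr', hR⟩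

/-! ### P2: elements fixed by `Gfix S` come from `F_{clo S}` -/

theorem act_smul_bc (S : Set Ω) (τ : Ω ≃ₐ[ℚ] Ω) (hτ : τ ∈ Gfix S)
    (f : laurentBaseChange (cloField S) F₀) :
    act F₀ τ • bc (cloField S) Ω F₀ f = bc (cloField S) Ω F₀ f := by
  apply Subtype.ext
  ext k
  rw [coeff_act_smul, coe_bc, coeffMap_coeff]
  exact hτ _ (mem_cloField.1 (SetLike.coe_mem _))

/-- (`mem_clo_of_fixed` on the coefficients, `ESlib.exists_bc_eq_of_coeff_mem`) -/
theorem exists_bc_eq_of_fixed (S : Set Ω) (u : laurentBaseChange Ω F₀)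
    (hu : ∀ τ ∈ Gfix S, act F₀ τ • u = u) :
    ∃ f : laurentBaseChange (cloField S) F₀, bc (cloField S) Ω F₀ f = u := by
  apply exists_bc_eq_of_coeff_mem
  intro k
  have h1 : (u : LaurentSeries Ω).coeff k ∈ clo S := by
    apply mem_clo_of_fixed
    intro τ hτ
    rw [← coeff_act_smul, hu τ hτ]
  exact ⟨⟨_, mem_cloField.2 h1⟩, rfl⟩

/-! ### P3: a zero or a pole of a function fixed by `Gfix S` is fixed by `Gfix S` -/

theorem exists_place_restrict_bc (L L' : Type*) [Field L] [Field L'] [Algebra ℚ L] [Algebra ℚ L']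
    [Algebra L L'] [IsScalarTower ℚ L L'] (F₀ : IntermediateField ℚ (LaurentSeries ℚ))
    (P : Place L' (laurentBaseChange L' F₀)) :
    (∀ f, P.ord (bc L L' F₀ f) = 0) ∨
      ∃ v : Place L (laurentBaseChange L F₀), ∃ n : ℕ, 0 < n ∧
        ∀ f, P.ord (bc L L' F₀ f) = n * v.ord f :=
  exists_place_restrict (bc L L' F₀) (bc_algebraMap L L' F₀) P

/-- `u = bc f`; `ESlib.exists_place_restrict (bc ..)` gives `v`, `n` with
`ord_P (bc f') = n * ord_v f'` (the other alternative contradicts `hP`); `τ • P` has the same property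
(`SemilinearAut.ord_smul`, `act_smul_bc`); conclude by `place_eq_of_restrict`. -/
theorem Setting.smul_eq_of_ord_ne_zero (𝔖 : Setting Ω F₀) (S : Set Ω) (u : laurentBaseChange Ω F₀)
    (hu : ∀ τ ∈ Gfix S, act F₀ τ • u = u) (P : Place Ω (laurentBaseChange Ω F₀))
    (hP : P.ord u ≠ 0) : ∀ τ ∈ Gfix S, act F₀ τ • P = P := by
  intro τ hτ
  obtain ⟨f, rfl⟩ := exists_bc_eq_of_fixed S u hu
  rcases exists_place_restrict_bc (cloField S) Ω F₀ P with h | ⟨v, n, hn, h⟩
  · exact absurd (h f) hP
  · refine place_eq_of_restrict (cloField S) Ω F₀ (𝔖.isFF (cloField S)) v _ _ hn hn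
      (fun f' => ?_) h
    rw [← act_smul_bc S τ hτ f', SemilinearAut.ord_smul, h]

variable {𝔖}

theorem Setting.HasVal.smul_eq {P : Place Ω (laurentBaseChange Ω F₀)} {a : Ω} (h : 𝔖.HasVal P a)
    {S : Set Ω} (ha : a ∈ clo S) : ∀ τ ∈ Gfix S, act F₀ τ • P = P := by
  refine 𝔖.smul_eq_of_ord_ne_zero S (𝔖.J - algebraMap Ω (laurentBaseChange Ω F₀) a)
    (fun τ hτ => ?_) P (ne_of_gt h)
  rw [smul_sub, 𝔖.J_fix, act_smul_algebraMap, hτ a ha]

variable (𝔖)

theorem Setting.smul_eq_of_pole {P : Place Ω (laurentBaseChange Ω F₀)} (h : P.ord 𝔖.J < 0)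
    (S : Set Ω) : ∀ τ ∈ Gfix S, act F₀ τ • P = P :=
  𝔖.smul_eq_of_ord_ne_zero S 𝔖.J (fun τ _ => 𝔖.J_fix τ) P (ne_of_lt h)

variable {𝔖}

/-! ### P5: a place with a finite orbit has its value in `clo S` -/

theorem Setting.HasVal.mem_clo_of_finite_orbit {P : Place Ω (laurentBaseChange Ω F₀)} {a : Ω}
    (h : 𝔖.HasVal P a) {S : Set Ω}
    (hfin : (Set.range fun τ : Gfix S => act F₀ (τ : Ω ≃ₐ[ℚ] Ω) • P).Finite) : a ∈ clo S := by
  apply DV.mem_clo_of_finite_orbit
  have h1 : (⋃ Q ∈ Set.range fun τ : Gfix S => act F₀ (τ : Ω ≃ₐ[ℚ] Ω) • P,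
      {b | 𝔖.HasVal Q b}).Finite := by
    refine hfin.biUnion fun Q _ => Set.Subsingleton.finite ?_
    intro b hb b' hb'
    exact Setting.HasVal.unique hb hb'
  refine h1.subset ?_
  rintro _ ⟨τ, rfl⟩
  simp only [Set.mem_iUnion]
  exact ⟨_, ⟨τ, rfl⟩, h.smul τ⟩

theorem Setting.HasVal.mem_clo_of_fixed {P : Place Ω (laurentBaseChange Ω F₀)} {a : Ω}
    (h : 𝔖.HasVal P a) {S : Set Ω} (hfix : ∀ τ ∈ Gfix S, act F₀ τ • P = P) : a ∈ clo S := by
  apply h.mem_clo_of_finite_orbit
  refine (Set.finite_singleton P).subset ?_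
  rintro _ ⟨τ, rfl⟩
  exact hfix τ τ.2

/-- a place with a finite orbit under `Gfix S` is fixed by `Gfix S` -/
theorem Setting.smul_eq_of_finite_orbit (𝔖 : Setting Ω F₀) {P : Place Ω (laurentBaseChange Ω F₀)}
    {S : Set Ω} (hfin : (Set.range fun τ : Gfix S => act F₀ (τ : Ω ≃ₐ[ℚ] Ω) • P).Finite) :
    ∀ τ ∈ Gfix S, act F₀ τ • P = P := by
  rcases 𝔖.exists_hasVal_or_pole P with ⟨a, ha⟩ | h
  · exact ha.smul_eq (ha.mem_clo_of_finite_orbit hfin)
  · exact 𝔖.smul_eq_of_pole h S

/-! ### P6: a stable finite dimensional subspace has a basis of fixed vectors -/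

/-- abstract form of P6: a family of functionals without common zero contains a basis of the dual;
the dual basis -/
theorem exists_dual_family {K V ι : Type*} [Field K] [AddCommGroup V] [Module K V]
    [FiniteDimensional K V] (c : ι → Module.Dual K V) (hc : ∀ w : V, (∀ k, c k w = 0) → w = 0) :
    ∃ (κ : Fin (Module.finrank K V) → ι) (B : Module.Basis (Fin (Module.finrank K V)) K V),
      (∀ i r, c (κ i) (B r) = if i = r then 1 else 0) ∧
      ∀ w w' : V, (∀ i, c (κ i) w = c (κ i) w') → w = w' := by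
  classical
  have htop : Submodule.span K (Set.range c) = ⊤ := by
    rw [← Subspace.dualCoannihilator_dualAnnihilator_eq (W := Submodule.span K (Set.range c))]
    have h0 : (Submodule.span K (Set.range c)).dualCoannihilator = ⊥ := by
      rw [eq_bot_iff]
      intro w hw
      rw [Submodule.mem_dualCoannihilator] at hw
      exact hc w fun k => hw (c k) (Submodule.subset_span ⟨k, rfl⟩)
    rw [h0, Submodule.dualAnnihilator_bot]
  obtain ⟨f, hf, hspan, hli⟩ := Submodule.exists_fun_fin_finrank_span_eq K (Set.range c)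
  have hcard : Module.finrank K (Submodule.span K (Set.range c)) = Module.finrank K V := by
    rw [htop, finrank_top, Subspace.dual_finrank_eq]
  let e : Fin (Module.finrank K V) → Module.Dual K V := f ∘ Fin.cast hcard.symm
  have heli : LinearIndependent K e := hli.comp _ (Fin.cast_injective _)
  have hespan : ⊤ ≤ Submodule.span K (Set.range e) := by
    have : Set.range e = Set.range f := by
      apply Function.Surjective.range_comp
      intro i
      exact ⟨Fin.cast hcard i, by simp⟩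
    rw [this, hspan, htop]
  let E : Module.Basis (Fin (Module.finrank K V)) K (Module.Dual K V) := Module.Basis.mk heli hespan
  have hE : ∀ i, E i = e i := fun i => Module.Basis.mk_apply heli hespan i
  have hκ : ∀ i, ∃ k, c k = e i := fun i => hf _
  choose κ hκ using hκ
  let B : Module.Basis (Fin (Module.finrank K V)) K V :=
    E.dualBasis.map (Module.evalEquiv K V).symm
  refine ⟨κ, B, fun i r => ?_, fun w w' h => ?_⟩
  · have h1 : Module.evalEquiv K V (B r) = E.dualBasis r := by
      simp [B]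
    have h2 : c (κ i) (B r) = Module.evalEquiv K V (B r) (E i) := by
      rw [Module.evalEquiv_apply, Module.Dual.eval_apply, hE, hκ]
    rw [h2, h1, Module.Basis.dualBasis_apply_self]
  · have h1 : Module.Dual.eval K V (w - w') = 0 := by
      apply E.ext
      intro i
      rw [Module.Dual.eval_apply, hE, ← hκ, map_sub, h i, sub_self, LinearMap.zero_apply]
    have h2 := (Module.eval_apply_eq_zero_iff K (w - w')).1 h1
    exact sub_eq_zero.1 h2

/-- the `k`-th coefficient as a linear form on a subspace of `F_Ω` -/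
noncomputable def coeffForm (W : Submodule Ω (laurentBaseChange Ω F₀)) (k : ℤ) :
    Module.Dual Ω W where
  toFun w := (((w : laurentBaseChange Ω F₀) : LaurentSeries Ω)).coeff k
  map_add' w w' := by simp
  map_smul' a w := by
    simp only [Submodule.coe_smul, RingHom.id_apply, smul_eq_mul]
    rw [IntermediateField.coe_smul, Algebra.smul_def, algebraMap_laurentSeries_eq_single,
      HahnSeries.coeff_single_zero_mul]

/-- Let `c_k : W → Ω` be the `k`-th coefficient.  The `c_k` have no common zero, so they span the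
dual of `W`; choose `k_1, ..., k_l` such that `c_{k_i}` is a basis of the dual and let `b` be the dual
basis: `c_{k_i} (b_r) = δ_{ir}`.  `τ • b_r ∈ W` has the same coefficients `c_{k_i}`
(`coeff_act_smul`), so `τ • b_r = b_r`. -/
theorem exists_fixed_basis (G' : Subgroup (Ω ≃ₐ[ℚ] Ω)) (W : Submodule Ω (laurentBaseChange Ω F₀))
    [FiniteDimensional Ω W] (hW : ∀ τ ∈ G', ∀ w ∈ W, act F₀ τ • w ∈ W) :
    ∃ b : Fin (Module.finrank Ω W) → laurentBaseChange Ω F₀, LinearIndependent Ω b ∧
      Submodule.span Ω (Set.range b) = W ∧ ∀ τ ∈ G', ∀ i, act F₀ τ • b i = b i := by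
  obtain ⟨κ, B, hB, hsep⟩ := exists_dual_family (coeffForm W) (fun w hw => by
    apply Subtype.ext
    apply Subtype.ext
    ext k
    exact hw k)
  refine ⟨fun i => (B i : laurentBaseChange Ω F₀), ?_, ?_, fun τ hτ r => ?_⟩
  · exact B.linearIndependent.map' W.subtype (Submodule.ker_subtype W)
  · have h1 : Set.range (fun i => (B i : laurentBaseChange Ω F₀)) = W.subtype '' Set.range B := by
      rw [← Set.range_comp]
      rfl
    rw [h1, Submodule.span_image, B.span_eq, Submodule.map_subtype_top]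
  · have hmem := hW τ hτ _ (B r).2
    have h1 : (⟨act F₀ τ • (B r : laurentBaseChange Ω F₀), hmem⟩ : W) = B r := by
      apply hsep
      intro i
      rw [hB]
      show ((act F₀ τ • (B r : laurentBaseChange Ω F₀) : laurentBaseChange Ω F₀) :
        LaurentSeries Ω).coeff (κ i) = _
      rw [coe_arithmeticGalois_smul, coeffMap_coeff]
      have h2 : (((B r : laurentBaseChange Ω F₀) : LaurentSeries Ω)).coeff (κ i)
          = if i = r then 1 else 0 := hB i r
      rw [h2]
      split_ifs <;> simp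
    exact congrArg Subtype.val h1

end Fermat.Agent.S37lib.DV
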