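import Fermat.Agent.S37.DV.PlaceEval
import Fermat.Agent.S37.DV.AutConj
import Fermat.Agent.S24.RHFibre
import Fermat.Prelude.Def_AlgebraicCurve_BaseChangeGalois

/-!
# S37, (DV): evaluation at a place, generic places, conjugacy (abstract form)

`F / K` a function field, `K` algebraically closed of characteristic zero.
`Near P a c` : the function `a` takes the value `c ∈ K` at the place `P`.

`E / K₀` is a "model" of `F / K` over a subfield `K₀ ⊆ K`: `e : E → F`, `F = Frac (K · e(E))`,
`j ∈ E` with `E` finite over `K₀(j)`.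

* `ord_eq_zero_of_transcendental` (TRIV): a place `P` with `j(P)` transcendental over `K₀` is trivial
  on `e(E)`;
* `evHom` : the evaluation `E →ₐ[K₀] K` at such a place;
* `place_eq_of_near` (U): such a place is determined by its evaluation;
* `exists_smul_eq_of_transcendental` (STEP): two such places are conjugate under `Aut(K / K₀)`;
* `smul_eq_self_of_fixed` (FIX).
-/

set_option autoImplicit false
set_option linter.unusedSectionVars false
set_option linter.style.haveILetI false

open AlgebraicCurve IntermediateField Polynomial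
open Fermat.Agent.S24RH

namespace Fermat.Agent.S37lib.DV

variable {K F : Type*} [Field K] [Field F] [Algebra K F]

/-- the function `a` takes the value `c` at `P` -/
def Near (P : Place K F) (a : F) (c : K) : Prop :=
  a - algebraMap K F c = 0 ∨ 0 < P.ord (a - algebraMap K F c)

theorem near_algebraMap (P : Place K F) (c : K) : Near P (algebraMap K F c) c :=
  Or.inl (sub_self _)

theorem Near.mem {P : Place K F} {a : F} {c : K} (h : Near P a c) : a ∈ P.toValuationSubring := by
  have h1 : a - algebraMap K F c ∈ P.toValuationSubring := by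
    rcases h with h | h
    · rw [h]; exact zero_mem _
    · exact mem_of_ord_nonneg P h.le
  have h2 := add_mem h1 (P.algebraMap_mem' c)
  rwa [sub_add_cancel] at h2

theorem Near.add {P : Place K F} {a b : F} {c d : K} (h : Near P a c) (h' : Near P b d) :
    Near P (a + b) (c + d) := by
  have h1 := le_ord_add P (n := 1) (f := a - algebraMap K F c) (g := b - algebraMap K F d)
    (h.imp id fun h => h) (h'.imp id fun h => h)
  have h2 : a + b - algebraMap K F (c + d) = (a - algebraMap K F c) + (b - algebraMap K F d) := by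
    rw [map_add]; ring
  unfold Near
  rw [h2]
  exact h1.imp id fun h => h

theorem pos_mul_of_mem (P : Place K F) {a u : F} (ha : a ∈ P.toValuationSubring)
    (hu : u = 0 ∨ 0 < P.ord u) : a * u = 0 ∨ 1 ≤ P.ord (a * u) := by
  rcases hu with rfl | hu
  · left; simp
  rcases eq_or_ne a 0 with rfl | ha0
  · left; simp
  right
  have hu0 : u ≠ 0 := by rintro rfl; simp at hu
  rw [P.ord_mul ha0 hu0]
  have := ord_nonneg_of_mem P ha
  omega

theorem Near.mul {P : Place K F} {a b : F} {c d : K} (h : Near P a c) (h' : Near P b d) :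
    Near P (a * b) (c * d) := by
  have h1 := pos_mul_of_mem P h.mem h'
  have h2 := pos_mul_of_mem P (P.algebraMap_mem' d) h
  have h3 := le_ord_add P h1 h2
  have h4 : a * b - algebraMap K F (c * d) =
      a * (b - algebraMap K F d) + algebraMap K F d * (a - algebraMap K F c) := by
    rw [map_mul]; ring
  unfold Near
  rw [h4]
  exact h3.imp id fun h => h

theorem Near.unique {P : Place K F} {a : F} {c d : K} (h : Near P a c) (h' : Near P a d) :
    c = d := by
  by_contra hne
  have h1 : -(a - algebraMap K F c) = 0 ∨ 1 ≤ P.ord (-(a - algebraMap K F c)) := by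
    rcases h with h | h
    · left; rw [h, neg_zero]
    · right; rw [ord_neg]; exact h
  have h2 := le_ord_add P h1 (h'.imp id fun h => h)
  have h3 : -(a - algebraMap K F c) + (a - algebraMap K F d) = algebraMap K F (c - d) := by
    rw [map_sub]; ring
  rw [h3, ord_algebraMap] at h2
  rcases h2 with h2 | h2
  · exact hne (sub_eq_zero.1 ((map_eq_zero _).1 h2))
  · omega

theorem Near.ord_eq_zero {P : Place K F} {a : F} {c : K} (h : Near P a c) (hc : c ≠ 0) :
    a ≠ 0 ∧ P.ord a = 0 := by
  have hc' : algebraMap K F c ≠ 0 := (_root_.map_ne_zero _).2 hc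
  have h1 := ord_add_eq_of_lt P (f := algebraMap K F c) (g := a - algebraMap K F c) hc'
    (by rw [ord_algebraMap]; exact h)
  rw [add_sub_cancel, ord_algebraMap] at h1
  exact h1

theorem near_zero_of_pos {P : Place K F} {a : F} (h : 0 < P.ord a) : Near P a 0 := by
  right; simpa using h

theorem Near.pos {P : Place K F} {a : F} (h : Near P a 0) (ha : a ≠ 0) : 0 < P.ord a := by
  rcases h with h | h
  · exact absurd (by simpa using h) ha
  · simpa using h

theorem Near.aeval {P : Place K F} {a : F} {c : K} (h : Near P a c) (p : K[X]) :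
    Near P (aeval a p) (p.eval c) := by
  induction p using Polynomial.induction_on' with
  | add p q hp hq => rw [map_add, eval_add]; exact hp.add hq
  | monomial n k =>
    rw [aeval_monomial, eval_monomial]
    refine (near_algebraMap P k).mul ?_
    induction n with
    | zero => simpa using near_algebraMap P (1 : K)
    | succ n ih => rw [pow_succ, pow_succ]; exact ih.mul h

theorem Near.smul {P : Place K F} {a : F} {c : K} (h : Near P a c) (g : SemilinearAut K F) :
    Near (g • P) (g • a) (SemilinearAut.baseAut g c) := by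
  have h1 : g • a - algebraMap K F (SemilinearAut.baseAut g c) = g • (a - algebraMap K F c) := by
    rw [smul_sub, SemilinearAut.smul_algebraMap]
  unfold Near
  rw [h1, SemilinearAut.ord_smul]
  rcases h with h | h
  · left; rw [h, smul_zero]
  · right; exact h

variable [IsAlgClosed K] [CharZero K]

theorem exists_near (hFF : IsFF K F) (P : Place K F) {a : F} (ha : a ∈ P.toValuationSubring) :
    ∃ c : K, Near P a c := by
  obtain ⟨c, hc⟩ := exists_const hFF P ha
  exact ⟨c, hc.imp (fun h => sub_eq_zero.2 h) id⟩

theorem derivation_ext_of_span {R A M : Type*} [CommRing R] [CommRing A] [Algebra R A]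
    [AddCommGroup M] [Module R M] [Module A M] [IsScalarTower R A M] (t : A)
    (hspan : Submodule.span A {KaehlerDifferential.D R A t} = ⊤) (d₁ d₂ : Derivation R A M)
    (h : d₁ t = d₂ t) : d₁ = d₂ := by
  have h1 : d₁.liftKaehlerDifferential = d₂.liftKaehlerDifferential := by
    apply LinearMap.ext_on hspan
    intro x hx
    rw [Set.mem_singleton_iff] at hx
    subst hx
    rw [Derivation.liftKaehlerDifferential_comp_D, Derivation.liftKaehlerDifferential_comp_D, h]
  ext x
  rw [← Derivation.liftKaehlerDifferential_comp_D d₁, h1,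
    Derivation.liftKaehlerDifferential_comp_D]

section model

variable {K₀ E : Type*} [Field K₀] [CharZero K₀] [Field E] [Algebra K₀ E] [Algebra K₀ K]
  (e : E →+* F) (he : ∀ a : K₀, e (algebraMap K₀ E a) = algebraMap K F (algebraMap K₀ K a))
  (j : E)

include he in
theorem map_aeval_model (p : K₀[X]) :
    e (aeval j p) = aeval (e j) (p.map (algebraMap K₀ K)) := by
  rw [aeval_def, hom_eval₂, aeval_def, eval₂_map]
  congr 1
  ext a
  exact he a

include he in
theorem ord_aeval_eq_zero {P : Place K F} {t : K} (hP : Near P (e j) t)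
    (ht : Transcendental K₀ t) (p : K₀[X]) (hp : p ≠ 0) :
    e (aeval j p) ≠ 0 ∧ P.ord (e (aeval j p)) = 0 := by
  rw [map_aeval_model e he]
  apply (hP.aeval _).ord_eq_zero
  rw [eval_map_algebraMap]
  exact fun h => hp ((transcendental_iff.1 ht) p h)

include he in
theorem mem_of_mem_adjoin {P : Place K F} {t : K} (hP : Near P (e j) t)
    (ht : Transcendental K₀ t) (y : E) (hy : y ∈ K₀⟮j⟯) : e y ∈ P.toValuationSubring := by
  obtain ⟨r, s, rfl⟩ := (mem_adjoin_simple_iff K₀ y).1 hy
  by_cases hs : s = 0
  · subst hs; simp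
  by_cases hr : r = 0
  · subst hr; simp
  obtain ⟨h1, h2⟩ := ord_aeval_eq_zero e he j hP ht r hr
  obtain ⟨h3, h4⟩ := ord_aeval_eq_zero e he j hP ht s hs
  rw [map_div₀]
  apply mem_of_ord_nonneg
  rw [ord_div P h1 h3, h2, h4]
  simp

variable [FiniteDimensional K₀⟮j⟯ E]

include he in
theorem mem_of_transcendental {P : Place K F} {t : K} (hP : Near P (e j) t)
    (ht : Transcendental K₀ t) (x : E) : e x ∈ P.toValuationSubring := by
  let ι : K₀⟮j⟯ →+* P.toValuationSubring :=
    (e.comp (algebraMap K₀⟮j⟯ E)).codRestrict P.toValuationSubring.toSubring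
      (fun y => mem_of_mem_adjoin e he j hP ht y y.2)
  have hx : IsIntegral K₀⟮j⟯ x := Algebra.IsIntegral.isIntegral x
  have h1 : IsIntegral P.toValuationSubring (e x) :=
    hx.map_of_comp_eq ι e (by ext; rfl)
  obtain ⟨z, hz⟩ := (IsIntegrallyClosed.isIntegral_iff (R := P.toValuationSubring) (K := F)).1 h1
  rw [← hz]
  exact z.2

include he in
/-- **(TRIV)** -/
theorem ord_eq_zero_of_transcendental {P : Place K F} {t : K} (hP : Near P (e j) t)
    (ht : Transcendental K₀ t) (x : E) : P.ord (e x) = 0 := by
  have h1 := ord_nonneg_of_mem P (mem_of_transcendental e he j hP ht x)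
  have h2 := ord_nonneg_of_mem P (mem_of_transcendental e he j hP ht x⁻¹)
  rw [map_inv₀, P.ord_inv] at h2
  omega

omit [IsAlgClosed K] [CharZero K] in
include he in
theorem derivation_compat (hj : Transcendental K₀ j) (δ₀ : Derivation K₀ E E)
    (D : Derivation K F F) (h : D (e j) = e (δ₀ j)) (x : E) : D (e x) = e (δ₀ x) := by
  letI : Algebra E F := e.toAlgebra
  letI : Algebra K₀ F := (e.comp (algebraMap K₀ E)).toAlgebra
  haveI : IsScalarTower K₀ E F := IsScalarTower.of_algebraMap_eq fun _ => rfl
  have hsm : ∀ (a : E) (y : F), a • y = e a * y := fun a y => rfl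
  have hsm₀ : ∀ (a : K₀) (y : F), a • y = e (algebraMap K₀ E a) * y := fun a y => rfl
  let l₁ : E →ₗ[K₀] F :=
    { toFun := fun x => D (e x)
      map_add' := fun x y => by rw [map_add, map_add]
      map_smul' := fun a x => by
        rw [Algebra.smul_def, map_mul, Derivation.leibniz, he, Derivation.map_algebraMap,
          smul_zero, add_zero, RingHom.id_apply, hsm₀, he, smul_eq_mul] }
  let l₂ : E →ₗ[K₀] F :=
    { toFun := fun x => e (δ₀ x)
      map_add' := fun x y => by rw [map_add, map_add]
      map_smul' := fun a x => by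
        rw [Derivation.map_smul, Algebra.smul_def, map_mul, RingHom.id_apply, hsm₀] }
  let d₁ : Derivation K₀ E F := Derivation.mk' l₁ (fun a b => by
    show D (e (a * b)) = a • D (e b) + b • D (e a)
    rw [map_mul, Derivation.leibniz, hsm, hsm, smul_eq_mul, smul_eq_mul])
  let d₂ : Derivation K₀ E F := Derivation.mk' l₂ (fun a b => by
    show e (δ₀ (a * b)) = a • e (δ₀ b) + b • e (δ₀ a)
    rw [Derivation.leibniz, map_add, smul_eq_mul, smul_eq_mul, map_mul, map_mul, hsm, hsm])
  have hspan := (kaehler_span_and_derivation (K := K₀) j hj).1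
  have := derivation_ext_of_span j hspan d₁ d₂ h
  exact congrArg (fun d : Derivation K₀ E F => d x) this

variable (hFF : IsFF K F)
  (hgen : ∀ u : F, ∃ a ∈ Algebra.adjoin K (Set.range e), ∃ b ∈ Algebra.adjoin K (Set.range e),
    b ≠ 0 ∧ u = a / b)
  (hj : Transcendental K₀ j) (hjK : Transcendental K (e j))

include he hFF hgen hj hjK in
/-- **(U)** a place which is regular on `e(E)` is determined by its evaluation map -/
theorem place_eq_of_near (P P' : Place K F)
    (hev : ∀ x, ∃ c, Near P (e x) c ∧ Near P' (e x) c) : P = P' := by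
  have := hFF.finiteDimensional hjK
  obtain ⟨D, hD⟩ := (kaehler_span_and_derivation (K := K) (e j) hjK).2
  obtain ⟨δ₀, hδ₀⟩ := (kaehler_span_and_derivation (K := K₀) j hj).2
  have hcompat := derivation_compat e he j hj δ₀ D (by rw [hD, hδ₀, map_one])
  set A := Algebra.adjoin K (Set.range e) with hA
  have hAD : ∀ a ∈ A, D a ∈ A := by
    intro a ha
    induction ha using Algebra.adjoin_induction with
    | mem x hx =>
      obtain ⟨y, rfl⟩ := hx
      rw [hcompat]
      exact Algebra.subset_adjoin ⟨_, rfl⟩
    | algebraMap r => rw [Derivation.map_algebraMap]; exact zero_mem _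
    | add x z _ _ h1 h2 => rw [map_add]; exact add_mem h1 h2
    | mul x z hx hz h1 h2 =>
      rw [Derivation.leibniz]
      exact add_mem (mul_mem hx h2) (mul_mem hz h1)
  have hboth : ∀ a ∈ A, ∃ c, Near P a c ∧ Near P' a c := by
    intro a ha
    induction ha using Algebra.adjoin_induction with
    | mem x hx =>
      obtain ⟨y, rfl⟩ := hx
      exact hev y
    | algebraMap r => exact ⟨r, near_algebraMap P r, near_algebraMap P' r⟩
    | add x z _ _ h1 h2 =>
      obtain ⟨c, hc, hc'⟩ := h1
      obtain ⟨d, hd, hd'⟩ := h2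
      exact ⟨c + d, hc.add hd, hc'.add hd'⟩
    | mul x z _ _ h1 h2 =>
      obtain ⟨c, hc, hc'⟩ := h1
      obtain ⟨d, hd, hd'⟩ := h2
      exact ⟨c * d, hc.mul hd, hc'.mul hd'⟩
  refine place_eq_of_pos_iff hFF D A hAD hgen (e j) (Algebra.subset_adjoin ⟨_, rfl⟩) hD P P'
    (fun a ha => (hboth a ha).choose_spec.1.mem) (fun a ha => (hboth a ha).choose_spec.2.mem) ?_ ?_
  · intro a ha hpos
    obtain ⟨c, hc, hc'⟩ := hboth a ha
    have h0 : c = 0 := hc.unique (near_zero_of_pos hpos)
    subst h0
    exact hc'.pos (by rintro rfl; simp at hpos)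
  · intro a ha hpos
    obtain ⟨c, hc, hc'⟩ := hboth a ha
    have h0 : c = 0 := hc'.unique (near_zero_of_pos hpos)
    subst h0
    exact hc.pos (by rintro rfl; simp at hpos)

/-- the value of `e x` at `P` -/
noncomputable def evFun (P : Place K F) (hmem : ∀ x, e x ∈ P.toValuationSubring) (x : E) : K :=
  (exists_near hFF P (hmem x)).choose

theorem near_evFun (P : Place K F) (hmem : ∀ x, e x ∈ P.toValuationSubring) (x : E) :
    Near P (e x) (evFun e hFF P hmem x) :=
  (exists_near hFF P (hmem x)).choose_spec

/-- evaluation at `P` as a `K₀`-algebra homomorphism -/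
noncomputable def evHom (P : Place K F) (hmem : ∀ x, e x ∈ P.toValuationSubring) : E →ₐ[K₀] K where
  toFun := evFun e hFF P hmem
  map_one' := (near_evFun e hFF P hmem 1).unique (by
    rw [map_one]; simpa using near_algebraMap P (1 : K))
  map_mul' x y := (near_evFun e hFF P hmem (x * y)).unique (by
    rw [map_mul]; exact (near_evFun e hFF P hmem x).mul (near_evFun e hFF P hmem y))
  map_zero' := (near_evFun e hFF P hmem 0).unique (by
    rw [map_zero]; simpa using near_algebraMap P (0 : K))
  map_add' x y := (near_evFun e hFF P hmem (x + y)).unique (by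
    rw [map_add]; exact (near_evFun e hFF P hmem x).add (near_evFun e hFF P hmem y))
  commutes' a := (near_evFun e hFF P hmem _).unique (by
    rw [he]; exact near_algebraMap P _)

theorem near_evHom (P : Place K F) (hmem : ∀ x, e x ∈ P.toValuationSubring) (x : E) :
    Near P (e x) (evHom e he hFF P hmem x) := near_evFun e hFF P hmem x

include he hFF hgen hj hjK in
/-- **(STEP)** two places whose `j`-values are transcendental over `K₀` are conjugate under
`Aut(K / K₀)`. -/
theorem exists_smul_eq_of_transcendental (act : (K ≃ₐ[K₀] K) → SemilinearAut K F)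
    (hact1 : ∀ σ c, SemilinearAut.baseAut (act σ) c = σ c) (hact2 : ∀ σ x, act σ • e x = e x)
    (P P' : Place K F) {t t' : K} (hP : Near P (e j) t) (hP' : Near P' (e j) t')
    (ht : Transcendental K₀ t) (ht' : Transcendental K₀ t') : ∃ σ, act σ • P = P' := by
  have hmem := mem_of_transcendental e he j hP ht
  have hmem' := mem_of_transcendental e he j hP' ht'
  let φ := evHom e he hFF P hmem
  let ψ := evHom e he hFF P' hmem'
  have hφj : φ j = t := (near_evHom e he hFF P hmem j).unique hP
  have hψj : ψ j = t' := (near_evHom e he hFF P' hmem' j).unique hP'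
  obtain ⟨σ, hσ⟩ := exists_algEquiv_comp_eq_of_transcendental j φ ψ (by rw [hφj]; exact ht)
    (by rw [hψj]; exact ht')
  refine ⟨σ, place_eq_of_near e he j hFF hgen hj hjK _ _ fun x => ⟨ψ x, ?_, ?_⟩⟩
  · have h := (near_evHom e he hFF P hmem x).smul (act σ)
    rw [hact2, hact1] at h
    rw [← hσ x]
    exact h
  · exact near_evHom e he hFF P' hmem' x

include he hFF hgen hj hjK in
/-- **(FIX)** -/
theorem smul_eq_self_of_fixed (g : SemilinearAut K F) (hg : ∀ x, g • e x = e x) (P : Place K F)
    (hmem : ∀ x, e x ∈ P.toValuationSubring)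
    (hfix : ∀ x c, Near P (e x) c → SemilinearAut.baseAut g c = c) : g • P = P := by
  refine place_eq_of_near e he j hFF hgen hj hjK _ _ fun x => ?_
  obtain ⟨c, hc⟩ := exists_near hFF P (hmem x)
  refine ⟨c, ?_, hc⟩
  have h := hc.smul g
  rwa [hg, hfix x c hc] at h

end model

end Fermat.Agent.S37lib.DV
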