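import Fermat.Agent.S37.DV.Setup
import Fermat.Agent.S37.DV.Near

/-!
# T-S37, part (DV): generic places are conjugate (instantiation of `Near.lean`)

`L ⊆ Ω` a subfield; the model is `E = F_L = laurentBaseChange L F₀`, `e = bc L Ω F₀`.

* `Setting.ord_bc_eq_zero_of_transcendental`, `Setting.ord_bc_eq_zero_aux` (= T0);
* `Setting.exists_algEquiv_smul_eq` : two places whose `J`-values are transcendental over `L` are
  conjugate under `Aut(Ω / L)`;
* `Setting.exists_mem_Hfix_smul_eq_aux` (= T, without Riemann).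
-/

set_option autoImplicit false
set_option linter.unusedSectionVars false

open AlgebraicCurve ModularCurve Fermat.Agent.S24RH Fermat.Agent.ESlib Polynomial IntermediateField

namespace Fermat.Agent.S37lib.DV

variable {Ω : Type} [Field Ω] [Algebra ℚ Ω]
  {F₀ : IntermediateField ℚ (LaurentSeries ℚ)}

section model

variable (L : Type) [Field L] [Algebra ℚ L] [Algebra L Ω] [IsScalarTower ℚ L Ω]

theorem exists_lift_adjoin {P : LaurentSeries Ω}
    (hP : P ∈ Algebra.adjoin Ω (⇑(coeffEmb Ω) '' (F₀ : Set (LaurentSeries ℚ)))) :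
    ∃ a ∈ Algebra.adjoin Ω (Set.range (bc L Ω F₀)),
      ((a : laurentBaseChange Ω F₀) : LaurentSeries Ω) = P := by
  induction hP using Algebra.adjoin_induction with
  | mem x hx =>
    obtain ⟨z, hz, rfl⟩ := hx
    refine ⟨bc L Ω F₀ ⟨coeffEmb L z, coeffEmb_mem_laurentBaseChange L hz⟩,
      Algebra.subset_adjoin ⟨_, rfl⟩, ?_⟩
    rw [coe_bc]
    exact coeffMap_coeffEmb_algebraMap L Ω z
  | algebraMap r => exact ⟨algebraMap _ _ r, Subalgebra.algebraMap_mem _ r, rfl⟩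
  | add x y _ _ hx hy =>
    obtain ⟨a, ha, rfl⟩ := hx
    obtain ⟨b, hb, rfl⟩ := hy
    exact ⟨a + b, add_mem ha hb, rfl⟩
  | mul x y _ _ hx hy =>
    obtain ⟨a, ha, rfl⟩ := hx
    obtain ⟨b, hb, rfl⟩ := hy
    exact ⟨a * b, mul_mem ha hb, rfl⟩

/-- `F_Ω` is the fraction field of `Ω · bc (F_L)` -/
theorem exists_div_adjoin (u : laurentBaseChange Ω F₀) :
    ∃ a ∈ Algebra.adjoin Ω (Set.range (bc L Ω F₀)),
      ∃ b ∈ Algebra.adjoin Ω (Set.range (bc L Ω F₀)), b ≠ 0 ∧ u = a / b := by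
  obtain ⟨P, hP, Q, hQ, hPQ⟩ := IntermediateField.mem_adjoin_iff_div.mp u.2
  obtain ⟨a, ha, rfl⟩ := exists_lift_adjoin L hP
  obtain ⟨b, hb, rfl⟩ := exists_lift_adjoin L hQ
  by_cases hb0 : b = 0
  · refine ⟨0, zero_mem _, 1, one_mem _, one_ne_zero, ?_⟩
    apply Subtype.ext
    rw [hPQ, hb0]
    simp
  · exact ⟨a, ha, b, hb, hb0, Subtype.ext hPQ⟩

theorem act_restrictScalars_smul_bc (σ : Ω ≃ₐ[L] Ω) (x : laurentBaseChange L F₀) :
    act F₀ (σ.restrictScalars ℚ) • bc L Ω F₀ x = bc L Ω F₀ x := by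
  apply Subtype.ext
  rw [coe_arithmeticGalois_smul, coe_bc, coeffMap_coeffMap]
  exact coeffMap_congr (RingHom.ext fun a => σ.commutes a) _

variable [IsAlgClosed Ω] [CharZero Ω] [CharZero L] (𝔖 : Setting Ω F₀)

theorem Setting.exists_bc_J : ∃ j : laurentBaseChange L F₀, bc L Ω F₀ j = 𝔖.J := by
  apply exists_bc_eq_of_coeff_mem
  intro k
  have h : ((𝔖.J : LaurentSeries Ω).coeff k) ∈ (algebraMap ℚ Ω).range := by
    apply mem_range_of_fixed
    intro σ
    have h1 := congrArg (fun u : laurentBaseChange Ω F₀ => (u : LaurentSeries Ω).coeff k)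
      (𝔖.J_fix σ)
    simp only [coe_arithmeticGalois_smul, coeffMap_coeff] at h1
    exact h1
  obtain ⟨c, hc⟩ := h
  exact ⟨algebraMap ℚ L c, by rw [← hc, ← IsScalarTower.algebraMap_apply]⟩

theorem Setting.transcendental_of_bc_eq {j : laurentBaseChange L F₀} (hj : bc L Ω F₀ j = 𝔖.J) :
    Transcendental L j := by
  rw [transcendental_iff]
  intro p hp
  have h1 := map_aeval_model (bc L Ω F₀) (bc_algebraMap L Ω F₀) j p
  rw [hp, map_zero, hj] at h1
  have h2 := (transcendental_iff.1 𝔖.J_tr) _ h1.symm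
  exact (Polynomial.map_eq_zero _).1 h2

theorem Setting.HasVal.near {𝔖 : Setting Ω F₀} {P : Place Ω (laurentBaseChange Ω F₀)} {a : Ω}
    (h : 𝔖.HasVal P a) : Near P 𝔖.J a := Or.inr h

/-- **T0** (general subfield) -/
theorem Setting.ord_bc_eq_zero_of_transcendental {t : Ω} (ht : Transcendental L t)
    {P : Place Ω (laurentBaseChange Ω F₀)} (hP : 𝔖.HasVal P t)
    (f : laurentBaseChange L F₀) : P.ord (bc L Ω F₀ f) = 0 := by
  obtain ⟨j, hj⟩ := 𝔖.exists_bc_J L
  have hjtr := 𝔖.transcendental_of_bc_eq L hj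
  have := (𝔖.isFF L).finiteDimensional hjtr
  exact ord_eq_zero_of_transcendental (bc L Ω F₀) (bc_algebraMap L Ω F₀) j
    (by rw [hj]; exact hP.near) ht f

/-- **(STEP)** two places whose `J`-values are transcendental over `L` are conjugate under
`Aut(Ω / L)`. -/
theorem Setting.exists_algEquiv_smul_eq {t t' : Ω} (ht : Transcendental L t)
    (ht' : Transcendental L t') {P P' : Place Ω (laurentBaseChange Ω F₀)}
    (hP : 𝔖.HasVal P t) (hP' : 𝔖.HasVal P' t') :
    ∃ σ : Ω ≃ₐ[L] Ω, act F₀ (σ.restrictScalars ℚ) • P = P' ∧ σ t = t' := by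
  obtain ⟨j, hj⟩ := 𝔖.exists_bc_J L
  have hjtr := 𝔖.transcendental_of_bc_eq L hj
  have := (𝔖.isFF L).finiteDimensional hjtr
  obtain ⟨σ, hσ⟩ := exists_smul_eq_of_transcendental (bc L Ω F₀) (bc_algebraMap L Ω F₀) j
    (𝔖.isFF Ω) (exists_div_adjoin L) hjtr (by rw [hj]; exact 𝔖.J_tr)
    (fun σ : Ω ≃ₐ[L] Ω => act F₀ (σ.restrictScalars ℚ)) (fun σ c => rfl)
    (fun σ x => act_restrictScalars_smul_bc L σ x) P P'
    (by rw [hj]; exact hP.near) (by rw [hj]; exact hP'.near) ht ht'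
  refine ⟨σ, hσ, ?_⟩
  have h1 := hP.near.smul (act F₀ (σ.restrictScalars ℚ))
  rw [𝔖.J_fix, hσ] at h1
  exact h1.unique hP'.near

end model

variable [IsAlgClosed Ω] [CharZero Ω] (𝔖 : Setting Ω F₀)

theorem transcendental_cloField {S : Set Ω} {t : Ω} (ht : t ∉ clo S) :
    Transcendental (cloField S) t :=
  fun h => ht (mem_clo_of_isAlgebraic_cloField h)

/-- **T0.** -/
theorem Setting.ord_bc_eq_zero_aux (S : Set Ω) {t : Ω} (ht : t ∉ clo S)
    {P : Place Ω (laurentBaseChange Ω F₀)} (hP : 𝔖.HasVal P t)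
    (f : laurentBaseChange (cloField S) F₀) : P.ord (bc (cloField S) Ω F₀ f) = 0 :=
  𝔖.ord_bc_eq_zero_of_transcendental (cloField S) (transcendental_cloField ht) hP f

/-- two places with values outside `clo S` are conjugate under `Gfix S` -/
theorem Setting.exists_mem_Gfix_smul_eq (S : Set Ω) {t t' : Ω} (ht : t ∉ clo S) (ht' : t' ∉ clo S)
    {P P' : Place Ω (laurentBaseChange Ω F₀)}
    (hP : 𝔖.HasVal P t) (hP' : 𝔖.HasVal P' t') :
    ∃ τ ∈ Gfix S, act F₀ τ • P = P' ∧ τ t = t' := by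
  obtain ⟨σ, h1, h2⟩ := 𝔖.exists_algEquiv_smul_eq (cloField S) (transcendental_cloField ht)
    (transcendental_cloField ht') hP hP'
  exact ⟨σ.restrictScalars ℚ, restrictScalars_mem_Gfix S σ, h1, h2⟩

/-- **T (transitivity)**, without Riemann. -/
theorem Setting.exists_mem_Hfix_smul_eq_aux
    (S : Set Ω) {t : Ω} (ht : t ∉ clo S) {P P' : Place Ω (laurentBaseChange Ω F₀)}
    (hP : 𝔖.HasVal P t) (hP' : 𝔖.HasVal P' t) : ∃ τ ∈ Hfix S t, act F₀ τ • P = P' := by
  obtain ⟨τ, h0, h1, h2⟩ := 𝔖.exists_mem_Gfix_smul_eq S ht ht hP hP'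
  exact ⟨τ, mem_Hfix.2 ⟨h0, h2⟩, h1⟩

end Fermat.Agent.S37lib.DV
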