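import Fermat.Agent.S24.RHDiff

/-!
# S37, (DV): a place which is trivial on a "field of definition" is determined by its evaluation map

Abstract setting: `F / K` a function field (`K` algebraically closed of characteristic zero),
`A ⊆ F` a `K`-subalgebra with fraction field `F`, stable under a derivation `D` of `F / K`,
`z ∈ A` with `D z = 1`.  For a place `P` with `A ⊆ O_P`:

* `ord_sub_eq_one` (UNR): `ord_P (z - z(P)) = 1`;
* `ord_derivation_of_mem`: `ord_P (D a) = ord_P a - 1` for `a ∈ A` vanishing at `P`;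
* `place_eq_of_pos_iff` (U): two such places with the same "zeros in `A`" are equal.
-/

set_option autoImplicit false

open AlgebraicCurve IntermediateField KaehlerDifferential
open Fermat.Agent.S24RH

namespace Fermat.Agent.S37lib.DV

variable {K F : Type*} [Field K] [Field F] [Algebra K F]

/-- all derivations of `F / K` are proportional -/
theorem derivation_eq_mul [CharZero K] (π : F) (hπ : Transcendental K π)
    [FiniteDimensional K⟮π⟯ F] (D δ : Derivation K F F) (hδ : δ π = 1) (u : F) :
    D u = δ u * D π := by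
  have hspan := (kaehler_span_and_derivation (K := K) π hπ).1
  have hu : KaehlerDifferential.D K F u ∈ Submodule.span F {KaehlerDifferential.D K F π} := by
    rw [hspan]; trivial
  obtain ⟨c, hc⟩ := Submodule.mem_span_singleton.1 hu
  have h1 := congrArg δ.liftKaehlerDifferential hc
  have h2 := congrArg D.liftKaehlerDifferential hc
  rw [map_smul, Derivation.liftKaehlerDifferential_comp_D, Derivation.liftKaehlerDifferential_comp_D,
    hδ, smul_eq_mul, mul_one] at h1
  rw [map_smul, Derivation.liftKaehlerDifferential_comp_D, Derivation.liftKaehlerDifferential_comp_D,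
    smul_eq_mul] at h2
  rw [← h2, h1]

variable [IsAlgClosed K] [CharZero K]

section

variable (hFF : IsFF K F) (D : Derivation K F F) (A : Subalgebra K F)
  (hAD : ∀ a ∈ A, D a ∈ A) (hfrac : ∀ u : F, ∃ a ∈ A, ∃ b ∈ A, b ≠ 0 ∧ u = a / b)
  (z : F) (hzA : z ∈ A) (hz : D z = 1)

include hFF hAD hfrac hz in
/-- **(UNR)** -/
theorem ord_sub_eq_one (P : Place K F) (hP : ∀ a ∈ A, a ∈ P.toValuationSubring) (c : K)
    (hc : 0 < P.ord (z - algebraMap K F c)) : P.ord (z - algebraMap K F c) = 1 := by
  obtain ⟨π, hπ1⟩ := exists_ord_eq_one P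
  have hπ : Transcendental K π := transcendental_of_ord_ne_zero P (by omega)
  have := hFF.finiteDimensional hπ
  obtain ⟨δ, hδ⟩ := (kaehler_span_and_derivation (K := K) π hπ).2
  have hDδ := derivation_eq_mul π hπ D δ hδ
  set t := z - algebraMap K F c with ht
  set e₀ := P.ord t with he₀
  have hDt : D t = 1 := by rw [ht, map_sub, Derivation.map_algebraMap, sub_zero, hz]
  obtain ⟨hδt0, hδt⟩ := ord_derivation_of_pos hFF P δ π hδ hπ1 hc
  have hw0 : D π ≠ 0 := by
    intro h
    have := hDδ t
    rw [hDt, h, mul_zero] at this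
    exact one_ne_zero this
  have hw : P.ord (D π) = 1 - e₀ := by
    have h1 := hDδ t
    rw [hDt] at h1
    have h2 := congrArg P.ord h1
    rw [P.ord_one, P.ord_mul hδt0 hw0, hδt] at h2
    omega
  have hstep : ∀ a ∈ A, 0 < P.ord a → D a ≠ 0 ∧ P.ord (D a) = P.ord a - e₀ := by
    intro a _ hpos
    obtain ⟨h0, h1⟩ := ord_derivation_of_pos hFF P δ π hδ hπ1 hpos
    rw [hDδ a]
    refine ⟨mul_ne_zero h0 hw0, ?_⟩
    rw [P.ord_mul h0 hw0, h1, hw]; ring
  have hdvd : ∀ n : ℕ, ∀ a ∈ A, a ≠ 0 → P.ord a = n → e₀ ∣ (n : ℤ) := by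
    intro n
    induction n using Nat.strong_induction_on with
    | _ n ih =>
      intro a haA ha0 han
      rcases Nat.eq_zero_or_pos n with rfl | hn
      · simp
      have hpos : 0 < P.ord a := by rw [han]; exact_mod_cast hn
      obtain ⟨h0, h1⟩ := hstep a haA hpos
      have h2 : 0 ≤ P.ord (D a) := ord_nonneg_of_mem P (hP _ (hAD a haA))
      obtain ⟨k, hk⟩ := Int.eq_ofNat_of_zero_le h2
      have hkn : k < n := by
        have : (k : ℤ) < n := by rw [← hk, h1, han]; omega
        exact_mod_cast this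
      have h3 := ih k hkn (D a) (hAD a haA) h0 hk
      have h4 : (n : ℤ) = k + e₀ := by rw [← hk, h1, han]; ring
      rw [h4]
      exact dvd_add h3 dvd_rfl
  have hdvdA : ∀ a ∈ A, a ≠ 0 → e₀ ∣ P.ord a := by
    intro a haA ha0
    obtain ⟨k, hk⟩ := Int.eq_ofNat_of_zero_le (ord_nonneg_of_mem P (hP a haA))
    rw [hk]
    exact hdvd k a haA ha0 hk
  obtain ⟨a, haA, b, hbA, hb0, hab⟩ := hfrac π
  have hπ0 : π ≠ 0 := by rintro rfl; simp at hπ1
  have ha0 : a ≠ 0 := by
    rintro rfl
    rw [zero_div] at hab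
    exact hπ0 hab
  have h5 : e₀ ∣ 1 := by
    rw [← hπ1, hab, ord_div P ha0 hb0]
    exact dvd_sub (hdvdA a haA ha0) (hdvdA b hbA hb0)
  have h6 := Int.le_of_dvd one_pos h5
  omega

include hFF hAD hfrac hzA hz in
theorem ord_derivation_of_mem (P : Place K F) (hP : ∀ a ∈ A, a ∈ P.toValuationSubring)
    {a : F} (ha : 0 < P.ord a) : D a ≠ 0 ∧ P.ord (D a) = P.ord a - 1 := by
  obtain ⟨c, hc⟩ := exists_const hFF P (hP z hzA)
  have hc' : 0 < P.ord (z - algebraMap K F c) := by
    rcases hc with hc | hc
    · exfalso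
      rw [hc, Derivation.map_algebraMap] at hz
      exact zero_ne_one hz
    · exact hc
  have h1 := ord_sub_eq_one hFF D A hAD hfrac z hz P hP c hc'
  exact ord_derivation_of_pos hFF P D (z - algebraMap K F c)
    (by rw [map_sub, Derivation.map_algebraMap, sub_zero, hz]) h1 ha

include hFF hAD hfrac hzA hz in
/-- **(U), abstract form** -/
theorem place_eq_of_pos_iff (P P' : Place K F) (hP : ∀ a ∈ A, a ∈ P.toValuationSubring)
    (hP' : ∀ a ∈ A, a ∈ P'.toValuationSubring)
    (hev : ∀ a ∈ A, 0 < P.ord a → 0 < P'.ord a) (hev' : ∀ a ∈ A, 0 < P'.ord a → 0 < P.ord a) :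
    P = P' := by
  have key : ∀ n : ℕ, ∀ a ∈ A, a ≠ 0 → P.ord a = n → P'.ord a = n := by
    intro n
    induction n with
    | zero =>
      intro a haA _ han
      have h1 := ord_nonneg_of_mem P' (hP' a haA)
      by_contra hne
      have h2 : 0 < P'.ord a := by
        push_cast at hne
        omega
      have := hev' a haA h2
      rw [han] at this
      simp at this
    | succ n ih =>
      intro a haA _ han
      have hpos : 0 < P.ord a := by rw [han]; positivity
      have hpos' := hev a haA hpos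
      obtain ⟨h0, h1⟩ := ord_derivation_of_mem hFF D A hAD hfrac z hzA hz P hP hpos
      obtain ⟨_, h1'⟩ := ord_derivation_of_mem hFF D A hAD hfrac z hzA hz P' hP' hpos'
      have h2 := ih (D a) (hAD a haA) h0 (by rw [h1, han]; push_cast; ring)
      rw [h1'] at h2
      push_cast
      omega
  have keyA : ∀ a ∈ A, a ≠ 0 → P'.ord a = P.ord a := by
    intro a haA ha0
    obtain ⟨k, hk⟩ := Int.eq_ofNat_of_zero_le (ord_nonneg_of_mem P (hP a haA))
    rw [hk]
    exact key k a haA ha0 hk
  apply place_ext_of_le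
  intro u hu
  rcases eq_or_ne u 0 with rfl | hu0
  · exact zero_mem _
  obtain ⟨a, haA, b, hbA, hb0, hab⟩ := hfrac u
  have ha0 : a ≠ 0 := by
    rintro rfl
    rw [zero_div] at hab
    exact hu0 hab
  apply mem_of_ord_nonneg
  have h1 := ord_nonneg_of_mem P hu
  rw [hab, ord_div P ha0 hb0] at h1
  rw [hab, ord_div P' ha0 hb0, keyA a haA ha0, keyA b hbA hb0]
  exact h1

end

end Fermat.Agent.S37lib.DV
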