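import Mathlib
import Fermat.Agent.S24.RHDeg

/-!
# T-S37 (DV1): Riemann's theorem for function fields with algebraically closed constants

`K` algebraically closed of characteristic zero, `F/K` a function field in one variable
(`S24RH.IsFF K F`), with the prelude's `Place`/`Divisor` API.

* `LL D` : the Riemann-Roch space `{f | f = 0 ∨ ∀ v, -D v ≤ v.ord f}`, a `K`-submodule of `F`;
* `ell D := finrank K (LL D)`;
* (R0) `finiteDimensional_LL`, `ell_zero`, `ell_eq_zero_of_degree_neg`;
* (R3) `ell_add_single_le`, `ell_mono`, `ell_le_add_degree_sub`;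
* `divOf f` the principal divisor, `degree_divOf`, `ell_add_divOf`;
* (R1)+(R2) `exists_genus` (Stichtenoth 1.4.14 - 1.4.17).
-/

open AlgebraicCurve IntermediateField

namespace Fermat.Agent.S37lib

open Fermat.Agent.S24RH

variable {K F : Type*} [Field K] [Field F] [Algebra K F]

theorem ord_smul_of_ne_zero (v : Place K F) {c : K} (hc : c ≠ 0) (f : F) :
    v.ord (c • f) = v.ord f := by
  rcases eq_or_ne f 0 with rfl | hf
  · simp
  · rw [Algebra.smul_def, v.ord_mul (by simpa using hc) hf, ord_algebraMap, zero_add]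

/-- local condition: `f = 0` or `n ≤ ord_v f`. -/
def LLv (v : Place K F) (n : ℤ) : Submodule K F where
  carrier := {f | f = 0 ∨ n ≤ v.ord f}
  zero_mem' := Or.inl rfl
  add_mem' := fun {_ _} ha hb => le_ord_add v ha hb
  smul_mem' := fun c f hf => by
    rcases eq_or_ne c 0 with rfl | hc
    · left; simp
    · rcases hf with rfl | hf
      · left; simp
      · right; rwa [ord_smul_of_ne_zero v hc]

theorem mem_LLv {v : Place K F} {n : ℤ} {f : F} : f ∈ LLv v n ↔ f = 0 ∨ n ≤ v.ord f := Iff.rfl

/-- the Riemann-Roch space of a divisor. -/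
def LL (D : Divisor K F) : Submodule K F := ⨅ v : Place K F, LLv v (-D v)

theorem mem_LL {D : Divisor K F} {f : F} : f ∈ LL D ↔ f = 0 ∨ ∀ v : Place K F, -D v ≤ v.ord f := by
  simp only [LL, Submodule.mem_iInf, mem_LLv]
  constructor
  · intro h
    by_cases hf : f = 0
    · exact Or.inl hf
    · exact Or.inr fun v => (h v).resolve_left hf
  · rintro (h | h) v
    · exact Or.inl h
    · exact Or.inr (h v)

/-- the dimension of the Riemann-Roch space. -/
noncomputable def ell (D : Divisor K F) : ℕ := Module.finrank K (LL D)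

theorem LL_mono {D E : Divisor K F} (h : D ≤ E) : LL D ≤ LL E := by
  intro f hf
  rw [mem_LL] at hf ⊢
  rcases hf with hf | hf
  · exact Or.inl hf
  · refine Or.inr fun v => ?_
    have := hf v
    have := h v
    omega

section AlgClosed

variable [IsAlgClosed K] [CharZero K]

/-- the degree is the sum of the coefficients. -/
theorem degree_eq_sum (hFF : IsFF K F) (D : Divisor K F) :
    Divisor.degree D = D.sum fun _ n => n := by
  induction D using Finsupp.induction_linear with
  | zero => simp
  | add f g hf hg =>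
    rw [map_add, hf, hg, Finsupp.sum_add_index' (by simp) (by simp)]
  | single v n =>
    rw [Divisor.degree_single, deg_eq_one hFF v]
    simp

/-- the principal divisor of `f` (zero for `f = 0`). -/
noncomputable def divOf (hFF : IsFF K F) (f : F) : Divisor K F :=
  Finsupp.ofSupportFinite (fun v => v.ord f) (by
    rcases eq_or_ne f 0 with rfl | hf
    · convert Set.finite_empty
      ext v
      simp
    · exact finite_ord_ne_zero hFF hf)

omit [IsAlgClosed K] [CharZero K] in
@[simp]
theorem divOf_apply [IsAlgClosed K] [CharZero K] (hFF : IsFF K F) (f : F) (v : Place K F) :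
    divOf hFF f v = v.ord f := rfl

theorem degree_divOf (hFF : IsFF K F) (f : F) : Divisor.degree (divOf hFF f) = 0 := by
  rcases eq_or_ne f 0 with rfl | hf
  · have : divOf hFF (0 : F) = 0 := by
      ext v
      simp
    rw [this, map_zero]
  · rw [degree_eq_sum hFF, Finsupp.sum]
    exact sum_ord_eq_zero hFF hf _ fun v hv => by
      rw [Finsupp.mem_support_iff]
      exact hv

theorem degree_nonneg_of_nonneg (hFF : IsFF K F) {D : Divisor K F} (h : 0 ≤ D) :
    0 ≤ Divisor.degree D := by
  rw [degree_eq_sum hFF, Finsupp.sum]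
  exact Finset.sum_nonneg fun v _ => h v

theorem degree_mono (hFF : IsFF K F) {D E : Divisor K F} (h : D ≤ E) :
    Divisor.degree D ≤ Divisor.degree E := by
  have := degree_nonneg_of_nonneg hFF (sub_nonneg.2 h)
  rw [map_sub] at this
  omega

/-- (R0) -/
theorem LL_eq_bot_of_degree_neg (hFF : IsFF K F) {D : Divisor K F} (h : Divisor.degree D < 0) :
    LL D = ⊥ := by
  rw [eq_bot_iff]
  intro f hf
  rw [mem_LL] at hf
  rcases hf with hf | hf
  · exact hf
  · exfalso
    have h1 : 0 ≤ D + divOf hFF f := by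
      intro v
      have := hf v
      simp only [Finsupp.coe_zero, Pi.zero_apply, Finsupp.add_apply, divOf_apply]
      omega
    have := degree_nonneg_of_nonneg hFF h1
    rw [map_add, degree_divOf] at this
    omega

theorem ell_eq_zero_of_degree_neg (hFF : IsFF K F) {D : Divisor K F}
    (h : Divisor.degree D < 0) : ell D = 0 := by
  rw [ell, LL_eq_bot_of_degree_neg hFF h]
  exact finrank_bot K F

/-- functions without poles are constant. -/
theorem LL_zero (hFF : IsFF K F) : LL (0 : Divisor K F) = 1 := by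
  ext f
  rw [mem_LL, Submodule.mem_one]
  constructor
  · rintro (rfl | h)
    · exact ⟨0, by simp⟩
    · by_contra hf
      have hft := transcendental_of_not_mem_range hf
      have := hFF.finiteDimensional hft
      obtain ⟨s, hs, hsum⟩ := sum_ord_poles (K := K) f hft
      have hs' : s = ∅ := by
        rw [Finset.eq_empty_iff_forall_notMem]
        intro v hv
        have := (hs v).1 hv
        have := h v
        simp at this
        omega
      rw [hs', Finset.sum_empty] at hsum
      have : 0 < Module.finrank K⟮f⟯ F := Module.finrank_pos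
      omega
  · rintro ⟨c, rfl⟩
    right
    intro v
    rw [ord_algebraMap]
    simp

theorem ell_zero (hFF : IsFF K F) : ell (0 : Divisor K F) = 1 := by
  rw [ell, LL_zero hFF, Submodule.one_eq_span]
  exact finrank_span_singleton one_ne_zero

/-- key step: modulo `L(D)`, the space `L(D + P)` is at most one dimensional. -/
theorem exists_sub_smul_mem_LL (hFF : IsFF K F) (D : Divisor K F) (P : Place K F) {f g : F}
    (hf : f ∈ LL (D + Finsupp.single P 1)) (hg : g ∈ LL (D + Finsupp.single P 1))
    (hg' : g ∉ LL D) : ∃ c : K, f - c • g ∈ LL D := by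
  classical
  have hne : ∀ v : Place K F, v ≠ P → (D + Finsupp.single P 1 : Divisor K F) v = D v := by
    intro v hv
    rw [Finsupp.add_apply, Finsupp.single_apply, if_neg (Ne.symm hv), add_zero]
  have hP : (D + Finsupp.single P 1 : Divisor K F) P = D P + 1 := by
    rw [Finsupp.add_apply, Finsupp.single_eq_same]
  have hg0 : g ≠ 0 := by
    rintro rfl
    exact hg' (zero_mem _)
  have hg1 := (mem_LL.1 hg).resolve_left hg0
  have hgP : P.ord g = -D P - 1 := by
    have h1 := hg1 P
    rw [hP] at h1
    by_contra h2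
    apply hg'
    rw [mem_LL]
    right
    intro v
    by_cases hv : v = P
    · subst hv; omega
    · rw [← hne v hv]; exact hg1 v
  rcases eq_or_ne f 0 with rfl | hf0
  · exact ⟨0, by simp⟩
  have hf1 := (mem_LL.1 hf).resolve_left hf0
  have hz : f / g ∈ P.toValuationSubring := by
    apply mem_of_ord_nonneg
    rw [ord_div P hf0 hg0, hgP]
    have := hf1 P
    rw [hP] at this
    omega
  obtain ⟨c, hc⟩ := exists_const hFF P hz
  refine ⟨c, ?_⟩
  have hfc : f - c • g = (f / g - algebraMap K F c) * g := by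
    rw [Algebra.smul_def]
    field_simp
  rcases hc with hc | hc
  · rw [hfc, hc, sub_self, zero_mul]
    exact zero_mem _
  · have hzc : f / g - algebraMap K F c ≠ 0 := by
      intro h
      rw [h] at hc
      simp at hc
    have hmem : f - c • g ∈ LL (D + Finsupp.single P 1) :=
      sub_mem hf (Submodule.smul_mem _ _ hg)
    have hne0 : f - c • g ≠ 0 := by
      rw [hfc]
      exact mul_ne_zero hzc hg0
    have h1 := (mem_LL.1 hmem).resolve_left hne0
    rw [mem_LL]
    right
    intro v
    by_cases hv : v = P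
    · subst hv
      rw [hfc, v.ord_mul hzc hg0, hgP]
      omega
    · rw [← hne v hv]; exact h1 v

theorem exists_LL_add_single_le (hFF : IsFF K F) (D : Divisor K F) (P : Place K F) :
    ∃ g : F, LL (D + Finsupp.single P 1) ≤ LL D ⊔ K ∙ g := by
  by_cases h : ∃ g ∈ LL (D + Finsupp.single P 1), g ∉ LL D
  · obtain ⟨g, hg, hg'⟩ := h
    refine ⟨g, fun f hf => ?_⟩
    obtain ⟨c, hc⟩ := exists_sub_smul_mem_LL hFF D P hf hg hg'
    have : f = (f - c • g) + c • g := by ring
    rw [this]
    exact Submodule.add_mem_sup hc (Submodule.smul_mem _ _ (Submodule.mem_span_singleton_self g))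
  · push Not at h
    exact ⟨0, fun f hf => Submodule.mem_sup_left (h f hf)⟩

theorem LL_add_single_aux (hFF : IsFF K F) (D : Divisor K F) (P : Place K F)
    (h : FiniteDimensional K (LL D)) :
    FiniteDimensional K (LL (D + Finsupp.single P 1)) ∧ ell (D + Finsupp.single P 1) ≤ ell D + 1 := by
  obtain ⟨g, hg⟩ := exists_LL_add_single_le hFF D P
  have h1 : FiniteDimensional K (LL D ⊔ K ∙ g : Submodule K F) := inferInstance
  refine ⟨Submodule.finiteDimensional_of_le hg, ?_⟩
  calc ell (D + Finsupp.single P 1)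
      ≤ Module.finrank K (LL D ⊔ K ∙ g : Submodule K F) :=
        LinearMap.finrank_le_finrank_of_injective (Submodule.inclusion_injective hg)
    _ ≤ Module.finrank K (LL D) + Module.finrank K (K ∙ g) :=
        Submodule.finrank_add_le_finrank_add_finrank _ _
    _ ≤ ell D + 1 := by
        have : Module.finrank K (K ∙ g) ≤ 1 := by
          refine (finrank_span_le_card ({g} : Set F)).trans ?_
          simp
        unfold ell
        omega

theorem eq_zero_of_nonneg_of_degree (hFF : IsFF K F) {D : Divisor K F} (h : 0 ≤ D)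
    (hd : Divisor.degree D = 0) : D = 0 := by
  rw [degree_eq_sum hFF, Finsupp.sum, Finset.sum_eq_zero_iff_of_nonneg fun v _ => h v] at hd
  ext v
  by_cases hv : v ∈ D.support
  · exact hd v hv
  · simpa using hv

theorem LL_le_aux (hFF : IsFF K F) (n : ℕ) : ∀ D E : Divisor K F, D ≤ E →
    Divisor.degree E - Divisor.degree D = n → FiniteDimensional K (LL D) →
    FiniteDimensional K (LL E) ∧ ell E ≤ ell D + n := by
  classical
  induction n with
  | zero =>
    intro D E hDE hdeg hfin
    have : E - D = 0 := eq_zero_of_nonneg_of_degree hFF (sub_nonneg.2 hDE) (by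
      rw [map_sub]; simpa using hdeg)
    rw [sub_eq_zero] at this
    subst this
    exact ⟨hfin, le_rfl⟩
  | succ n ih =>
    intro D E hDE hdeg hfin
    have hex : ∃ P, D P < E P := by
      by_contra h
      push Not at h
      have : E = D := le_antisymm h hDE
      rw [this] at hdeg
      push_cast at hdeg
      omega
    obtain ⟨P, hP⟩ := hex
    have h1 : D ≤ E - Finsupp.single P 1 := by
      intro v
      rw [Finsupp.sub_apply, Finsupp.single_apply]
      split_ifs with hv
      · subst hv; omega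
      · simpa using hDE v
    have h2 : Divisor.degree (E - Finsupp.single P 1) - Divisor.degree D = n := by
      rw [map_sub, Divisor.degree_single, deg_eq_one hFF P]
      push_cast at hdeg ⊢
      omega
    obtain ⟨h3, h4⟩ := ih D _ h1 h2 hfin
    obtain ⟨h5, h6⟩ := LL_add_single_aux hFF _ P h3
    rw [sub_add_cancel] at h5 h6
    exact ⟨h5, by omega⟩

/-- (R0) -/
theorem finiteDimensional_LL (hFF : IsFF K F) (D : Divisor K F) :
    FiniteDimensional K (LL D) := by
  have h0 : FiniteDimensional K (LL (0 : Divisor K F)) := by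
    rw [LL_zero hFF, Submodule.one_eq_span]
    infer_instance
  have h1 : (0 : Divisor K F) ≤ D ⊔ 0 := le_sup_right
  have h2 := degree_nonneg_of_nonneg hFF h1
  have h3 := (LL_le_aux hFF (Divisor.degree (D ⊔ 0)).toNat 0 (D ⊔ 0) h1 (by
    rw [map_zero, sub_zero, Int.toNat_of_nonneg h2]) h0).1
  exact Submodule.finiteDimensional_of_le (LL_mono (le_sup_left : D ≤ D ⊔ 0))

/-- (R3) -/
theorem ell_mono (hFF : IsFF K F) {D E : Divisor K F} (h : D ≤ E) : ell D ≤ ell E := by
  have := finiteDimensional_LL hFF E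
  exact LinearMap.finrank_le_finrank_of_injective (Submodule.inclusion_injective (LL_mono h))

/-- (R3) -/
theorem ell_add_single_le (hFF : IsFF K F) (D : Divisor K F) (P : Place K F) :
    ell (D + Finsupp.single P 1) ≤ ell D + 1 :=
  (LL_add_single_aux hFF D P (finiteDimensional_LL hFF D)).2

/-- (R3), Stichtenoth 1.4.8 -/
theorem ell_le_add_degree_sub (hFF : IsFF K F) {D E : Divisor K F} (h : D ≤ E) :
    (ell E : ℤ) ≤ ell D + (Divisor.degree E - Divisor.degree D) := by
  have h1 := degree_mono hFF h
  have h2 := (LL_le_aux hFF (Divisor.degree E - Divisor.degree D).toNat D E h (by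
    rw [Int.toNat_of_nonneg (by omega)]) (finiteDimensional_LL hFF D)).2
  omega

/-- linearly equivalent divisors have the same `ell`. -/
theorem ell_add_divOf (hFF : IsFF K F) (D : Divisor K F) {z : F} (hz : z ≠ 0) :
    ell (D + divOf hFF z) = ell D := by
  have hinj : Function.Injective (LinearMap.mulLeft K z) := fun a b hab => by
    simpa [hz] using hab
  have hmap : (LL (D + divOf hFF z)).map (LinearMap.mulLeft K z) = LL D := by
    ext f
    rw [Submodule.mem_map]
    constructor
    · rintro ⟨h, hh, rfl⟩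
      rw [mem_LL] at hh ⊢
      rcases hh with rfl | hh
      · left; simp
      · by_cases h0 : h = 0
        · left; simp [h0]
        right
        intro v
        have := hh v
        rw [Finsupp.add_apply, divOf_apply] at this
        rw [LinearMap.mulLeft_apply, v.ord_mul hz h0]
        omega
    · intro hf
      refine ⟨z⁻¹ * f, ?_, by simp [hz]⟩
      rw [mem_LL] at hf ⊢
      rcases hf with rfl | hf
      · left; simp
      · by_cases h0 : f = 0
        · left; simp [h0]
        right
        intro v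
        have := hf v
        rw [Finsupp.add_apply, divOf_apply, v.ord_mul (inv_ne_zero hz) h0, v.ord_inv]
        omega
  unfold ell
  rw [← hmap]
  exact (Submodule.equivMapOfInjective _ hinj _).finrank_eq

/-- `0 < ell D` iff there is a nonzero function in `L(D)`. -/
theorem ell_pos_iff (hFF : IsFF K F) (D : Divisor K F) :
    0 < ell D ↔ ∃ f : F, f ≠ 0 ∧ ∀ v : Place K F, -D v ≤ v.ord f := by
  have := finiteDimensional_LL hFF D
  unfold ell
  rw [Module.finrank_pos_iff_exists_ne_zero]
  constructor
  · rintro ⟨⟨f, hf⟩, hf0⟩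
    have hf0' : f ≠ 0 := fun h => hf0 (Subtype.ext h)
    exact ⟨f, hf0', (mem_LL.1 hf).resolve_left hf0'⟩
  · rintro ⟨f, hf0, hf⟩
    exact ⟨⟨f, mem_LL.2 (Or.inr hf)⟩, fun h => hf0 (congrArg Subtype.val h)⟩

/-- the pole divisor of `f`. -/
noncomputable def poleDiv (hFF : IsFF K F) (f : F) : Divisor K F :=
  (divOf hFF f).mapRange (fun n => max 0 (-n)) (by simp)

theorem poleDiv_apply (hFF : IsFF K F) (f : F) (v : Place K F) :
    poleDiv hFF f v = max 0 (-v.ord f) := by
  simp [poleDiv]

theorem poleDiv_nonneg (hFF : IsFF K F) (f : F) : 0 ≤ poleDiv hFF f := by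
  intro v
  rw [poleDiv_apply]
  exact le_max_left _ _

theorem degree_poleDiv (hFF : IsFF K F) {x : F} (hx : Transcendental K x) :
    Divisor.degree (poleDiv hFF x) = Module.finrank K⟮x⟯ F := by
  have := hFF.finiteDimensional hx
  obtain ⟨s, hs, hsum⟩ := sum_ord_poles (K := K) x hx
  rw [degree_eq_sum hFF, Finsupp.sum_of_support_subset (s := s) _ ?_ _ (by simp)]
  · have : ∑ v ∈ s, poleDiv hFF x v = ∑ v ∈ s, -v.ord x := by
      refine Finset.sum_congr rfl fun v hv => ?_
      have := (hs v).1 hv
      rw [poleDiv_apply]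
      omega
    rw [this, Finset.sum_neg_distrib, hsum, neg_neg]
  · intro v hv
    rw [Finsupp.mem_support_iff, poleDiv_apply] at hv
    rw [hs]
    omega

omit [IsAlgClosed K] [CharZero K] in
theorem linearIndependent_pow_of_transcendental {x : F} (hx : Transcendental K x) :
    LinearIndependent K fun i : ℕ => (AdjoinSimple.gen K x) ^ i := by
  apply LinearIndependent.of_comp (IsScalarTower.toAlgHom K K⟮x⟯ F).toLinearMap
  have h1 := (Polynomial.basisMonomials K).linearIndependent.map'
    (Polynomial.aeval x).toLinearMap (LinearMap.ker_eq_bot.2 (transcendental_iff_injective.1 hx))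
  have h2 : (⇑(IsScalarTower.toAlgHom K K⟮x⟯ F).toLinearMap ∘
      fun i : ℕ => (AdjoinSimple.gen K x) ^ i) =
      ⇑(Polynomial.aeval x).toLinearMap ∘ ⇑(Polynomial.basisMonomials K) := by
    ext i
    simp
  rw [h2]
  exact h1

omit [IsAlgClosed K] [CharZero K] in
theorem linearIndependent_algebraMap_mul {S : Type*} [Field S] [Algebra K S] [Algebra S F]
    [IsScalarTower K S F] {ι ι' : Type*} {b : ι → S} {c : ι' → F} (hb : LinearIndependent K b)
    (hc : LinearIndependent S c) :
    LinearIndependent K fun p : ι × ι' => algebraMap S F (b p.1) * c p.2 := by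
  have := linearIndependent_smul hb hc
  simpa only [Algebra.smul_def] using this

theorem pow_mul_mem_LL (hFF : IsFF K F) {x u : F} (hx0 : x ≠ 0) (hu0 : u ≠ 0)
    {C : Divisor K F} (hC : ∀ v : Place K F, -C v ≤ v.ord u) {i l : ℕ} (hi : i ≤ l) :
    x ^ i * u ∈ LL (l • poleDiv hFF x + C) := by
  rw [mem_LL]
  right
  intro v
  rw [v.ord_mul (pow_ne_zero _ hx0) hu0, ord_pow, Finsupp.add_apply, Finsupp.smul_apply,
    poleDiv_apply]
  have h1 := hC v
  have h3 : (i : ℤ) ≤ l := by exact_mod_cast hi
  have h4 : -((l : ℤ) * max 0 (-v.ord x)) ≤ (i : ℤ) * v.ord x := by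
    rcases le_total 0 (v.ord x) with h | h
    · rw [max_eq_left (by omega)]
      have : 0 ≤ (i : ℤ) * v.ord x := by positivity
      omega
    · rw [max_eq_right (by omega)]
      nlinarith
  rw [nsmul_eq_mul]
  omega

theorem neg_sum_poleDiv_le (hFF : IsFF K F) {n : ℕ} (u : Fin n → F) (j : Fin n)
    (v : Place K F) : -(∑ j, poleDiv hFF (u j)) v ≤ v.ord (u j) := by
  rw [Finsupp.finsetSum_apply]
  have h1 : poleDiv hFF (u j) v ≤ ∑ j, poleDiv hFF (u j) v :=
    Finset.single_le_sum (f := fun j => poleDiv hFF (u j) v)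
      (fun j _ => poleDiv_nonneg hFF _ v) (Finset.mem_univ _)
  rw [poleDiv_apply] at h1
  have h2 : -v.ord (u j) ≤ max 0 (-v.ord (u j)) := le_max_right _ _
  omega

theorem exists_le_ell_smul_poleDiv (hFF : IsFF K F) {x : F} (hx : Transcendental K x) :
    ∃ C : Divisor K F, 0 ≤ C ∧
      ∀ l : ℕ, (l + 1) * Module.finrank K⟮x⟯ F ≤ ell (l • poleDiv hFF x + C) := by
  classical
  have := hFF.finiteDimensional hx
  have hx0 : x ≠ 0 := by
    rintro rfl
    exact hx isAlgebraic_zero
  obtain ⟨n, hn⟩ : ∃ n, n = Module.finrank K⟮x⟯ F := ⟨_, rfl⟩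
  obtain ⟨u⟩ : Nonempty (Module.Basis (Fin n) K⟮x⟯ F) := by
    rw [hn]
    exact ⟨Module.finBasis K⟮x⟯ F⟩
  rw [← hn]
  refine ⟨∑ j, poleDiv hFF (u j), Finset.sum_nonneg fun j _ => poleDiv_nonneg hFF _, fun l => ?_⟩
  obtain ⟨C, hC⟩ : ∃ C, C = ∑ j, poleDiv hFF (u j) := ⟨_, rfl⟩
  have hCu : ∀ (j : Fin n) (v : Place K F), -C v ≤ v.ord (u j) := by
    intro j v
    rw [hC]
    exact neg_sum_poleDiv_le hFF (fun j => u j) j v
  rw [← hC]
  have hfd := finiteDimensional_LL hFF (l • poleDiv hFF x + C)
  have hb : LinearIndependent K fun i : Fin (l + 1) => (AdjoinSimple.gen K x) ^ (i : ℕ) :=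
    (linearIndependent_pow_of_transcendental hx).comp _ Fin.val_injective
  have hli : LinearIndependent K fun p : Fin (l + 1) × Fin n => x ^ (p.1 : ℕ) * u p.2 := by
    have := linearIndependent_algebraMap_mul hb u.linearIndependent
    simpa only [map_pow, AdjoinSimple.algebraMap_gen] using this
  have hmem : ∀ p : Fin (l + 1) × Fin n, x ^ (p.1 : ℕ) * u p.2 ∈ LL (l • poleDiv hFF x + C) :=
    fun p => pow_mul_mem_LL hFF hx0 (u.ne_zero _) (hCu p.2) (Nat.lt_succ_iff.1 p.1.2)
  have hli' : LinearIndependent K fun p : Fin (l + 1) × Fin n =>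
      (⟨_, hmem p⟩ : LL (l • poleDiv hFF x + C)) :=
    LinearIndependent.of_comp (Submodule.subtype _) hli
  have := hli'.fintype_card_le_finrank
  unfold ell
  simpa using this

theorem exists_degree_sub_ell_smul_le (hFF : IsFF K F) {x : F} (hx : Transcendental K x) :
    ∃ γ : ℤ, ∀ l : ℕ,
      Divisor.degree (l • poleDiv hFF x) - ell (l • poleDiv hFF x) ≤ γ := by
  obtain ⟨C, hC, h⟩ := exists_le_ell_smul_poleDiv hFF hx
  refine ⟨Divisor.degree C, fun l => ?_⟩
  have h1 := ell_le_add_degree_sub hFF
    (show l • poleDiv hFF x ≤ l • poleDiv hFF x + C from le_add_of_nonneg_right hC)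
  have h2 : (((l + 1) * Module.finrank K⟮x⟯ F : ℕ) : ℤ) ≤ ell (l • poleDiv hFF x + C) := by
    exact_mod_cast h l
  rw [map_add] at h1
  rw [map_nsmul, degree_poleDiv hFF hx, nsmul_eq_mul] at h1 ⊢
  push_cast at h2
  nlinarith

/-- Stichtenoth 1.4.14 -/
theorem exists_degree_sub_ell_le (hFF : IsFF K F) :
    ∃ γ : ℤ, ∀ D : Divisor K F, Divisor.degree D - ell D ≤ γ := by
  obtain ⟨x, hx, hfin⟩ := id hFF
  obtain ⟨γ, hγ⟩ := exists_degree_sub_ell_smul_le hFF hx
  refine ⟨γ, fun A => ?_⟩
  have hn : 0 < Module.finrank K⟮x⟯ F := Module.finrank_pos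
  set B := poleDiv hFF x with hB
  set A₁ := A ⊔ 0 with hA₁
  have hAA : A ≤ A₁ := le_sup_left
  have hA0 : 0 ≤ A₁ := le_sup_right
  set l : ℕ := (γ + Divisor.degree A₁ + 1).toNat with hl
  have h1 := ell_le_add_degree_sub hFF (show l • B - A₁ ≤ l • B from sub_le_self _ hA0)
  have h2 := hγ l
  have hdeg : Divisor.degree (l • B) = l * Module.finrank K⟮x⟯ F := by
    rw [map_nsmul, degree_poleDiv hFF hx, nsmul_eq_mul]
  have hpos : 0 < ell (l • B - A₁) := by
    rw [map_sub] at h1
    rw [hdeg] at h1 h2
    have h3 : γ + Divisor.degree A₁ + 1 ≤ l := Int.self_le_toNat _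
    have h4 : (l : ℤ) ≤ l * Module.finrank K⟮x⟯ F := by
      have : (1 : ℤ) ≤ Module.finrank K⟮x⟯ F := by exact_mod_cast hn
      nlinarith
    omega
  obtain ⟨z, hz0, hz⟩ := (ell_pos_iff hFF _).1 hpos
  have h5 : ell (A₁ - divOf hFF z) = ell A₁ := by
    rw [← ell_add_divOf hFF (A₁ - divOf hFF z) hz0, sub_add_cancel]
  have h6 : A₁ - divOf hFF z ≤ l • B := by
    intro v
    have := hz v
    rw [Finsupp.sub_apply] at this
    rw [Finsupp.sub_apply, divOf_apply]
    omega
  have h7 := ell_le_add_degree_sub hFF h6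
  have h8 := ell_le_add_degree_sub hFF hAA
  rw [map_sub, degree_divOf, h5] at h7
  omega

/-- **Riemann's theorem** (R1)+(R2), Stichtenoth 1.4.17. -/
theorem exists_genus (hFF : IsFF K F) :
    ∃ g : ℕ, (∀ D : Divisor K F, Divisor.degree D + 1 ≤ ell D + g) ∧
      ∃ c : ℤ, ∀ D : Divisor K F, c ≤ Divisor.degree D → (ell D : ℤ) = Divisor.degree D + 1 - g := by
  obtain ⟨γ, hγ⟩ := exists_degree_sub_ell_le hFF
  obtain ⟨g, ⟨A₀, hA₀⟩, hmax⟩ := Int.exists_greatest_of_bdd
    (P := fun k : ℤ => ∃ D : Divisor K F, k = Divisor.degree D - ell D + 1)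
    ⟨γ + 1, by
      rintro z ⟨D, rfl⟩
      have := hγ D
      omega⟩ ⟨_, 0, rfl⟩
  have hg0 : 0 ≤ g := by
    have := hmax _ ⟨0, rfl⟩
    rw [map_zero, ell_zero hFF] at this
    simpa using this
  have hR1 : ∀ D : Divisor K F, Divisor.degree D + 1 ≤ ell D + g := by
    intro D
    have := hmax _ ⟨D, rfl⟩
    omega
  refine ⟨g.toNat, ?_, Divisor.degree A₀ + g, ?_⟩
  · intro D
    rw [Int.toNat_of_nonneg hg0]
    exact hR1 D
  · intro A hA
    rw [Int.toNat_of_nonneg hg0]
    have h1 := hR1 (A - A₀)
    rw [map_sub] at h1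
    have hpos : 0 < ell (A - A₀) := by omega
    obtain ⟨z, hz0, hz⟩ := (ell_pos_iff hFF _).1 hpos
    have h2 : A₀ ≤ A + divOf hFF z := by
      intro v
      have := hz v
      rw [Finsupp.sub_apply] at this
      rw [Finsupp.add_apply, divOf_apply]
      omega
    have h3 := ell_le_add_degree_sub hFF h2
    rw [ell_add_divOf hFF A hz0, map_add, degree_divOf] at h3
    have h4 := hR1 A
    omega

end AlgClosed

end Fermat.Agent.S37lib
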