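import Mathlib
import Fermat.Agent.S37.DV.Riemann

/-!
# T-S37, part (DV), block R: Riemann's theorem for a function field `F / K`
(`K` algebraically closed of characteristic zero, `S24RH.IsFF K F`)

This is the `LSp` / `LinEq` API (namespace `S37lib.DV`) of the (DV) blueprint; R0 + R1 are proved
directly, R2 is transported from `S37lib.exists_genus` (`S37/DV/Riemann.lean`, `LL` API) along
`LSp_eq_LL`.

Reference: Stichtenoth, *Algebraic function fields and codes*, 1.4.6 - 1.4.17 (no differentials).
Tools: `S24/RHBasic` (`le_ord_add`, ...), `S24/RHDeg` (`exists_const`, `deg_eq_one`,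
`sum_ord_eq_zero`, `finite_ord_ne_zero`, `sum_ord_poles`), `S24/RHFibre`.
-/

set_option autoImplicit false

open AlgebraicCurve Fermat.Agent.S24RH

namespace Fermat.Agent.S37lib.DV

variable {K F : Type*} [Field K] [Field F] [Algebra K F]

/-- linear equivalence: `E = D + div f` -/
def LinEq (D E : Divisor K F) : Prop := ∃ f : F, f ≠ 0 ∧ ∀ v : Place K F, E v = D v + v.ord f

/-- the Riemann-Roch space `L(D) = {f : div f + D ≥ 0}` -/
def LSp (D : Divisor K F) : Submodule K F where
  carrier := {f | f = 0 ∨ ∀ v : Place K F, -D v ≤ v.ord f}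
  zero_mem' := Or.inl rfl
  add_mem' := by
    intro f g hf hg
    by_cases h : f + g = 0
    · exact Or.inl h
    · refine Or.inr fun v => ?_
      have := le_ord_add v (n := -D v) (hf.imp id fun h => h v) (hg.imp id fun h => h v)
      exact this.resolve_left h
  smul_mem' := by
    intro c f hf
    by_cases hc : c = 0
    · left; rw [hc, zero_smul]
    rcases hf with rfl | hf
    · left; rw [smul_zero]
    by_cases hf0 : f = 0
    · left; rw [hf0, smul_zero]
    · refine Or.inr fun v => ?_
      rw [Algebra.smul_def, v.ord_mul ((map_ne_zero _).2 hc) hf0, ord_algebraMap, zero_add]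
      exact hf v

theorem mem_LSp {D : Divisor K F} {f : F} :
    f ∈ LSp D ↔ f = 0 ∨ ∀ v : Place K F, -D v ≤ v.ord f := Iff.rfl

/-- `ℓ(D) = dim L(D)` -/
noncomputable def ell (D : Divisor K F) : ℕ := Module.finrank K (LSp D)

theorem LSp_eq_LL (D : Divisor K F) : LSp D = Fermat.Agent.S37lib.LL D := by
  ext f
  rw [mem_LSp, Fermat.Agent.S37lib.mem_LL]

theorem ell_eq_ell (D : Divisor K F) : ell D = Fermat.Agent.S37lib.ell D := by
  unfold ell Fermat.Agent.S37lib.ell
  rw [LSp_eq_LL]

/-! ### R0: linear equivalence -/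

theorem LinEq.refl (D : Divisor K F) : LinEq D D := ⟨1, one_ne_zero, fun v => by simp⟩

theorem LinEq.symm {D E : Divisor K F} (h : LinEq D E) : LinEq E D := by
  obtain ⟨f, hf, h⟩ := h
  exact ⟨f⁻¹, inv_ne_zero hf, fun v => by rw [h v, v.ord_inv]; ring⟩

theorem LinEq.trans {D E E' : Divisor K F} (h : LinEq D E) (h' : LinEq E E') : LinEq D E' := by
  obtain ⟨f, hf, h⟩ := h
  obtain ⟨g, hg, h'⟩ := h'
  exact ⟨f * g, mul_ne_zero hf hg, fun v => by rw [h' v, h v, v.ord_mul hf hg]; ring⟩

theorem LinEq.add {D E D' E' : Divisor K F} (h : LinEq D E) (h' : LinEq D' E') :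
    LinEq (D + D') (E + E') := by
  obtain ⟨f, hf, h⟩ := h
  obtain ⟨g, hg, h'⟩ := h'
  exact ⟨f * g, mul_ne_zero hf hg, fun v => by
    rw [Finsupp.add_apply, Finsupp.add_apply, h' v, h v, v.ord_mul hf hg]; ring⟩

theorem LinEq.neg {D E : Divisor K F} (h : LinEq D E) : LinEq (-D) (-E) := by
  obtain ⟨f, hf, h⟩ := h
  exact ⟨f⁻¹, inv_ne_zero hf, fun v => by
    rw [Finsupp.neg_apply, Finsupp.neg_apply, h v, v.ord_inv]; ring⟩

theorem LinEq.sub {D E D' E' : Divisor K F} (h : LinEq D E) (h' : LinEq D' E') :
    LinEq (D - D') (E - E') := by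
  rw [sub_eq_add_neg, sub_eq_add_neg]; exact h.add h'.neg

theorem LinEq.nsmul {D E : Divisor K F} (h : LinEq D E) (m : ℕ) : LinEq (m • D) (m • E) := by
  induction m with
  | zero => simpa using LinEq.refl (0 : Divisor K F)
  | succ k ih => rw [succ_nsmul, succ_nsmul]; exact ih.add h

section

variable [IsAlgClosed K] [CharZero K]

/-- the degree is the sum of the coefficients (`S24RH.deg_eq_one`) -/
theorem degree_eq_sum (hFF : IsFF K F) (D : Divisor K F) :
    Divisor.degree D = D.sum fun _ n => n := by
  unfold Divisor.degree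
  rw [Finsupp.liftAddHom_apply]
  refine Finsupp.sum_congr fun v _ => ?_
  simp [deg_eq_one hFF v]

/-- the divisor of a function (`S24RH.finite_ord_ne_zero`) -/
theorem exists_div (hFF : IsFF K F) {f : F} (hf : f ≠ 0) :
    ∃ D : Divisor K F, (∀ v, D v = v.ord f) ∧ Divisor.degree D = 0 := by
  classical
  have hfin := finite_ord_ne_zero hFF hf
  let D : Divisor K F := Finsupp.onFinset hfin.toFinset (fun v => v.ord f)
    (fun v hv => by simpa using hv)
  refine ⟨D, fun v => rfl, ?_⟩
  rw [degree_eq_sum hFF, Finsupp.sum]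
  exact sum_ord_eq_zero hFF hf D.support (fun v hv => by
    rw [Finsupp.mem_support_iff]; exact hv)

theorem LinEq.degree_eq (hFF : IsFF K F) {D E : Divisor K F} (h : LinEq D E) :
    Divisor.degree E = Divisor.degree D := by
  obtain ⟨f, hf, h⟩ := h
  obtain ⟨G, hG, hG0⟩ := exists_div hFF hf
  have : E = D + G := by
    ext v
    rw [Finsupp.add_apply, h v, hG v]
  rw [this, map_add, hG0, add_zero]

/-- the degree is monotone -/
theorem degree_mono (hFF : IsFF K F) {D E : Divisor K F} (h : ∀ v, D v ≤ E v) :
    Divisor.degree D ≤ Divisor.degree E := by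
  have h1 : 0 ≤ Divisor.degree (E - D) := by
    rw [degree_eq_sum hFF]
    refine Finsupp.sum_nonneg fun v _ => ?_
    rw [Finsupp.sub_apply]
    exact sub_nonneg.2 (h v)
  rw [map_sub] at h1
  exact sub_nonneg.1 h1

/-- a function field has a place -/
theorem exists_place (hFF : IsFF K F) : Nonempty (Place K F) := by
  obtain ⟨x, hx, hfd⟩ := hFF
  obtain ⟨s, hs, hsum⟩ := sum_ord_poles (K := K) x hx
  by_contra hne
  have hs0 : s = ∅ := by
    rw [Finset.eq_empty_iff_forall_notMem]
    exact fun v _ => hne ⟨v⟩
  rw [hs0, Finset.sum_empty] at hsum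
  have : 0 < Module.finrank (IntermediateField.adjoin K {x}) F := Module.finrank_pos
  omega

/-! ### R1: elementary properties of `L(D)` -/

/-- `L(D) ≃ L(E)` for `D ∼ E` (multiplication by `f⁻¹`) -/
theorem LinEq.ell_eq {D E : Divisor K F} (h : LinEq D E) : ell E = ell D := by
  obtain ⟨f, hf, h⟩ := h
  have hinj : Function.Injective (LinearMap.mulLeft K f) := fun a b hab => by
    simpa [hf] using hab
  have hmap : (LSp E).map (LinearMap.mulLeft K f) = LSp D := by
    ext g
    rw [Submodule.mem_map]
    constructor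
    · rintro ⟨u, hu, rfl⟩
      rw [LinearMap.mulLeft_apply]
      rcases hu with rfl | hu
      · left; rw [mul_zero]
      by_cases hu0 : u = 0
      · left; rw [hu0, mul_zero]
      refine Or.inr fun v => ?_
      rw [v.ord_mul hf hu0]
      have := hu v
      rw [h v] at this
      omega
    · intro hg
      refine ⟨f⁻¹ * g, ?_, by rw [LinearMap.mulLeft_apply, mul_inv_cancel_left₀ hf]⟩
      rcases hg with rfl | hg
      · left; rw [mul_zero]
      by_cases hg0 : g = 0
      · left; rw [hg0, mul_zero]
      refine Or.inr fun v => ?_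
      rw [v.ord_mul (inv_ne_zero hf) hg0, v.ord_inv, h v]
      have := hg v
      omega
  unfold ell
  rw [← hmap]
  exact (Submodule.equivMapOfInjective _ hinj (LSp E)).finrank_eq

theorem LSp_mono {D E : Divisor K F} (h : ∀ v, D v ≤ E v) : LSp D ≤ LSp E := by
  intro f hf
  exact hf.imp id fun hf v => le_trans (neg_le_neg (h v)) (hf v)

/-- `L(D) = 0` if `deg D < 0` -/
theorem LSp_eq_bot_of_degree_neg (hFF : IsFF K F) {D : Divisor K F}
    (h : Divisor.degree D < 0) : LSp D = ⊥ := by
  rw [eq_bot_iff]
  intro f hf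
  rw [Submodule.mem_bot]
  by_contra hf0
  have hf := hf.resolve_left hf0
  obtain ⟨G, hG, hG0⟩ := exists_div hFF hf0
  have h1 : Divisor.degree (0 : Divisor K F) ≤ Divisor.degree (D + G) := by
    refine degree_mono hFF fun v => ?_
    rw [Finsupp.add_apply, hG v, Finsupp.zero_apply]
    have := hf v
    omega
  rw [map_zero, map_add, hG0, add_zero] at h1
  omega

/-- `dim L(D + P) / L(D) ≤ 1`: for a uniformiser `t` at `P` and `n = D P + 1` the map
`f ↦ (t ^ n f)(P)` is linear `L(D + P) → K` with kernel `L(D)` (`S24RH.exists_const`). -/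
theorem exists_smul_sub_mem_LSp (hFF : IsFF K F) (D : Divisor K F) (P : Place K F) {f g : F}
    (hf : f ∈ LSp (D + Finsupp.single P 1)) (hg : g ∈ LSp (D + Finsupp.single P 1))
    (hg' : g ∉ LSp D) : ∃ c : K, f - c • g ∈ LSp D := by
  classical
  have hg0 : g ≠ 0 := fun h => hg' (h ▸ (LSp D).zero_mem)
  have hgv := hg.resolve_left hg0
  -- away from `P` membership in `L(D + P)` and `L(D)` agree
  have key : ∀ u : F, u ∈ LSp (D + Finsupp.single P 1) → (u = 0 ∨ -D P ≤ P.ord u) →
      u ∈ LSp D := by
    intro u hu huP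
    by_cases hu0 : u = 0
    · exact Or.inl hu0
    refine Or.inr fun v => ?_
    by_cases hv : v = P
    · rw [hv]; exact huP.resolve_left hu0
    · have := hu.resolve_left hu0 v
      rwa [Finsupp.add_apply, Finsupp.single_apply, if_neg (Ne.symm hv), add_zero] at this
  have hgP : P.ord g = -D P - 1 := by
    have h1 := hgv P
    rw [Finsupp.add_apply, Finsupp.single_eq_same] at h1
    have h2 : ¬ (-D P ≤ P.ord g) := fun h => hg' (key g hg (Or.inr h))
    omega
  by_cases hf0 : f = 0
  · exact ⟨0, by rw [hf0, zero_smul, sub_zero]; exact (LSp D).zero_mem⟩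
  have hfP := hf.resolve_left hf0 P
  rw [Finsupp.add_apply, Finsupp.single_eq_same] at hfP
  have hz : f / g ∈ P.toValuationSubring := by
    rw [← ord_nonneg_iff, ord_div P hf0 hg0]
    omega
  obtain ⟨c, hc⟩ := exists_const hFF P hz
  refine ⟨c, key _ (Submodule.sub_mem _ hf (Submodule.smul_mem _ c hg)) ?_⟩
  have hfac : f - c • g = g * (f / g - algebraMap K F c) := by
    rw [Algebra.smul_def]
    field_simp
  rcases hc with hc | hc
  · left
    rw [hfac, hc, sub_self, mul_zero]
  · right
    have hne : f / g - algebraMap K F c ≠ 0 := by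
      intro h0
      rw [h0, P.ord_zero] at hc
      exact lt_irrefl _ hc
    rw [hfac, P.ord_mul hg0 hne, hgP]
    omega

/-- `L(D + P) ≤ L(D) + K g` -/
theorem exists_LSp_add_single_le (hFF : IsFF K F) (D : Divisor K F) (P : Place K F) :
    ∃ g : F, LSp (D + Finsupp.single P 1) ≤ LSp D ⊔ Submodule.span K {g} := by
  by_cases h : ∃ g, g ∈ LSp (D + Finsupp.single P 1) ∧ g ∉ LSp D
  · obtain ⟨g, hg, hg'⟩ := h
    refine ⟨g, fun f hf => ?_⟩
    obtain ⟨c, hc⟩ := exists_smul_sub_mem_LSp hFF D P hf hg hg'
    rw [Submodule.mem_sup]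
    exact ⟨f - c • g, hc, c • g, Submodule.smul_mem _ c (Submodule.mem_span_singleton_self g),
      sub_add_cancel _ _⟩
  · push Not at h
    exact ⟨0, fun f hf => Submodule.mem_sup_left (h f hf)⟩

theorem le_add_single (D : Divisor K F) (P : Place K F) (v : Place K F) :
    D v ≤ (D + Finsupp.single P 1 : Divisor K F) v := by
  classical
  rw [Finsupp.add_apply, Finsupp.single_apply]
  split_ifs <;> omega

theorem degree_add_single (hFF : IsFF K F) (D : Divisor K F) (P : Place K F) (n : ℤ) :
    Divisor.degree (D + Finsupp.single P n) = Divisor.degree D + n := by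
  rw [map_add, Divisor.degree_single, deg_eq_one hFF P]
  simp

theorem finiteDimensional_LSp (hFF : IsFF K F) (D : Divisor K F) :
    FiniteDimensional K (LSp D) := by
  obtain ⟨P⟩ := exists_place hFF
  have step : ∀ D : Divisor K F, FiniteDimensional K (LSp D) →
      FiniteDimensional K (LSp (D + Finsupp.single P 1)) := by
    intro D hD
    obtain ⟨g, hg⟩ := exists_LSp_add_single_le hFF D P
    exact Submodule.finiteDimensional_of_le hg
  have steps : ∀ (n : ℕ) (D : Divisor K F), FiniteDimensional K (LSp D) →
      FiniteDimensional K (LSp (D + Finsupp.single P (n : ℤ))) := by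
    intro n
    induction n with
    | zero => intro D hD; rwa [Nat.cast_zero, Finsupp.single_zero, add_zero]
    | succ k ih =>
      intro D hD
      have := step _ (ih D hD)
      rwa [add_assoc, ← Finsupp.single_add, ← Nat.cast_succ] at this
  set n : ℕ := (Divisor.degree D + 1).toNat with hn
  have h0 : LSp (D + Finsupp.single P (-(n : ℤ))) = ⊥ := by
    apply LSp_eq_bot_of_degree_neg hFF
    rw [degree_add_single hFF]
    omega
  have h1 : FiniteDimensional K (LSp (D + Finsupp.single P (-(n : ℤ)))) := by
    rw [h0]; infer_instance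
  have := steps n _ h1
  rwa [add_assoc, ← Finsupp.single_add, neg_add_cancel, Finsupp.single_zero, add_zero] at this

theorem ell_le_ell_add_single (hFF : IsFF K F) (D : Divisor K F) (P : Place K F) :
    ell D ≤ ell (D + Finsupp.single P 1) := by
  have := finiteDimensional_LSp hFF (D + Finsupp.single P 1)
  exact Submodule.finrank_mono (LSp_mono (le_add_single D P))

theorem ell_add_single_le (hFF : IsFF K F) (D : Divisor K F) (P : Place K F) :
    ell (D + Finsupp.single P 1) ≤ ell D + 1 := by
  have := finiteDimensional_LSp hFF D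
  obtain ⟨g, hg⟩ := exists_LSp_add_single_le hFF D P
  calc ell (D + Finsupp.single P 1) ≤ Module.finrank K ↥(LSp D ⊔ Submodule.span K {g}) :=
        Submodule.finrank_mono hg
    _ ≤ Module.finrank K (LSp D) + Module.finrank K (Submodule.span K {g}) :=
        Submodule.finrank_add_le_finrank_add_finrank _ _
    _ ≤ ell D + 1 := by
        refine Nat.add_le_add_left ?_ _
        have := finrank_span_le_card (R := K) ({g} : Set F)
        simpa using this

/-- `ℓ(E) - ℓ(D) ≤ deg E - deg D` for `D ≤ E` -/
theorem ell_sub_le (hFF : IsFF K F) {D E : Divisor K F} (h : ∀ v, D v ≤ E v) :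
    (ell E : ℤ) - ell D ≤ Divisor.degree E - Divisor.degree D := by
  have main : ∀ (n : ℕ) (E : Divisor K F), (∀ v, D v ≤ E v) →
      Divisor.degree E - Divisor.degree D ≤ n →
      (ell E : ℤ) - ell D ≤ Divisor.degree E - Divisor.degree D := by
    intro n
    induction n with
    | zero =>
      intro E h hn
      by_cases hP : ∃ P, D P < E P
      · exfalso
        obtain ⟨P, hP⟩ := hP
        have h1 : Divisor.degree D ≤ Divisor.degree (E + Finsupp.single P (-1)) := by
          classical
          refine degree_mono hFF fun v => ?_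
          rw [Finsupp.add_apply, Finsupp.single_apply]
          split_ifs with hv
          · rw [← hv]; omega
          · rw [add_zero]; exact h v
        rw [degree_add_single hFF] at h1
        push_cast at hn
        omega
      · push Not at hP
        have : E = D := by
          ext v
          exact le_antisymm (hP v) (h v)
        rw [this]; simp
    | succ k ih =>
      intro E h hn
      by_cases hP : ∃ P, D P < E P
      · obtain ⟨P, hP⟩ := hP
        have h1 : ∀ v, D v ≤ (E + Finsupp.single P (-1) : Divisor K F) v := by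
          classical
          intro v
          rw [Finsupp.add_apply, Finsupp.single_apply]
          split_ifs with hv
          · rw [← hv]; omega
          · rw [add_zero]; exact h v
        have h2 := degree_add_single hFF E P (-1)
        have h3 := ih _ h1 (by rw [h2]; push_cast at hn; omega)
        have h4 := ell_add_single_le hFF (E + Finsupp.single P (-1)) P
        rw [add_assoc, ← Finsupp.single_add, neg_add_cancel, Finsupp.single_zero, add_zero] at h4
        rw [h2] at h3
        omega
      · push Not at hP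
        have : E = D := by
          ext v
          exact le_antisymm (hP v) (h v)
        rw [this]; simp
  exact main (Divisor.degree E - Divisor.degree D).toNat E h (Int.self_le_toNat _)

theorem ell_pos_iff (hFF : IsFF K F) (D : Divisor K F) :
    0 < ell D ↔ ∃ f : F, f ≠ 0 ∧ f ∈ LSp D := by
  have := finiteDimensional_LSp hFF D
  unfold ell
  rw [Module.finrank_pos_iff, Submodule.nontrivial_iff_ne_bot, Submodule.ne_bot_iff]
  exact ⟨fun ⟨f, h1, h2⟩ => ⟨f, h2, h1⟩, fun ⟨f, h1, h2⟩ => ⟨f, h2, h1⟩⟩

/-- a function without poles is constant (`ES/K/PlaceExist.exists_const_of_forall_ord_le_zero`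
applied to `f⁻¹`, or directly `sum_ord_eq_zero`) -/
theorem ell_zero (hFF : IsFF K F) : ell (0 : Divisor K F) = 1 := by
  obtain ⟨P⟩ := exists_place hFF
  have h0 : LSp (Finsupp.single P (-1) : Divisor K F) = ⊥ := by
    apply LSp_eq_bot_of_degree_neg hFF
    rw [Divisor.degree_single, deg_eq_one hFF P]
    norm_num
  have h1 := ell_add_single_le hFF (Finsupp.single P (-1)) P
  rw [← Finsupp.single_add, neg_add_cancel, Finsupp.single_zero] at h1
  have h2 : ell (Finsupp.single P (-1) : Divisor K F) = 0 := by
    unfold ell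
    rw [h0]
    exact finrank_bot K F
  have h3 : 0 < ell (0 : Divisor K F) :=
    (ell_pos_iff hFF 0).2 ⟨1, one_ne_zero, Or.inr fun v => by simp⟩
  omega

/-! ### R2: Riemann's inequality and Riemann's theorem -/

/-- Stichtenoth 1.4.14 -/
theorem exists_degree_sub_ell_le (hFF : IsFF K F) :
    ∃ γ : ℤ, ∀ D : Divisor K F, Divisor.degree D - ell D ≤ γ := by
  obtain ⟨γ, hγ⟩ := Fermat.Agent.S37lib.exists_degree_sub_ell_le hFF
  exact ⟨γ, fun D => by rw [ell_eq_ell]; exact hγ D⟩

/-- **Riemann's theorem**, Stichtenoth 1.4.17 -/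
theorem riemann (hFF : IsFF K F) :
    ∃ g c : ℤ, ∀ D : Divisor K F, c ≤ Divisor.degree D →
      (ell D : ℤ) = Divisor.degree D + 1 - g := by
  obtain ⟨g, -, c, hc⟩ := Fermat.Agent.S37lib.exists_genus hFF
  exact ⟨g, c, fun D hD => by rw [ell_eq_ell]; exact hc D hD⟩

/-- Riemann's inequality and Riemann's theorem with the same (natural number) genus -/
theorem exists_genus (hFF : IsFF K F) :
    ∃ g : ℕ, (∀ D : Divisor K F, Divisor.degree D + 1 ≤ ell D + g) ∧
      ∃ c : ℤ, ∀ D : Divisor K F, c ≤ Divisor.degree D →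
        (ell D : ℤ) = Divisor.degree D + 1 - g := by
  obtain ⟨g, h1, c, hc⟩ := Fermat.Agent.S37lib.exists_genus hFF
  exact ⟨g, fun D => by rw [ell_eq_ell]; exact h1 D, c,
    fun D hD => by rw [ell_eq_ell]; exact hc D hD⟩

end

end Fermat.Agent.S37lib.DV
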