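import Fermat.Agent.S37.DV.Aut
import Fermat.Agent.S37.DV.RiemannLS
import Fermat.Agent.ES.B.Main

/-!
# T-S37, part (DV): the setting

`Ω` an algebraically closed field of infinite transcendence degree over `ℚ` (in the application
`Ω = ℂ`), `F = F_Ω = laurentBaseChange Ω F₀ ⊆ Ω((q))`, `G = Aut(Ω/ℚ)` acting coefficientwise
(`act F₀ σ = arithmeticGalois F₀ σ : SemilinearAut Ω F`, which acts on `F`, on `Place Ω F`, on
`Divisor Ω F`).
-/

set_option autoImplicit false
set_option linter.unusedSectionVars false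

open AlgebraicCurve ModularCurve Fermat.Agent.S24RH Fermat.Agent.ESlib

namespace Fermat.Agent.S37lib.DV

variable {Ω : Type} [Field Ω] [Algebra ℚ Ω] (F₀ : IntermediateField ℚ (LaurentSeries ℚ))

/-- the coefficientwise action of `Aut(Ω/ℚ)` -/
noncomputable abbrev act (σ : Ω ≃ₐ[ℚ] Ω) : SemilinearAut Ω (laurentBaseChange Ω F₀) :=
  arithmeticGalois F₀ σ

variable (Ω) in
/-- the data and hypotheses of part (DV) -/
structure Setting where
  /-- `F_L` is a function field for every `L` -/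
  isFF : ∀ (L : Type) [Field L] [Algebra ℚ L], IsFF L (laurentBaseChange L F₀)
  /-- a non constant function with rational coefficients (`j`) -/
  J : laurentBaseChange Ω F₀
  J_fix : ∀ σ : Ω ≃ₐ[ℚ] Ω, act F₀ σ • J = J
  J_tr : Transcendental Ω J
  /-- a place fixed by all the automorphisms (the cusp `∞`) -/
  Pinf : Place Ω (laurentBaseChange Ω F₀)
  Pinf_fix : ∀ σ : Ω ≃ₐ[ℚ] Ω, act F₀ σ • Pinf = Pinf
  /-- `Ω` has infinite transcendence degree -/
  inf : ∀ S : Finset Ω, ∃ t, t ∉ clo (S : Set Ω)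

variable {F₀}

/-- `J(P) = a` -/
def Setting.HasVal (𝔖 : Setting Ω F₀) (P : Place Ω (laurentBaseChange Ω F₀)) (a : Ω) : Prop :=
  0 < P.ord (𝔖.J - algebraMap Ω (laurentBaseChange Ω F₀) a)

/-- the divisor `P₁ + ... + Pₙ` -/
noncomputable def dsum {K F : Type*} [Field K] [Field F] [Algebra K F] {n : ℕ}
    (P : Fin n → Place K F) : Divisor K F := ∑ i, Finsupp.single (P i) 1

/-- a generic `n`-tuple of places: the values `J(P_i)` are algebraically independent over `ℚ` -/
def Setting.IsGen (𝔖 : Setting Ω F₀) {n : ℕ} (P : Fin n → Place Ω (laurentBaseChange Ω F₀)) :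
    Prop :=
  ∃ t : Fin n → Ω, AlgebraicIndependent ℚ t ∧ ∀ i, 𝔖.HasVal (P i) (t i)

/-- Riemann's theorem with constants `g`, `c` -/
def IsRiemann (K F : Type*) [Field K] [Field F] [Algebra K F] (g c : ℤ) : Prop :=
  ∀ D : Divisor K F, c ≤ Divisor.degree D → (ell D : ℤ) = Divisor.degree D + 1 - g

/-- the classes killed by `m` are finite in number -/
def FinTors (K F : Type*) [Field K] [Field F] [Algebra K F] (m : ℕ) : Prop :=
  ∃ 𝒯 : Finset (Divisor K F), ∀ D : Divisor K F, Divisor.degree D = 0 → LinEq (m • D) 0 →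
    ∃ T ∈ 𝒯, LinEq D T

end Fermat.Agent.S37lib.DV
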