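import Fermat.Agent.S37.DV.Fixed
import Fermat.Agent.S37.DV.GenericConj

/-!
# T-S37, part (DV), block T: `Hfix S t` acts transitively on the places above `J = t`,
`t` transcendental over `clo S`   (= irreducibility of the curve)

Both statements are instances of `GenericConj.lean` (evaluation at a generic place is an embedding
`F_{clo S} → Ω`, two such embeddings are conjugate, and a generic place is determined by its
evaluation).  The former blocks T1, T2, T3 are no longer needed.
-/

set_option autoImplicit false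
set_option linter.unusedSectionVars false

open AlgebraicCurve ModularCurve Fermat.Agent.S24RH Fermat.Agent.ESlib Polynomial

namespace Fermat.Agent.S37lib.DV

variable {Ω : Type} [Field Ω] [Algebra ℚ Ω] [IsAlgClosed Ω] [CharZero Ω]
  {F₀ : IntermediateField ℚ (LaurentSeries ℚ)} (𝔖 : Setting Ω F₀)

/-- **T0.**  a place above a value `t ∉ clo S` is trivial on `bc (F_{clo S})`. -/
theorem Setting.ord_bc_eq_zero (S : Set Ω) {t : Ω} (ht : t ∉ clo S)
    {P : Place Ω (laurentBaseChange Ω F₀)} (hP : 𝔖.HasVal P t)
    (f : laurentBaseChange (cloField S) F₀) : P.ord (bc (cloField S) Ω F₀ f) = 0 :=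
  𝔖.ord_bc_eq_zero_aux S ht hP f

/-- **T (transitivity).** -/
theorem Setting.exists_mem_Hfix_smul_eq {g c : ℤ} (_hR : IsRiemann Ω (laurentBaseChange Ω F₀) g c)
    (S : Set Ω) {t : Ω} (ht : t ∉ clo S) {P P' : Place Ω (laurentBaseChange Ω F₀)}
    (hP : 𝔖.HasVal P t) (hP' : 𝔖.HasVal P' t) : ∃ τ ∈ Hfix S t, act F₀ τ • P = P' :=
  𝔖.exists_mem_Hfix_smul_eq_aux S ht hP hP'

end Fermat.Agent.S37lib.DV
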