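import Fermat.Agent.S37.DV.Setup

/-!
# T-S37, part (DV), block U: a place of `F_L` (`L` algebraically closed) has only one extension
to `F_{L'}`
-/

set_option autoImplicit false
set_option linter.unusedSectionVars false

open AlgebraicCurve ModularCurve Fermat.Agent.S24RH Fermat.Agent.ESlib

namespace Fermat.Agent.S37lib.DV

theorem le_ord_finset_sum {K F ι : Type*} [Field K] [Field F] [Algebra K F] (v : Place K F)
    (s : Finset ι) (f : ι → F) (n : ℤ) (h : ∀ i ∈ s, f i = 0 ∨ n ≤ v.ord (f i)) :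
    ∑ i ∈ s, f i = 0 ∨ n ≤ v.ord (∑ i ∈ s, f i) := by
  classical
  induction s using Finset.induction_on with
  | empty => left; simp
  | insert i s hi ih =>
    rw [Finset.sum_insert hi]
    exact le_ord_add v (h i (Finset.mem_insert_self i s))
      (ih fun j hj => h j (Finset.mem_insert_of_mem hj))

/-- abstract form of **U2** -/
theorem ord_sum_eq_abstract {L L' F F' : Type*} [Field L] [Field L'] [Field F] [Field F']
    [Algebra L L'] [Algebra L F] [Algebra L' F'] [IsAlgClosed L] [CharZero L] (β : F →+* F')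
    (hβ : ∀ c, β (algebraMap L F c) = algebraMap L' F' (algebraMap L L' c)) (hFF : IsFF L F)
    (v : Place L F) (P : Place L' F') {n : ℕ}
    (hn : 0 < n) (h : ∀ f, P.ord (β f) = n * v.ord f)
    {k : ℕ} (a : Fin k → L') (ha : LinearIndependent L a) (u : Fin k → F)
    (μ : ℤ) (hμ : ∀ i, u i = 0 ∨ μ ≤ v.ord (u i)) (hμ' : ∃ i, u i ≠ 0 ∧ v.ord (u i) = μ) :
    (∑ i, algebraMap L' F' (a i) * β (u i)) ≠ 0 ∧
    P.ord (∑ i, algebraMap L' F' (a i) * β (u i)) = n * μ := by
  obtain ⟨t, ht⟩ := exists_ord_eq_one v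
  have ht0 : t ≠ 0 := by rintro rfl; simp at ht
  have htμ : t ^ (-μ) ≠ 0 := zpow_ne_zero _ ht0
  have hy : ∀ i, u i * t ^ (-μ) ∈ v.toValuationSubring := by
    intro i
    rcases hμ i with h0 | h1
    · rw [h0, zero_mul]; exact zero_mem _
    · by_cases h0 : u i = 0
      · rw [h0, zero_mul]; exact zero_mem _
      apply mem_of_ord_nonneg
      rw [v.ord_mul h0 htμ, v.ord_zpow, ht]; omega
  choose c hc using fun i => exists_const hFF v (hy i)
  -- the constant term
  have hA : (∑ i, a i * algebraMap L L' (c i)) ≠ 0 := by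
    intro h0
    have h1 : ∑ i, c i • a i = 0 := by
      rw [← h0]
      exact Finset.sum_congr rfl fun i _ => by rw [Algebra.smul_def, mul_comm]
    have h2 := Fintype.linearIndependent_iff.mp ha c h1
    obtain ⟨i, hi0, hi⟩ := hμ'
    have h3 : v.ord (u i * t ^ (-μ)) = 0 := by
      rw [v.ord_mul hi0 htμ, v.ord_zpow, ht]; omega
    rcases hc i with h4 | h4
    · rw [h2 i, map_zero] at h4
      exact mul_ne_zero hi0 htμ h4
    · rw [h2 i, map_zero, sub_zero] at h4
      omega
  -- the remainder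
  have hR := le_ord_finset_sum P Finset.univ (fun i =>
    algebraMap L' F' (a i) * β (u i * t ^ (-μ) - algebraMap L F (c i))) 1 (by
    intro i _
    rcases hc i with h4 | h4
    · left
      rw [h4, sub_self, map_zero, mul_zero]
    · by_cases ha0 : a i = 0
      · left; rw [ha0, map_zero, zero_mul]
      right
      have h5 : u i * t ^ (-μ) - algebraMap L F (c i) ≠ 0 := by
        intro h6; rw [h6] at h4; simp at h4
      rw [P.ord_mul (by simpa using ha0) ((map_ne_zero _).2 h5), ord_algebraMap, h, zero_add]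
      have : (1 : ℤ) ≤ n := by exact_mod_cast hn
      nlinarith)
  have hbt : β t ≠ 0 := (map_ne_zero _).2 ht0
  have hsplit : (∑ i, algebraMap L' F' (a i) * β (u i))
      = β t ^ μ * (algebraMap L' F' (∑ i, a i * algebraMap L L' (c i))
        + ∑ i, algebraMap L' F' (a i) * β (u i * t ^ (-μ) - algebraMap L F (c i))) := by
    have hterm : ∀ i, algebraMap L' F' (a i) * β (u i)
        = β t ^ μ * (algebraMap L' F' (a i * algebraMap L L' (c i)) + algebraMap L' F' (a i) *
          β (u i * t ^ (-μ) - algebraMap L F (c i))) := by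
      intro i
      have h1 : β (u i * t ^ (-μ) - algebraMap L F (c i))
          = β (u i) * (β t ^ μ)⁻¹ - algebraMap L' F' (algebraMap L L' (c i)) := by
        rw [map_sub, map_mul, map_zpow₀, hβ, zpow_neg]
      rw [h1, map_mul]
      have h2 : β t ^ μ ≠ 0 := zpow_ne_zero _ hbt
      field_simp
      ring
    rw [Finset.sum_congr rfl (fun i _ => hterm i), ← Finset.mul_sum, Finset.sum_add_distrib,
      ← map_sum]
  have hf0 : algebraMap L' F' (∑ i, a i * algebraMap L L' (c i)) ≠ 0 :=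
    (map_ne_zero _).2 hA
  obtain ⟨h7, h8⟩ := ord_add_eq_of_lt P hf0
    (g := ∑ i, algebraMap L' F' (a i) * β (u i * t ^ (-μ) - algebraMap L F (c i))) (by
    rcases hR with h9 | h9
    · exact Or.inl h9
    · right; rw [ord_algebraMap]; omega)
  rw [hsplit]
  refine ⟨mul_ne_zero (zpow_ne_zero _ hbt) h7, ?_⟩
  rw [P.ord_mul (zpow_ne_zero _ hbt) h7, h8, ord_algebraMap, P.ord_zpow, h, ht]
  ring

theorem exists_min_ord {K F : Type*} [Field K] [Field F] [Algebra K F] (v : Place K F) {k : ℕ}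
    (u : Fin k → F) (hu : ∃ i, u i ≠ 0) :
    ∃ μ : ℤ, (∀ i, u i = 0 ∨ μ ≤ v.ord (u i)) ∧ ∃ i, u i ≠ 0 ∧ v.ord (u i) = μ := by
  classical
  obtain ⟨i₀, hi₀⟩ := hu
  obtain ⟨i, hi, hmin⟩ := Finset.exists_min_image (Finset.univ.filter fun i => u i ≠ 0)
    (fun i => v.ord (u i)) ⟨i₀, by simpa using hi₀⟩
  refine ⟨v.ord (u i), fun j => ?_, i, by simpa using hi, rfl⟩
  by_cases hj : u j = 0
  · exact Or.inl hj
  · exact Or.inr (hmin j (by simpa using hj))

variable (L L' : Type*) [Field L] [Field L'] [Algebra ℚ L] [Algebra ℚ L'] [Algebra L L']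
  [IsScalarTower ℚ L L'] [IsAlgClosed L]
variable (F₀ : IntermediateField ℚ (LaurentSeries ℚ))

/-- the map `U ↦ ∑_j ℬ_j * bc (U j)` -/
noncomputable def psiB {I : Type*} (ℬ : Module.Basis I L L') :
    (I →₀ laurentBaseChange L F₀) →+ laurentBaseChange L' F₀ :=
  Finsupp.liftAddHom (fun j =>
    (AddMonoidHom.mulLeft (algebraMap L' (laurentBaseChange L' F₀) (ℬ j))).comp
      (bc L L' F₀).toAddMonoidHom)

theorem psiB_apply {I : Type*} (ℬ : Module.Basis I L L') (U : I →₀ laurentBaseChange L F₀) :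
    psiB L L' F₀ ℬ U
      = U.sum fun j u => algebraMap L' (laurentBaseChange L' F₀) (ℬ j) * bc L L' F₀ u := rfl

theorem mul_bc_mem_range_psiB {I : Type*} (ℬ : Module.Basis I L L') (a : L')
    (u : laurentBaseChange L F₀) :
    algebraMap L' (laurentBaseChange L' F₀) a * bc L L' F₀ u ∈ (psiB L L' F₀ ℬ).range := by
  refine ⟨(ℬ.repr a).mapRange (fun c => algebraMap L (laurentBaseChange L F₀) c * u) (by simp), ?_⟩
  rw [psiB_apply, Finsupp.sum_mapRange_index (by simp)]
  conv_rhs => rw [← ℬ.linearCombination_repr a, Finsupp.linearCombination_apply, map_finsuppSum,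
    Finsupp.sum_mul]
  refine Finsupp.sum_congr fun j _ => ?_
  rw [map_mul, bc_algebraMap, Algebra.smul_def, map_mul]
  ring

theorem mem_range_psiB_of_mem_adjoin {I : Type*} (ℬ : Module.Basis I L L') {Q : LaurentSeries L'}
    (hQ : Q ∈ Algebra.adjoin L' (⇑(coeffEmb L') '' (F₀ : Set (LaurentSeries ℚ)))) :
    ∃ y ∈ (psiB L L' F₀ ℬ).range, (y : LaurentSeries L') = Q := by
  have himg : (⇑(coeffEmb L') '' (F₀ : Set (LaurentSeries ℚ)))
      = ((F₀.toSubfield.toSubring.toSubmonoid.map (coeffEmb L' : _ →* _) :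
          Submonoid (LaurentSeries L')) : Set (LaurentSeries L')) := rfl
  rw [← Subalgebra.mem_toSubmodule, Algebra.adjoin_eq_span, himg, Submonoid.closure_eq,
    ← himg] at hQ
  induction hQ using Submodule.span_induction with
  | mem x hx =>
    obtain ⟨z, hz, rfl⟩ := hx
    refine ⟨_, mul_bc_mem_range_psiB L L' F₀ ℬ 1 ⟨coeffEmb L z, coeffEmb_mem_laurentBaseChange L hz⟩,
      ?_⟩
    rw [map_one, one_mul, coe_bc]
    exact coeffMap_coeffEmb_algebraMap L L' z
  | zero => exact ⟨0, zero_mem _, rfl⟩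
  | add x y _ _ hx hy =>
    obtain ⟨x', hx', rfl⟩ := hx
    obtain ⟨y', hy', rfl⟩ := hy
    exact ⟨x' + y', add_mem hx' hy', rfl⟩
  | smul a x _ hx =>
    obtain ⟨x', ⟨U, rfl⟩, rfl⟩ := hx
    refine ⟨algebraMap L' (laurentBaseChange L' F₀) a * psiB L L' F₀ ℬ U, ?_, ?_⟩
    · rw [psiB_apply, Finsupp.mul_sum]
      refine sum_mem fun j _ => ?_
      show algebraMap L' (laurentBaseChange L' F₀) a *
          (algebraMap L' (laurentBaseChange L' F₀) (ℬ j) * bc L L' F₀ (U j)) ∈ _
      rw [← mul_assoc, ← map_mul]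
      exact mul_bc_mem_range_psiB L L' F₀ ℬ _ _
    · rw [Algebra.smul_def]
      rfl

/-- **U1.**  Every element of `F_{L'}` is a quotient `A / B` of `L'`-linear combinations of elements
of `bc (F_L)`, with coefficients linearly independent over `L`.
(`IntermediateField.mem_adjoin_iff_div` as in `ESlib.exists_bc_eq_of_coeff_mem`: `A`, `B` are in
`Algebra.adjoin L' (coeffEmb L' '' F₀)`, which is the `L'`-span of `coeffEmb L' '' F₀`; then express
the coefficients in an `L`-basis of `L'`.) -/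
theorem exists_eq_div_sum (x : laurentBaseChange L' F₀) :
    ∃ (k : ℕ) (a : Fin k → L') (u w : Fin k → laurentBaseChange L F₀), LinearIndependent L a ∧
      (∑ i, algebraMap L' (laurentBaseChange L' F₀) (a i) * bc L L' F₀ (w i)) ≠ 0 ∧
      x = (∑ i, algebraMap L' (laurentBaseChange L' F₀) (a i) * bc L L' F₀ (u i)) /
        (∑ i, algebraMap L' (laurentBaseChange L' F₀) (a i) * bc L L' F₀ (w i)) := by
  classical
  let ℬ := Module.Basis.ofVectorSpace L L'
  -- a general conversion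
  have key : ∀ (U W : _ →₀ laurentBaseChange L F₀), psiB L L' F₀ ℬ W ≠ 0 →
      x = psiB L L' F₀ ℬ U / psiB L L' F₀ ℬ W → ∃ (k : ℕ) (a : Fin k → L')
      (u w : Fin k → laurentBaseChange L F₀), LinearIndependent L a ∧
      (∑ i, algebraMap L' (laurentBaseChange L' F₀) (a i) * bc L L' F₀ (w i)) ≠ 0 ∧
      x = (∑ i, algebraMap L' (laurentBaseChange L' F₀) (a i) * bc L L' F₀ (u i)) /
        (∑ i, algebraMap L' (laurentBaseChange L' F₀) (a i) * bc L L' F₀ (w i)) := by
    intro U W hW hx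
    let T := U.support ∪ W.support
    let e := T.equivFin.symm
    have hsum : ∀ V : _ →₀ laurentBaseChange L F₀, V.support ⊆ T →
        ∑ i, algebraMap L' (laurentBaseChange L' F₀) (ℬ (e i)) * bc L L' F₀ (V (e i))
          = psiB L L' F₀ ℬ V := by
      intro V hV
      rw [psiB_apply, Finsupp.sum_of_support_subset V hV _ (by simp),
        Equiv.sum_comp e (fun j : T =>
          algebraMap L' (laurentBaseChange L' F₀) (ℬ j) * bc L L' F₀ (V j)),
        Finset.sum_coe_sort T (fun j =>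
          algebraMap L' (laurentBaseChange L' F₀) (ℬ j) * bc L L' F₀ (V j))]
    refine ⟨T.card, fun i => ℬ (e i), fun i => U (e i), fun i => W (e i), ?_, ?_, ?_⟩
    · exact ℬ.linearIndependent.comp (fun i => ((e i : T) : _))
        (Subtype.val_injective.comp e.injective)
    · rw [hsum W Finset.subset_union_right]; exact hW
    · rw [hsum W Finset.subset_union_right, hsum U Finset.subset_union_left]; exact hx
  obtain ⟨x, hx⟩ := x
  obtain ⟨P, hP, Q, hQ, hPQ⟩ := IntermediateField.mem_adjoin_iff_div.mp hx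
  obtain ⟨_, ⟨U, rfl⟩, hU⟩ := mem_range_psiB_of_mem_adjoin L L' F₀ ℬ hP
  obtain ⟨_, ⟨W, rfl⟩, hW⟩ := mem_range_psiB_of_mem_adjoin L L' F₀ ℬ hQ
  by_cases hQ0 : psiB L L' F₀ ℬ W = 0
  · -- `x = 0`
    obtain ⟨_, ⟨W1, rfl⟩, hW1⟩ := mem_range_psiB_of_mem_adjoin L L' F₀ ℬ
      (one_mem (Algebra.adjoin L' (⇑(coeffEmb L') '' (F₀ : Set (LaurentSeries ℚ)))))
    have h1 : psiB L L' F₀ ℬ W1 = 1 := Subtype.ext hW1
    refine key 0 W1 (by rw [h1]; exact one_ne_zero) ?_
    rw [map_zero, zero_div]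
    apply Subtype.ext
    show x = 0
    rw [hPQ, ← hW, hQ0]
    simp
  · refine key U W hQ0 ?_
    apply Subtype.ext
    show x = _
    rw [hPQ, ← hU, ← hW]
    rfl

/-- **U2.**  `ord_P (∑ a_i u_i) = n * min_i ord_v (u_i)` if the `a_i` are linearly independent over
`L`.  Proof: let `μ` be the minimum, `t` with `ord_v t = 1`, `u_i = t ^ μ (c_i + u_i')`, `c_i ∈ L` not
all zero, `ord_v u_i' > 0` or `u_i' = 0` (`S24RH.exists_const`); `∑ a_i c_i ≠ 0` is a constant and
`∑ a_i u_i'` has positive order at `P`. -/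
theorem ord_sum_eq (hFF : IsFF L (laurentBaseChange L F₀))
    (v : Place L (laurentBaseChange L F₀)) (P : Place L' (laurentBaseChange L' F₀)) {n : ℕ}
    (hn : 0 < n) (h : ∀ f, P.ord (bc L L' F₀ f) = n * v.ord f)
    {k : ℕ} (a : Fin k → L') (ha : LinearIndependent L a) (u : Fin k → laurentBaseChange L F₀)
    (μ : ℤ) (hμ : ∀ i, u i = 0 ∨ μ ≤ v.ord (u i)) (hμ' : ∃ i, u i ≠ 0 ∧ v.ord (u i) = μ) :
    (∑ i, algebraMap L' (laurentBaseChange L' F₀) (a i) * bc L L' F₀ (u i)) ≠ 0 ∧
    P.ord (∑ i, algebraMap L' (laurentBaseChange L' F₀) (a i) * bc L L' F₀ (u i)) = n * μ :=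
  have : CharZero L := algebraRat.charZero L
  ord_sum_eq_abstract (bc L L' F₀) (bc_algebraMap L L' F₀) hFF v P hn h a ha u μ hμ hμ'

/-- the order at `P` of an `L'`-combination is `n * μ` with `μ` independent of `P` -/
theorem exists_ord_sum_eq (hFF : IsFF L (laurentBaseChange L F₀))
    (v : Place L (laurentBaseChange L F₀))
    {k : ℕ} (a : Fin k → L') (ha : LinearIndependent L a) (u : Fin k → laurentBaseChange L F₀)
    (hu : (∑ i, algebraMap L' (laurentBaseChange L' F₀) (a i) * bc L L' F₀ (u i)) ≠ 0) :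
    ∃ μ : ℤ, ∀ (P : Place L' (laurentBaseChange L' F₀)) (n : ℕ), 0 < n →
      (∀ f, P.ord (bc L L' F₀ f) = n * v.ord f) →
      P.ord (∑ i, algebraMap L' (laurentBaseChange L' F₀) (a i) * bc L L' F₀ (u i)) = n * μ := by
  classical
  have hne : (Finset.univ.filter fun i => u i ≠ 0).Nonempty := by
    by_contra hcon
    rw [Finset.not_nonempty_iff_eq_empty, Finset.filter_eq_empty_iff] at hcon
    apply hu
    refine Finset.sum_eq_zero fun i _ => ?_
    have : u i = 0 := by
      by_contra h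
      exact hcon (Finset.mem_univ i) h
    rw [this, map_zero, mul_zero]
  obtain ⟨i₀, hi₀, hmin⟩ := Finset.exists_min_image _ (fun i => v.ord (u i)) hne
  rw [Finset.mem_filter] at hi₀
  refine ⟨v.ord (u i₀), fun P n hn h => ?_⟩
  refine (ord_sum_eq L L' F₀ hFF v P hn h a ha u (v.ord (u i₀)) (fun i => ?_) ⟨i₀, hi₀.2, rfl⟩).2
  by_cases hi : u i = 0
  · exact Or.inl hi
  · exact Or.inr (hmin i (Finset.mem_filter.2 ⟨Finset.mem_univ i, hi⟩))

/-- **U (uniqueness of the extension).**  (U1 + U2: `n' * ord_P x = n * ord_{P'} x` for all `x`, so the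
valuation rings coincide; `S24RH.place_ext_of_le`, `ord_nonneg_iff`.) -/
theorem place_eq_of_restrict (hFF : IsFF L (laurentBaseChange L F₀))
    (v : Place L (laurentBaseChange L F₀)) (P P' : Place L' (laurentBaseChange L' F₀)) {n n' : ℕ}
    (hn : 0 < n) (hn' : 0 < n') (h : ∀ f, P.ord (bc L L' F₀ f) = n * v.ord f)
    (h' : ∀ f, P'.ord (bc L L' F₀ f) = n' * v.ord f) : P = P' := by
  apply place_ext_of_le
  intro x hx
  by_cases hx0 : x = 0
  · rw [hx0]; exact zero_mem _
  obtain ⟨k, a, u, w, ha, hB, hxAB⟩ := exists_eq_div_sum L L' F₀ x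
  have hA : (∑ i, algebraMap L' (laurentBaseChange L' F₀) (a i) * bc L L' F₀ (u i)) ≠ 0 := by
    intro h0
    rw [h0, zero_div] at hxAB
    exact hx0 hxAB
  have hne : ∀ y : Fin k → laurentBaseChange L F₀,
      (∑ i, algebraMap L' (laurentBaseChange L' F₀) (a i) * bc L L' F₀ (y i)) ≠ 0 →
      ∃ i, y i ≠ 0 := by
    intro y hy
    by_contra hcon
    push Not at hcon
    apply hy
    exact Finset.sum_eq_zero fun i _ => by rw [hcon i, map_zero, mul_zero]
  obtain ⟨μ, hμ, hμ'⟩ := exists_min_ord v u (hne u hA)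
  obtain ⟨ν, hν, hν'⟩ := exists_min_ord v w (hne w hB)
  have h1 := (ord_sum_eq L L' F₀ hFF v P hn h a ha u μ hμ hμ').2
  have h2 := (ord_sum_eq L L' F₀ hFF v P hn h a ha w ν hν hν').2
  have h3 := (ord_sum_eq L L' F₀ hFF v P' hn' h' a ha u μ hμ hμ').2
  have h4 := (ord_sum_eq L L' F₀ hFF v P' hn' h' a ha w ν hν hν').2
  have h5 : 0 ≤ P.ord x := ord_nonneg_of_mem P hx
  apply mem_of_ord_nonneg
  rw [hxAB, ord_div _ hA hB] at h5 ⊢
  rw [h1, h2] at h5
  rw [h3, h4]
  have h6 : ν ≤ μ := by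
    have : (0 : ℤ) < n := by exact_mod_cast hn
    nlinarith
  have : (0 : ℤ) < n' := by exact_mod_cast hn'
  nlinarith

end Fermat.Agent.S37lib.DV
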